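import Mathlib
import Fermat.Agent.MUL.Lib.BadRed.Final.Main
import Fermat.Agent.MUL.E.Desc.Kp.FTT
import Fermat.Agent.MUL.R38.Ret.BridgeDefs

section MergeWrap_E_Desc_Kp_ModDefs -- from E/Desc/Kp/ModDefs.lean

set_option autoImplicit false
set_option linter.style.haveILetI false
set_option linter.unusedSectionVars false
set_option synthInstance.maxHeartbeats 400000

noncomputable section

namespace Fermat.Agent.EKp

open IntermediateField ModularCurve AlgebraicCurve Fermat.Agent.F3 Fermat.Agent.F3G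
  Fermat.Agent.GaussInt Fermat.Agent.AtkinLehner Fermat.Agent.Deuring Fermat.Agent.RR
  Fermat.Agent.BadRed

local notation "Qb" => AlgebraicClosure ℚ

attribute [local instance] Fermat.Agent.BadRed.fwFintype

variable (D : ALData) [NeZero D.Q] [NeZero D.R] [NeZero (D.Q * D.R)]
  (A : ValuationSubring Qb) (hq : D.Q.Prime) (hA : A.LiesOverPrime D.Q) (hqR : ¬ D.Q ∣ D.R)
  [Fact D.Q.Prime] [CharP (IsLocalRing.ResidueField A) D.Q]
  [PerfectRing (IsLocalRing.ResidueField A) D.Q]

/-- the Gauss setup `v_∞` at `A`. -/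
abbrev kpS : ValSetup Qb (FBar (D.Q * D.R)) (IsLocalRing.ResidueField A)
    (modularFunctionFieldFullC (IsLocalRing.ResidueField A) D.R) :=
  gaussSetupBad D hq hqR A hA

/-- the nodes at `A`. -/
abbrev kpIota : Type := fwIota D A (kpS D A hq hA hqR)

/-- **the modular nodal setup** at `A | q`. -/
def kpN (haux : AuxLevelOK D.Q D.R) :
    NodalSetup Qb (modularFunctionFieldBar (D.Q * D.R)) (IsLocalRing.ResidueField A)
      (modularFunctionFieldFullC (IsLocalRing.ResidueField A) D.R)
      (modularFunctionFieldFullC (IsLocalRing.ResidueField A) D.R) (kpIota D A hq hA hqR) :=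
  fwNodalSetup D A hq hA hqR (kpS D A hq hA hqR) (isGaussSetup_gaussSetupBad D hq hqR A hA)
    (hasLattice_gaussSetupBad D hq hqR A hA) haux
    (fw_sep D A hq hA hqR _ (isGaussSetup_gaussSetupBad D hq hqR A hA) haux)

theorem kpN_S₁ (haux : AuxLevelOK D.Q D.R) :
    (kpN D A hq hA hqR haux).S₁ = kpS D A hq hA hqR := rfl

theorem kpN_S₂ (haux : AuxLevelOK D.Q D.R) :
    (kpN D A hq hA hqR haux).S₂ = valSetupZero D (kpS D A hq hA hqR) := rfl

/-- the genus relation of the modular nodal setup. -/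
theorem kpN_genusRel (haux : AuxLevelOK D.Q D.R) : (kpN D A hq hA hqR haux).GenusRel :=
  (fwModularNodal D A hq hA hqR (kpS D A hq hA hqR) (isGaussSetup_gaussSetupBad D hq hqR A hA)
    (hasLattice_gaussSetupBad D hq hqR A hA) haux
    (fw_sep D A hq hA hqR _ (isGaussSetup_gaussSetupBad D hq hqR A hA) haux)).genusRel

/-- the toric key statement of the modular nodal setup. -/
theorem kpN_toricKey (haux : AuxLevelOK D.Q D.R) :
    AbstractToricKeyStatement (kpN D A hq hA hqR haux) :=
  fw_abstractToricKey D A hq hA hqR (kpS D A hq hA hqR)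
    (isGaussSetup_gaussSetupBad D hq hqR A hA)
    (hasLattice_gaussSetupBad D hq hqR A hA) haux
    (fw_sep D A hq hA hqR _ (isGaussSetup_gaussSetupBad D hq hqR A hA) haux)

/-- the inertia group at `A`, acting on the function field. -/
def kpΓ : Set (SemilinearAut Qb (modularFunctionFieldBar (D.Q * D.R))) :=
  {t | ∃ τ ∈ A.inertiaSubgroupIn ℚ, t = arithmeticGalois (modularFunctionFieldFull (D.Q * D.R)) τ}

/-- inertia is inertial. -/
theorem kpΓ_isInertial (haux : AuxLevelOK D.Q D.R) :
    ∀ t ∈ kpΓ D A, (kpN D A hq hA hqR haux).IsInertial t := by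
  rintro _ ⟨τ, hτ, rfl⟩
  exact fw_isInertial D A hq hA hqR (kpS D A hq hA hqR)
    (isGaussSetup_gaussSetupBad D hq hqR A hA)
    (hasLattice_gaussSetupBad D hq hqR A hA) haux
    (fw_sep D A hq hA hqR _ (isGaussSetup_gaussSetupBad D hq hqR A hA) haux) τ hτ

/-- **MOD-g**: the residue function field has genus `0` (true for `D.R = 1`, where it is
`k(j)`). -/
def ModG : Prop :=
  genusFF (IsLocalRing.ResidueField A)
    (modularFunctionFieldFullC (IsLocalRing.ResidueField A) D.R) = 0

/-- the multiplicity of the node `i` (the order of vanishing of `ū` at `i`). -/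
def kpEps (i : kpIota D A hq hA hqR) : ℕ :=
  (i.1.ord ((kpS D A hq hA hqR).red (fwU D))).toNat

theorem kpEps_cast (i : kpIota D A hq hA hqR) :
    ((kpEps D A hq hA hqR i : ℕ) : ℤ) = i.1.ord ((kpS D A hq hA hqR).red (fwU D)) :=
  Int.toNat_of_nonneg i.2.le

theorem kpEps_pos (i : kpIota D A hq hA hqR) : 0 < kpEps D A hq hA hqR i := by
  have h := i.2
  rw [← kpEps_cast] at h
  exact_mod_cast h

/-- the constant `d = ∑ ε_i` (`= deg` of the zero divisor of `ū`, `= (q - 1) ψ(R)`). -/
def kpD : ℕ := ∑ i : kpIota D A hq hA hqR, kpEps D A hq hA hqR i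

theorem kpD_pos : 0 < kpD D A hq hA hqR := by
  obtain ⟨i⟩ := fw_nonempty D A hq hA (kpS D A hq hA hqR)
    (isGaussSetup_gaussSetupBad D hq hqR A hA)
  exact lt_of_lt_of_le (kpEps_pos D A hq hA hqR i)
    (Finset.single_le_sum (f := kpEps D A hq hA hqR) (fun _ _ => Nat.zero_le _)
      (Finset.mem_univ i))

/-- **MOD-u**: the statement (ORDT) for the modular nodal setup, with the constant `d = kpD`. -/
def ModU (haux : AuxLevelOK D.Q D.R) : Prop :=
  ∀ n : ℕ, OrdToric (kpN D A hq hA hqR haux) n (kpD D A hq hA hqR)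

end Fermat.Agent.EKp
end
end MergeWrap_E_Desc_Kp_ModDefs
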