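import Mathlib
import Fermat.Agent.MUL.Lib.Deuring.Basic
import Fermat.Agent.MUL.Orig.Lib.FF.Value
import Fermat.Agent.MUL.Lib.BadRed.Mod.SeedNodeA
import Fermat.Agent.MUL.Lib.RedTr.FundIdK
import Fermat.Agent.MUL.Lib.RR.Hurwitz.Val
import Fermat.Agent.MUL.Orig.S24.Residue
import Fermat.Agent.MUL.Orig.Lib.RR.Basic
import Fermat.Agent.MUL.Lib.HeckeInputs.FundId
import Fermat.Agent.MUL.Lib.RR.Hurwitz.Lower
import Fermat.Agent.MUL.S36.Ig.EpsGen

section MergeWrap_E_Desc_Kp_SlopeDefs -- from E/Desc/Kp/SlopeDefs.lean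

set_option autoImplicit false

noncomputable section

namespace Fermat.Agent.EKp

open AlgebraicCurve Fermat.Agent.RR Fermat.Agent.Deuring Fermat.Agent.FF IntermediateField
  Polynomial

variable {K F k Fk₁ Fk₂ : Type*} [Field K] [Field F] [Algebra K F]
  [Field k] [Field Fk₁] [Algebra k Fk₁] [Field Fk₂] [Algebra k Fk₂]

/-- the `u`-data of SLOPE. -/
structure SlopeData (S₁ : ValSetup K F k Fk₁) (S₂ : ValSetup K F k Fk₂) (u : F) (ϖ : K) :
    Prop where
  A_eq : S₁.A = S₂.A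
  varpi_ne : ϖ ≠ 0
  varpi_lt : S₁.A.valuation ϖ < 1
  u_mem : u ∈ S₁.Ov
  u_tr : Transcendental k (S₁.red u)
  u_mem₂ : algebraMap K F ϖ / u ∈ S₂.Ov
  u_tr₂ : Transcendental k (S₂.red (algebraMap K F ϖ / u))
  deg₁ : Module.finrank K⟮u⟯ F = Module.finrank k⟮S₁.red u⟯ Fk₁
  deg₂ : Module.finrank K⟮u⟯ F = Module.finrank k⟮S₂.red (algebraMap K F ϖ / u)⟯ Fk₂

open Classical in
/-- the clamped value of `u` at `P`: `1` if `v(u(P)) ≤ 0` (or `u` has a pole at `P`),
`ϖ` if `v(u(P)) ≥ v(ϖ)`, `u(P)` in between (the valuation is written multiplicatively). -/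
def slopeCl (S₁ : ValSetup K F k Fk₁) (u : F) (ϖ : K) (P : Place K F) : K :=
  if P.ord u < 0 then 1
  else if S₁.A.valuation (valueAt S₁.hF P u) ≤ S₁.A.valuation ϖ then ϖ
  else if S₁.A.valuation (valueAt S₁.hF P u) < 1 then valueAt S₁.hF P u
  else 1

/-- **SL-G, first valuation**: `p(u) = c · (unit of O₁)` with
`v(c) = v(lc p) · ∏_{a root of p} max(1, v(a))`. -/
def SlopeGauss₁ (S₁ : ValSetup K F k Fk₁) (u : F) : Prop :=
  ∀ p : K[X], p ≠ 0 → ∃ c : K, c ≠ 0 ∧
    S₁.A.valuation c =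
      S₁.A.valuation p.leadingCoeff * (p.roots.map fun a => max 1 (S₁.A.valuation a)).prod ∧
    S₁.red (aeval u p / algebraMap K F c) ≠ 0

/-- **SL-G, second valuation**: `p(u) = c · (unit of O₂)` with
`v(c) = v(lc p) · ∏_{a root of p} max(v(ϖ), v(a))`. -/
def SlopeGauss₂ (S₁ : ValSetup K F k Fk₁) (S₂ : ValSetup K F k Fk₂) (u : F) (ϖ : K) : Prop :=
  ∀ p : K[X], p ≠ 0 → ∃ c : K, c ≠ 0 ∧
    S₁.A.valuation c =
      S₁.A.valuation p.leadingCoeff *
        (p.roots.map fun a => max (S₁.A.valuation ϖ) (S₁.A.valuation a)).prod ∧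
    S₂.red (aeval u p / algebraMap K F c) ≠ 0

/-- **SL-N, first valuation**: the norm to `K(u)` of a unit of `O₁` is a unit of `O₁`. -/
def SlopeNorm₁ (S₁ : ValSetup K F k Fk₁) (u : F) : Prop :=
  ∀ ψ : F, S₁.red ψ ≠ 0 → S₁.red (algebraMap K⟮u⟯ F (Algebra.norm K⟮u⟯ ψ)) ≠ 0

/-- **SL-N, second valuation**. -/
def SlopeNorm₂ (S₂ : ValSetup K F k Fk₂) (u : F) : Prop :=
  ∀ ψ : F, S₂.red ψ ≠ 0 → S₂.red (algebraMap K⟮u⟯ F (Algebra.norm K⟮u⟯ ψ)) ≠ 0

end Fermat.Agent.EKp
end
end MergeWrap_E_Desc_Kp_SlopeDefs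

section MergeWrap_E_Desc_Kp_SlopeG -- from E/Desc/Kp/SlopeG.lean

set_option autoImplicit false
set_option linter.unusedSectionVars false
set_option linter.unusedVariables false
set_option linter.style.haveILetI false

noncomputable section

namespace Fermat.Agent.EKp

open AlgebraicCurve Fermat.Agent.RR Fermat.Agent.Deuring IntermediateField Polynomial

/-! ### units of the form `t - a` -/

section Unit

variable {K F k Fk : Type*} [Field K] [Field F] [Algebra K F]
  [Field k] [Field Fk] [Algebra k Fk] (S : ValSetup K F k Fk)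

/-- `x - 1` is a unit if `x` reduces to `0`. -/
theorem sg_red_sub_one {x : F} (hx : x ∈ S.Ov) (h0 : S.red x = 0) : S.red (x - 1) ≠ 0 := by
  rw [S.red_sub hx (one_mem _), h0, S.red_one, zero_sub]
  exact neg_ne_zero.mpr one_ne_zero

/-- `t - a`, `a ∈ A`, is a unit if the reduction of `t` is transcendental. -/
theorem sg_red_sub_const {t : F} (ht : t ∈ S.Ov) (htr : Transcendental k (S.red t)) {a : K}
    (ha : a ∈ S.A) : S.red (t - algebraMap K F a) ≠ 0 := by
  rw [S.red_sub ht (S.algebraMap_mem ha), S.red_algebraMap ha]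
  intro h0
  apply htr
  rw [sub_eq_zero] at h0
  rw [h0]
  exact isAlgebraic_algebraMap _

/-- `1 - a t`, `a ∈ A`, is a unit if the reduction of `t` is transcendental. -/
theorem sg_red_one_sub_mul {t : F} (ht : t ∈ S.Ov) (htr : Transcendental k (S.red t)) {a : K}
    (ha : a ∈ S.A) : S.red (1 - algebraMap K F a * t) ≠ 0 := by
  rw [S.red_sub (one_mem _) (mul_mem (S.algebraMap_mem ha) ht), S.red_one,
    S.red_mul (S.algebraMap_mem ha) ht, S.red_algebraMap ha]
  intro h0
  apply htr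
  have h1 : algebraMap k Fk (S.res ⟨a, ha⟩) * S.red t = 1 := (sub_eq_zero.mp h0).symm
  have h2 : S.res ⟨a, ha⟩ ≠ 0 := by
    intro h3
    rw [h3, map_zero, zero_mul] at h1
    exact zero_ne_one h1
  have h4 : S.red t = algebraMap k Fk (S.res ⟨a, ha⟩)⁻¹ := by
    rw [map_inv₀]
    exact eq_inv_of_mul_eq_one_right h1
  rw [h4]
  exact isAlgebraic_algebraMap _

/-- `c x` reduces to `0` if `c⁻¹ ∉ A` ... in the form: `c ∉ A`, `x ∈ Ov` ⇒ `red (c⁻¹ x) = 0`. -/
theorem sg_red_inv_mul {c : K} (hc : c ∉ S.A) {x : F} (hx : x ∈ S.Ov) :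
    (algebraMap K F c)⁻¹ * x ∈ S.Ov ∧ S.red ((algebraMap K F c)⁻¹ * x) = 0 := by
  obtain ⟨hinv, hres⟩ := S.res_inv_eq_zero hc
  have e : (algebraMap K F c)⁻¹ = algebraMap K F c⁻¹ := (map_inv₀ _ _).symm
  rw [e]
  refine ⟨mul_mem (S.algebraMap_mem hinv) hx, ?_⟩
  rw [S.red_mul (S.algebraMap_mem hinv) hx, S.red_algebraMap hinv, hres, map_zero, zero_mul]

/-- **first valuation**: `(u - a) / a` is a unit for `a ∉ A`. -/
theorem sg_unit₁_notMem {u : F} (hu : u ∈ S.Ov) {a : K} (ha : a ∉ S.A) :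
    S.red ((u - algebraMap K F a) / algebraMap K F a) ≠ 0 := by
  have ha0 : a ≠ 0 := by
    rintro rfl
    exact ha (zero_mem _)
  have ha' : algebraMap K F a ≠ 0 := (_root_.map_ne_zero _).mpr ha0
  obtain ⟨h1, h2⟩ := sg_red_inv_mul S ha hu
  have e : (u - algebraMap K F a) / algebraMap K F a = (algebraMap K F a)⁻¹ * u - 1 := by
    field_simp
  rw [e]
  exact sg_red_sub_one S h1 h2

/-- **second valuation**: `(u - a) / ϖ` is a unit if `a / ϖ ∈ A` (`t = ϖ / u` a unit with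
transcendental reduction). -/
theorem sg_unit₂_mem {u : F} {ϖ : K} (hϖ : ϖ ≠ 0) (ht : algebraMap K F ϖ / u ∈ S.Ov)
    (htr : Transcendental k (S.red (algebraMap K F ϖ / u))) {a : K} (ha : a / ϖ ∈ S.A) :
    S.red ((u - algebraMap K F a) / algebraMap K F ϖ) ≠ 0 := by
  have hϖ' : algebraMap K F ϖ ≠ 0 := (_root_.map_ne_zero _).mpr hϖ
  have ht0 : S.red (algebraMap K F ϖ / u) ≠ 0 := fun h0 => htr (h0 ▸ isAlgebraic_zero)
  have htne : algebraMap K F ϖ / u ≠ 0 := S.ne_zero_of_red_ne_zero ht0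
  have hu0 : u ≠ 0 := by
    rintro rfl
    exact htne (div_zero _)
  have hti : (algebraMap K F ϖ / u)⁻¹ ∈ S.Ov := S.inv_mem_of_red_ne_zero ht0
  have h1 := sg_red_one_sub_mul S ht htr ha
  have e : (u - algebraMap K F a) / algebraMap K F ϖ =
      (algebraMap K F ϖ / u)⁻¹ * (1 - algebraMap K F (a / ϖ) * (algebraMap K F ϖ / u)) := by
    rw [map_div₀]
    field_simp
  rw [e, S.red_mul hti (S.mem_of_red_ne_zero h1), S.red_inv ht hti htne]
  exact mul_ne_zero (inv_ne_zero ht0) h1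

/-- **second valuation**: `(u - a) / a` is a unit if `a / ϖ ∉ A`. -/
theorem sg_unit₂_notMem {u : F} {ϖ : K} (hϖ : ϖ ≠ 0) (ht : algebraMap K F ϖ / u ∈ S.Ov)
    (htr : Transcendental k (S.red (algebraMap K F ϖ / u))) {a : K} (ha : a / ϖ ∉ S.A) :
    S.red ((u - algebraMap K F a) / algebraMap K F a) ≠ 0 := by
  have hϖ' : algebraMap K F ϖ ≠ 0 := (_root_.map_ne_zero _).mpr hϖ
  have ha0 : a ≠ 0 := by
    rintro rfl
    rw [zero_div] at ha
    exact ha (zero_mem _)
  have ha' : algebraMap K F a ≠ 0 := (_root_.map_ne_zero _).mpr ha0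
  have ht0 : S.red (algebraMap K F ϖ / u) ≠ 0 := fun h0 => htr (h0 ▸ isAlgebraic_zero)
  have htne : algebraMap K F ϖ / u ≠ 0 := S.ne_zero_of_red_ne_zero ht0
  have hu0 : u ≠ 0 := by
    rintro rfl
    exact htne (div_zero _)
  have hti : (algebraMap K F ϖ / u)⁻¹ ∈ S.Ov := S.inv_mem_of_red_ne_zero ht0
  obtain ⟨h1, h2⟩ := sg_red_inv_mul S ha hti
  have e : (u - algebraMap K F a) / algebraMap K F a =
      (algebraMap K F (a / ϖ))⁻¹ * (algebraMap K F ϖ / u)⁻¹ - 1 := by
    rw [map_div₀]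
    field_simp
  rw [e]
  exact sg_red_sub_one S h1 h2

/-- a product of units, multiset form. -/
theorem sg_red_multiset_prod (u : F) (c : K → K)
    (hc : ∀ a, S.red ((u - algebraMap K F a) / algebraMap K F (c a)) ≠ 0) (s : Multiset K) :
    S.red ((s.map fun a => u - algebraMap K F a).prod / algebraMap K F (s.map c).prod) ≠ 0 := by
  induction s using Multiset.induction_on with
  | empty => simp
  | cons a s ih =>
    have e : ((a ::ₘ s).map fun a => u - algebraMap K F a).prod /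
        algebraMap K F ((a ::ₘ s).map c).prod =
        ((u - algebraMap K F a) / algebraMap K F (c a)) *
          ((s.map fun a => u - algebraMap K F a).prod / algebraMap K F (s.map c).prod) := by
      rw [Multiset.map_cons, Multiset.map_cons, Multiset.prod_cons, Multiset.prod_cons, map_mul,
        mul_div_mul_comm]
    rw [e, S.red_mul (S.mem_of_red_ne_zero (hc a)) (S.mem_of_red_ne_zero ih)]
    exact mul_ne_zero (hc a) ih

/-- the Gauss content of `p(u)`, abstract form: if `(u - a) / c a` is a unit for every `a`, then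
`p(u) / (lc p ∏ c a)` is a unit. -/
theorem sg_gauss [IsAlgClosed K] (u : F) (c : K → K) (hc0 : ∀ a, c a ≠ 0)
    (hc : ∀ a, S.red ((u - algebraMap K F a) / algebraMap K F (c a)) ≠ 0) {p : K[X]}
    (hp : p ≠ 0) :
    p.leadingCoeff * (p.roots.map c).prod ≠ 0 ∧
      S.red (aeval u p / algebraMap K F (p.leadingCoeff * (p.roots.map c).prod)) ≠ 0 := by
  have hlc : p.leadingCoeff ≠ 0 := leadingCoeff_ne_zero.mpr hp
  have hprod : (p.roots.map c).prod ≠ 0 := by
    rw [Ne, Multiset.prod_eq_zero_iff]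
    intro h0
    obtain ⟨a, -, ha⟩ := Multiset.mem_map.mp h0
    exact hc0 a ha
  refine ⟨mul_ne_zero hlc hprod, ?_⟩
  have hsplit := (IsAlgClosed.splits p).eq_prod_roots
  have e1 : aeval u p =
      algebraMap K F p.leadingCoeff * (p.roots.map fun a => u - algebraMap K F a).prod := by
    conv_lhs => rw [hsplit]
    rw [map_mul, aeval_C, map_multiset_prod, Multiset.map_map]
    congr 2
    refine Multiset.map_congr rfl fun a _ => ?_
    simp
  have hlc' : algebraMap K F p.leadingCoeff ≠ 0 := (_root_.map_ne_zero _).mpr hlc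
  have e2 : aeval u p / algebraMap K F (p.leadingCoeff * (p.roots.map c).prod) =
      (p.roots.map fun a => u - algebraMap K F a).prod / algebraMap K F (p.roots.map c).prod := by
    rw [e1, map_mul, mul_div_mul_left _ _ hlc']
  rw [e2]
  exact sg_red_multiset_prod S u c hc p.roots

end Unit

/-! ### SL-G -/

section Gauss

variable {K F k Fk₁ Fk₂ : Type*} [Field K] [Field F] [Algebra K F]
  [Field k] [Field Fk₁] [Algebra k Fk₁] [Field Fk₂] [Algebra k Fk₂]
  {S₁ : ValSetup K F k Fk₁} {S₂ : ValSetup K F k Fk₂} {u : F} {ϖ : K}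

open Classical in
/-- the content of `u - a` for the first valuation. -/
def sgC₁ (A : ValuationSubring K) (a : K) : K := if a ∈ A then 1 else a

open Classical in
/-- the content of `u - a` for the second valuation. -/
def sgC₂ (A : ValuationSubring K) (ϖ a : K) : K := if a / ϖ ∈ A then ϖ else a

theorem sgC₁_ne_zero (A : ValuationSubring K) (a : K) : sgC₁ A a ≠ 0 := by
  unfold sgC₁
  split_ifs with h
  · exact one_ne_zero
  · rintro rfl
    exact h (zero_mem _)

theorem sgC₂_ne_zero (A : ValuationSubring K) {ϖ : K} (hϖ : ϖ ≠ 0) (a : K) :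
    sgC₂ A ϖ a ≠ 0 := by
  unfold sgC₂
  split_ifs with h
  · exact hϖ
  · rintro rfl
    rw [zero_div] at h
    exact h (zero_mem _)

theorem valuation_sgC₁ (A : ValuationSubring K) (a : K) :
    A.valuation (sgC₁ A a) = max 1 (A.valuation a) := by
  unfold sgC₁
  split_ifs with h
  · rw [map_one, max_eq_left ((A.valuation_le_one_iff a).mpr h)]
  · have h1 : 1 < A.valuation a := by
      rw [← not_le, A.valuation_le_one_iff]
      exact h
    rw [max_eq_right h1.le]

theorem valuation_sgC₂ (A : ValuationSubring K) {ϖ : K} (hϖ : ϖ ≠ 0) (a : K) :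
    A.valuation (sgC₂ A ϖ a) = max (A.valuation ϖ) (A.valuation a) := by
  have hv : A.valuation ϖ ≠ 0 := (Valuation.ne_zero_iff _).mpr hϖ
  have hiff : a / ϖ ∈ A ↔ A.valuation a ≤ A.valuation ϖ := by
    rw [← A.valuation_le_one_iff, map_div₀, div_le_one₀ (zero_lt_iff.mpr hv)]
  unfold sgC₂
  split_ifs with h
  · rw [max_eq_left (hiff.mp h)]
  · have h1 : A.valuation ϖ < A.valuation a := by
      rw [← not_le]
      exact fun h2 => h (hiff.mpr h2)
    rw [max_eq_right h1.le]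

/-- **SL-G, first valuation.** -/
theorem slopeGauss₁ [IsAlgClosed K] (h : SlopeData S₁ S₂ u ϖ) : SlopeGauss₁ S₁ u := by
  intro p hp
  have hc : ∀ a, S₁.red ((u - algebraMap K F a) / algebraMap K F (sgC₁ S₁.A a)) ≠ 0 := by
    intro a
    unfold sgC₁
    split_ifs with ha
    · rw [map_one, div_one]
      exact sg_red_sub_const S₁ h.u_mem h.u_tr ha
    · exact sg_unit₁_notMem S₁ h.u_mem ha
  obtain ⟨h1, h2⟩ := sg_gauss S₁ u (sgC₁ S₁.A) (sgC₁_ne_zero S₁.A) hc hp
  refine ⟨_, h1, ?_, h2⟩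
  rw [map_mul, map_multiset_prod, Multiset.map_map]
  congr 2
  refine Multiset.map_congr rfl fun a _ => ?_
  exact valuation_sgC₁ S₁.A a

/-- **SL-G, second valuation.** -/
theorem slopeGauss₂ [IsAlgClosed K] (h : SlopeData S₁ S₂ u ϖ) : SlopeGauss₂ S₁ S₂ u ϖ := by
  intro p hp
  have hc : ∀ a, S₂.red ((u - algebraMap K F a) / algebraMap K F (sgC₂ S₁.A ϖ a)) ≠ 0 := by
    intro a
    unfold sgC₂
    split_ifs with ha
    · exact sg_unit₂_mem S₂ h.varpi_ne h.u_mem₂ h.u_tr₂ (h.A_eq ▸ ha)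
    · exact sg_unit₂_notMem S₂ h.varpi_ne h.u_mem₂ h.u_tr₂ (fun h' => ha (h.A_eq ▸ h'))
  obtain ⟨h1, h2⟩ := sg_gauss S₂ u (sgC₂ S₁.A ϖ) (sgC₂_ne_zero S₁.A h.varpi_ne) hc hp
  refine ⟨_, h1, ?_, h2⟩
  rw [map_mul, map_multiset_prod, Multiset.map_map]
  congr 2
  refine Multiset.map_congr rfl fun a _ => ?_
  exact valuation_sgC₂ S₁.A h.varpi_ne a

end Gauss

/-! ### SL-N -/

section Norm

variable {K F k Fk : Type*} [Field K] [Field F] [Algebra K F]
  [Field k] [Field Fk] [Algebra k Fk]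

open Fermat.Agent.BadRed.SeedNode

/-- transcendence lifts from the reduction. -/
theorem sg_transcendental_of_red (S : ValSetup K F k Fk) {t : F} (ht : t ∈ S.Ov)
    (htr : Transcendental k (S.red t)) : Transcendental K t := by
  intro halg
  obtain ⟨p, hp, hpu⟩ := halg
  obtain ⟨c, p₀, hc, hpp, hp₀⟩ := sn_exists_normalize S hp
  have h1 := sn_red_aeval_ne_zero S ht htr hp₀
  apply h1
  have h2 : aeval t (p₀.map (algebraMap S.A K)) = 0 := by
    rw [hpp, map_mul, aeval_C] at hpu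
    rcases mul_eq_zero.mp hpu with h | h
    · exact absurd ((map_eq_zero _).mp h) hc
    · exact h
  rw [h2, S.red_zero]

/-- the norm as a coefficient of the characteristic polynomial. -/
theorem sg_norm_eq_coeff {E L : Type*} [Field E] [Field L] [Algebra E L] [FiniteDimensional E L]
    (x : L) :
    Algebra.norm E x = (-1) ^ Module.finrank E L * (LinearMap.mulLeft E x).charpoly.coeff 0 := by
  rw [Algebra.norm_apply, LinearMap.det_eq_sign_charpoly_coeff]
  rfl

/-- **the norm of a unit is a unit**, one constant reduction, parameter `t`. -/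
theorem sg_norm_unit (S : ValSetup K F k Fk) {t : F} (ht : t ∈ S.Ov)
    (htr : Transcendental k (S.red t)) [FiniteDimensional K⟮t⟯ F]
    [FiniteDimensional k⟮S.red t⟯ Fk]
    (hdeg : Module.finrank K⟮t⟯ F ≤ Module.finrank k⟮S.red t⟯ Fk) {ψ : F}
    (hψ : S.red ψ ≠ 0) :
    S.red (algebraMap K⟮t⟯ F (Algebra.norm K⟮t⟯ ψ)) ≠ 0 := by
  obtain ⟨P, hP1, hP2, -, -⟩ := sn_charpoly_red ht htr hdeg (S.mem_of_red_ne_zero hψ)
  -- the constant coefficient
  have hc1 : ((P.coeff 0 : snRing S t) : K⟮t⟯) = (LinearMap.mulLeft K⟮t⟯ ψ).charpoly.coeff 0 := by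
    rw [← hP1, Polynomial.coeff_map]
    rfl
  have hc2 : snRed S ht htr (P.coeff 0) =
      (LinearMap.mulLeft k⟮S.red t⟯ (S.red ψ)).charpoly.coeff 0 := by
    rw [← hP2, Polynomial.coeff_map]
  have hn0 : Algebra.norm k⟮S.red t⟯ (S.red ψ) ≠ 0 := Algebra.norm_ne_zero_iff.mpr hψ
  have hcoeff : (LinearMap.mulLeft k⟮S.red t⟯ (S.red ψ)).charpoly.coeff 0 ≠ 0 := by
    intro h0
    apply hn0
    rw [sg_norm_eq_coeff, h0, mul_zero]
  have hred : S.red (((P.coeff 0 : snRing S t) : K⟮t⟯) : F) ≠ 0 := by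
    rw [← snRed_coe S ht htr (P.coeff 0), hc2]
    intro h0
    apply hcoeff
    exact Subtype.ext h0
  have hmem : (((P.coeff 0 : snRing S t) : K⟮t⟯) : F) ∈ S.Ov := S.mem_of_red_ne_zero hred
  have e : algebraMap K⟮t⟯ F (Algebra.norm K⟮t⟯ ψ) =
      (-1) ^ Module.finrank K⟮t⟯ F * (((P.coeff 0 : snRing S t) : K⟮t⟯) : F) := by
    rw [sg_norm_eq_coeff, ← hc1, map_mul, map_pow, map_neg, map_one]
    rfl
  have hsign : ((-1 : F) ^ Module.finrank K⟮t⟯ F) ∈ S.Ov := pow_mem (neg_mem (one_mem _)) _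
  rw [e, S.red_mul hsign hmem, S.red_pow (neg_mem (one_mem _)), S.red_neg (one_mem _), S.red_one]
  exact mul_ne_zero (pow_ne_zero _ (neg_ne_zero.mpr one_ne_zero)) hred

/-- the norm only depends on the subfield. -/
theorem sg_norm_eq_of_eq {E₁ E₂ : IntermediateField K F} (h : E₁ = E₂) (ψ : F) :
    algebraMap E₁ F (Algebra.norm E₁ ψ) = algebraMap E₂ F (Algebra.norm E₂ ψ) := by
  subst h
  rfl

theorem sg_finrank_eq_of_eq {E₁ E₂ : IntermediateField K F} (h : E₁ = E₂) :
    Module.finrank E₁ F = Module.finrank E₂ F := by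
  subst h
  rfl

/-- `K(ϖ / u) = K(u)`. -/
theorem sg_adjoin_div_eq {u : F} {ϖ : K} (hϖ : ϖ ≠ 0) (hu : u ≠ 0) :
    K⟮algebraMap K F ϖ / u⟯ = K⟮u⟯ := by
  have hϖ' : algebraMap K F ϖ ≠ 0 := (_root_.map_ne_zero _).mpr hϖ
  apply le_antisymm
  · rw [adjoin_le_iff, Set.singleton_subset_iff]
    exact div_mem (IntermediateField.algebraMap_mem _ _) (mem_adjoin_simple_self K u)
  · rw [adjoin_le_iff, Set.singleton_subset_iff]
    have e : u = algebraMap K F ϖ / (algebraMap K F ϖ / u) := by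
      field_simp
    have h1 : algebraMap K F ϖ / (algebraMap K F ϖ / u) ∈ K⟮algebraMap K F ϖ / u⟯ :=
      div_mem (IntermediateField.algebraMap_mem _ _)
        (mem_adjoin_simple_self K (algebraMap K F ϖ / u))
    rwa [← e] at h1

end Norm

section NormFinal

variable {K F k Fk₁ Fk₂ : Type*} [Field K] [Field F] [Algebra K F]
  [Field k] [Field Fk₁] [Algebra k Fk₁] [Field Fk₂] [Algebra k Fk₂]
  {S₁ : ValSetup K F k Fk₁} {S₂ : ValSetup K F k Fk₂} {u : F} {ϖ : K}

/-- **SL-N, first valuation.** -/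
theorem slopeNorm₁ [IsAlgClosed K] [CharZero K] (h : SlopeData S₁ S₂ u ϖ) :
    SlopeNorm₁ S₁ u := by
  intro ψ hψ
  haveI : FiniteDimensional K⟮u⟯ F :=
    Fermat.Agent.RedTr.fundIdK_finiteDimensional S₁.hF
      (sg_transcendental_of_red S₁ h.u_mem h.u_tr)
  haveI : FiniteDimensional k⟮S₁.red u⟯ Fk₁ :=
    Fermat.Agent.RedTr.fundIdK_finiteDimensional S₁.hFk h.u_tr
  exact sg_norm_unit S₁ h.u_mem h.u_tr h.deg₁.le hψ

/-- **SL-N, second valuation.** -/
theorem slopeNorm₂ [IsAlgClosed K] [CharZero K] (h : SlopeData S₁ S₂ u ϖ) :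
    SlopeNorm₂ S₂ u := by
  intro ψ hψ
  have hu0 : u ≠ 0 := by
    rintro rfl
    exact h.u_tr (by rw [S₁.red_zero]; exact isAlgebraic_zero)
  have hE := sg_adjoin_div_eq (F := F) h.varpi_ne hu0
  haveI : FiniteDimensional K⟮algebraMap K F ϖ / u⟯ F :=
    Fermat.Agent.RedTr.fundIdK_finiteDimensional S₂.hF
      (sg_transcendental_of_red S₂ h.u_mem₂ h.u_tr₂)
  haveI : FiniteDimensional k⟮S₂.red (algebraMap K F ϖ / u)⟯ Fk₂ :=
    Fermat.Agent.RedTr.fundIdK_finiteDimensional S₂.hFk h.u_tr₂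
  have hdeg : Module.finrank K⟮algebraMap K F ϖ / u⟯ F ≤
      Module.finrank k⟮S₂.red (algebraMap K F ϖ / u)⟯ Fk₂ := by
    rw [sg_finrank_eq_of_eq hE]
    exact h.deg₂.le
  have h1 := sg_norm_unit S₂ h.u_mem₂ h.u_tr₂ hdeg hψ
  rwa [sg_norm_eq_of_eq hE] at h1

end NormFinal

end Fermat.Agent.EKp
end
end MergeWrap_E_Desc_Kp_SlopeG

section MergeWrap_E_Desc_Kp_Slope_Ord -- from E/Desc/Kp/Slope/Ord.lean

set_option autoImplicit false

noncomputable section

namespace Fermat.Agent.EKp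

open AlgebraicCurve Fermat.Agent.RR IntermediateField Polynomial

section Ord

variable {K L : Type*} [Field K] [Field L] [Algebra K L]

/-- `ord (c + y) = 0` for a nonzero constant `c` and `ord y > 0`. -/
theorem sl_ord_const_add (P : Place K L) {c : K} (hc : c ≠ 0) {y : L} (hy : 0 < P.ord y) :
    P.ord (algebraMap K L c + y) = 0 := by
  have hy0 : y ≠ 0 := by
    rintro rfl
    simp at hy
  have hcy : algebraMap K L c + y ≠ 0 := by
    intro h0
    have h1 : y = -algebraMap K L c := eq_neg_of_add_eq_zero_right h0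
    have h2 : P.ord y = 0 := by
      rw [h1, ← map_neg]
      exact Fermat.Agent.S24Res.ord_algebraMap P _
    omega
  have hval : P.adicValuation y < P.adicValuation (algebraMap K L c) := by
    rw [Fermat.Agent.RRHur.adicValuation_algebraMap_eq_one P hc]
    by_contra hle
    push Not at hle
    rcases hle.lt_or_eq with hlt | heq
    · have := (Fermat.Agent.RRHur.one_lt_adicValuation_iff P).mp hlt
      omega
    · have h3 := Fermat.Agent.RRHur.adicValuation_eq_exp P y hy0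
      rw [← heq] at h3
      have h4 : (WithZero.exp (0 : ℤ)) = WithZero.exp (-P.ord y) := by
        rw [← h3]
        rfl
      have h5 := WithZero.exp_injective h4
      omega
  have h1 : P.adicValuation (algebraMap K L c + y) = 1 := by
    rw [Valuation.map_add_eq_of_lt_left _ hval,
      Fermat.Agent.RRHur.adicValuation_algebraMap_eq_one P hc]
  have h2 := Fermat.Agent.RRHur.adicValuation_eq_exp P _ hcy
  rw [h1] at h2
  have h4 : (WithZero.exp (0 : ℤ)) = WithZero.exp (-P.ord (algebraMap K L c + y)) := by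
    rw [← h2]
    rfl
  have h5 := WithZero.exp_injective h4
  omega

/-- a polynomial which does not vanish at `a` has order `0` at a place where `t = a`. -/
theorem sl_ord_aeval_of_eval_ne (P : Place K L) {t : L} {a : K}
    (ha : 0 < P.ord (t - algebraMap K L a)) {q : K[X]} (hq : q.eval a ≠ 0) :
    P.ord (aeval t q) = 0 := by
  have hdec : q = C (q.eval a) + (X - C a) * (q /ₘ (X - C a)) := by
    have h1 := modByMonic_add_div q (X - C a)
    rw [modByMonic_X_sub_C_eq_C_eval] at h1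
    exact h1.symm
  have hev : aeval t q = algebraMap K L (q.eval a) +
      (t - algebraMap K L a) * aeval t (q /ₘ (X - C a)) := by
    conv_lhs => rw [hdec]
    simp only [map_add, map_mul, map_sub, aeval_C, aeval_X]
  rw [hev]
  by_cases h0 : aeval t (q /ₘ (X - C a)) = 0
  · rw [h0, mul_zero, add_zero]
    exact Fermat.Agent.S24Res.ord_algebraMap P _
  apply sl_ord_const_add P hq
  have hta : t - algebraMap K L a ≠ 0 := by
    intro h
    rw [h] at ha
    simp at ha
  rw [P.ord_mul hta h0]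
  have ht : P.adicValuation t ≤ 1 := by
    rw [Fermat.Agent.RRHur.adicValuation_le_one_iff']
    have h1 : t = (t - algebraMap K L a) + algebraMap K L a := by ring
    have h2 : t ∈ P.toValuationSubring := by
      rw [h1]
      exact add_mem (Fermat.Agent.S24Res.mem_of_ord_nonneg P ha.le) (P.algebraMap_mem' a)
    exact Fermat.Agent.S24Res.ord_nonneg_of_mem P h2
  have h3 := Fermat.Agent.RRHur.adicValuation_aeval_le_one P ht (q /ₘ (X - C a))
  rw [Fermat.Agent.RRHur.adicValuation_le_one_iff'] at h3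
  omega

/-- **the order of `p(t)`** at a place where `t = a`. -/
theorem sl_ord_aeval (P : Place K L) {t : L} (ht : Transcendental K t) {a : K}
    (ha : 0 < P.ord (t - algebraMap K L a)) {p : K[X]} (hp : p ≠ 0) :
    P.ord (aeval t p) = (p.rootMultiplicity a : ℤ) * P.ord (t - algebraMap K L a) := by
  obtain ⟨q, hq, hnd⟩ := exists_eq_pow_rootMultiplicity_mul_and_not_dvd p hp a
  have hqa : q.eval a ≠ 0 := by
    intro h0
    exact hnd (dvd_iff_isRoot.mpr h0)
  have hq0 : q ≠ 0 := by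
    rintro rfl
    simp at hqa
  have hta : t - algebraMap K L a ≠ 0 := by
    intro h
    rw [h] at ha
    simp at ha
  have hev : aeval t p = (t - algebraMap K L a) ^ (p.rootMultiplicity a) * aeval t q := by
    conv_lhs => rw [hq]
    simp only [map_mul, map_pow, map_sub, aeval_C, aeval_X]
  have hq1 : aeval t q ≠ 0 := fun h => hq0 ((transcendental_iff.mp ht) q h)
  rw [hev, P.ord_mul (pow_ne_zero _ hta) hq1, sl_ord_aeval_of_eval_ne P ha hqa, add_zero,
    ← zpow_natCast, P.ord_zpow]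

/-- **the order of `p(t) / q(t)`** at a place where `t = a`. -/
theorem sl_ord_ratio (P : Place K L) {t : L} (ht : Transcendental K t) {a : K}
    (ha : 0 < P.ord (t - algebraMap K L a)) {p q : K[X]} (hp : p ≠ 0) (hq : q ≠ 0) :
    P.ord (aeval t p / aeval t q) =
      ((p.rootMultiplicity a : ℤ) - q.rootMultiplicity a) * P.ord (t - algebraMap K L a) := by
  have hp1 : aeval t p ≠ 0 := fun h => hp ((transcendental_iff.mp ht) p h)
  have hq1 : aeval t q ≠ 0 := fun h => hq ((transcendental_iff.mp ht) q h)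
  rw [div_eq_mul_inv, P.ord_mul hp1 (inv_ne_zero hq1), P.ord_inv, sl_ord_aeval P ht ha hp,
    sl_ord_aeval P ht ha hq]
  ring

end Ord

end Fermat.Agent.EKp
end
end MergeWrap_E_Desc_Kp_Slope_Ord

section MergeWrap_E_Desc_Kp_Slope_Places -- from E/Desc/Kp/Slope/Places.lean

set_option autoImplicit false

noncomputable section

namespace Fermat.Agent.EKp

open AlgebraicCurve Fermat.Agent.RR IntermediateField Polynomial

section Places

variable {K F : Type*} [Field K] [Field F] [Algebra K F] {u : F}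

theorem sl_coe_aeval_gen (p : K[X]) :
    ((aeval (AdjoinSimple.gen K u) p : K⟮u⟯) : F) = aeval u p := by
  have h := Polynomial.aeval_algebraMap_apply F (AdjoinSimple.gen K u) p
  rw [AdjoinSimple.algebraMap_gen] at h
  exact h.symm

theorem sl_transcendental_gen (hu : Transcendental K u) :
    Transcendental K (AdjoinSimple.gen K u) := by
  intro halg
  apply hu
  have := halg.algebraMap (A := F)
  rwa [AdjoinSimple.algebraMap_gen] at this

/-- every nonzero element of `K(u)` is `p(u) / q(u)`. -/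
theorem sl_exists_ratio (y : K⟮u⟯) (hy : y ≠ 0) :
    ∃ p q : K[X], p ≠ 0 ∧ q ≠ 0 ∧
      y = aeval (AdjoinSimple.gen K u) p / aeval (AdjoinSimple.gen K u) q := by
  obtain ⟨p, q, hpq⟩ := (IntermediateField.mem_adjoin_simple_iff K (y : F)).mp y.2
  have hy' : (y : F) ≠ 0 := fun h => hy (Subtype.ext h)
  have hp : p ≠ 0 := by
    rintro rfl
    rw [map_zero, zero_div] at hpq
    exact hy' hpq
  have hq : q ≠ 0 := by
    rintro rfl
    rw [map_zero, div_zero] at hpq
    exact hy' hpq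
  refine ⟨p, q, hp, hq, ?_⟩
  apply Subtype.ext
  rw [hpq]
  have h1 : ((aeval (AdjoinSimple.gen K u) p / aeval (AdjoinSimple.gen K u) q : K⟮u⟯) : F) =
      ((aeval (AdjoinSimple.gen K u) p : K⟮u⟯) : F) /
        ((aeval (AdjoinSimple.gen K u) q : K⟮u⟯) : F) :=
    map_div₀ (algebraMap K⟮u⟯ F) _ _
  rw [h1, sl_coe_aeval_gen, sl_coe_aeval_gen]

/-- the place `u = a` of `K(u)` is normalised: `ord (u - a) = 1`. -/
theorem sl_ord_gen_eq_one (hu : Transcendental K u) (v : Place K K⟮u⟯) {a : K}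
    (ha : 0 < v.ord (AdjoinSimple.gen K u - algebraMap K K⟮u⟯ a)) :
    v.ord (AdjoinSimple.gen K u - algebraMap K K⟮u⟯ a) = 1 := by
  obtain ⟨π, hπ⟩ := exists_uniformizer v
  have hπ0 : π ≠ 0 := by
    rintro rfl
    simp at hπ
  obtain ⟨p, q, hp, hq, hpq⟩ := sl_exists_ratio π hπ0
  have h1 := sl_ord_ratio v (sl_transcendental_gen hu) ha hp hq
  rw [← hpq, hπ] at h1
  exact Int.eq_one_of_mul_eq_one_left ha.le h1.symm

/-- the order at the place `u = a` of `K(u)`. -/
theorem sl_ord_eq (hu : Transcendental K u) (v : Place K K⟮u⟯) {a : K}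
    (ha : 0 < v.ord (AdjoinSimple.gen K u - algebraMap K K⟮u⟯ a)) {p q : K[X]} (hp : p ≠ 0)
    (hq : q ≠ 0) :
    v.ord (aeval (AdjoinSimple.gen K u) p / aeval (AdjoinSimple.gen K u) q) =
      (p.rootMultiplicity a : ℤ) - q.rootMultiplicity a := by
  rw [sl_ord_ratio v (sl_transcendental_gen hu) ha hp hq, sl_ord_gen_eq_one hu v ha, mul_one]

/-- the place `u = a` of `K(u)` is unique. -/
theorem sl_place_unique (hu : Transcendental K u) (v v' : Place K K⟮u⟯) {a : K}
    (ha : 0 < v.ord (AdjoinSimple.gen K u - algebraMap K K⟮u⟯ a))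
    (ha' : 0 < v'.ord (AdjoinSimple.gen K u - algebraMap K K⟮u⟯ a)) : v = v' := by
  have key : ∀ y : K⟮u⟯, v.ord y = v'.ord y := by
    intro y
    rcases eq_or_ne y 0 with rfl | hy
    · simp
    obtain ⟨p, q, hp, hq, hpq⟩ := sl_exists_ratio y hy
    rw [hpq, sl_ord_eq hu v ha hp hq, sl_ord_eq hu v' ha' hp hq]
  apply Place.ext
  ext y
  rw [Fermat.Agent.S24Res.mem_iff_ord_nonneg, Fermat.Agent.S24Res.mem_iff_ord_nonneg, key y]

end Places

end Fermat.Agent.EKp
end
end MergeWrap_E_Desc_Kp_Slope_Places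

section MergeWrap_E_Desc_Kp_Slope_NormAt -- from E/Desc/Kp/Slope/NormAt.lean

set_option autoImplicit false
set_option linter.style.haveILetI false

noncomputable section

namespace Fermat.Agent.EKp

open AlgebraicCurve Fermat.Agent.RR IntermediateField Polynomial Fermat.Agent.S24Diff

section Norm

variable {K F : Type*} [Field K] [Field F] [Algebra K F] {u : F}

theorem sl_adjoin_gen_eq_top :
    (K⟮AdjoinSimple.gen K u⟯ : IntermediateField K K⟮u⟯) = ⊤ := by
  apply IntermediateField.lift_injective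
  rw [IntermediateField.lift_adjoin_simple, IntermediateField.lift_top, AdjoinSimple.coe_gen]

theorem sl_finiteDimensional_top {L : Type*} [Field L] [Algebra K L] :
    FiniteDimensional (⊤ : IntermediateField K L) L := by
  refine Module.Finite.of_surjective (Algebra.linearMap (⊤ : IntermediateField K L) L) ?_
  intro x
  exact ⟨⟨x, IntermediateField.mem_top⟩, rfl⟩

theorem sl_isFunctionFieldOver_gen (hu : Transcendental K u) :
    IsFunctionFieldOver K K⟮u⟯ (AdjoinSimple.gen K u) where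
  transcendental := sl_transcendental_gen hu
  finite := by
    haveI := sl_finiteDimensional_top (K := K) (L := K⟮u⟯)
    exact Fermat.Agent.RRHur.lower_finiteDimensional_of_eq (sl_adjoin_gen_eq_top (K := K) (u := u))

/-- every value is taken. -/
theorem sl_exists_place (h : IsRRField K F) (hu : Transcendental K u) (a : K) :
    ∃ P : Place K F, 0 < P.ord (u - algebraMap K F a) := by
  have h1 := Fermat.Agent.RRHur.lower_transcendental_inv
    (Fermat.Agent.RRHur.lower_transcendental_sub_const hu a)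
  obtain ⟨P, hP⟩ := Fermat.Agent.RRHur.exists_pole h h1
  refine ⟨P, ?_⟩
  have h2 := (Fermat.Agent.RRHur.one_lt_adicValuation_iff P).mp hP
  rw [P.ord_inv] at h2
  omega

theorem sl_algebraMap_gen_sub (a : K) :
    algebraMap K⟮u⟯ F (AdjoinSimple.gen K u - algebraMap K K⟮u⟯ a) = u - algebraMap K F a := by
  rw [map_sub, AdjoinSimple.algebraMap_gen, ← IsScalarTower.algebraMap_apply]

/-- the place of `K(u)` under a place of `F` where `u = a`. -/
theorem sl_restrict_ord_pos [FiniteDimensional K⟮u⟯ F] (P : Place K F) (a : K) :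
    0 < (P.restrict K⟮u⟯).ord (AdjoinSimple.gen K u - algebraMap K K⟮u⟯ a) ↔
      0 < P.ord (u - algebraMap K F a) := by
  have h1 := P.ord_restrict (F := K⟮u⟯) (AdjoinSimple.gen K u - algebraMap K K⟮u⟯ a)
  rw [sl_algebraMap_gen_sub] at h1
  have h2 : 0 < Place.ramificationIndex (F := K⟮u⟯) P := P.ramificationIndex_pos
  have h3 : (0 : ℤ) < (Place.ramificationIndex (F := K⟮u⟯) P : ℤ) := by exact_mod_cast h2
  rw [h1]
  constructor
  · intro h
    exact mul_pos h3 h
  · intro h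
    exact (mul_pos_iff_of_pos_left h3).mp h

/-- **the norm formula at `u = a`**. -/
theorem sl_sum_eq [IsAlgClosed K] [CharZero K] (h : IsRRField K F) (hu : Transcendental K u) [FiniteDimensional K⟮u⟯ F]
    {ψ : F} (hψ : ψ ≠ 0) {p q : K[X]} (hp : p ≠ 0) (hq : q ≠ 0)
    (hR : Algebra.norm K⟮u⟯ ψ =
      aeval (AdjoinSimple.gen K u) p / aeval (AdjoinSimple.gen K u) q)
    (T : Finset (Place K F)) (hT : ∀ P : Place K F, P.ord ψ ≠ 0 → P ∈ T) (a : K)
    [DecidablePred fun P : Place K F => 0 < P.ord (u - algebraMap K F a)] :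
    ∑ P ∈ T.filter (fun P => 0 < P.ord (u - algebraMap K F a)), P.ord ψ =
      (p.rootMultiplicity a : ℤ) - q.rootMultiplicity a := by
  classical
  obtain ⟨P₀, hP₀⟩ := sl_exists_place h hu a
  haveI : HasPrincipalDivisors K F := ⟨h.principal⟩
  have hv := (sl_restrict_ord_pos P₀ a).mpr hP₀
  have hnorm := Fermat.Agent.HeckeInputs.hi_ord_norm_global F (P₀.restrict K⟮u⟯)
    (sl_isFunctionFieldOver_gen hu) ψ hψ
  rw [hR, sl_ord_eq hu _ hv hp hq] at hnorm
  rw [hnorm]
  have hfib : ∀ w : Place K F, w ∈ (P₀.restrict K⟮u⟯).fiber F ↔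
      0 < w.ord (u - algebraMap K F a) := by
    intro w
    rw [Place.mem_fiber]
    constructor
    · intro hw
      rw [← sl_restrict_ord_pos, hw]
      exact hv
    · intro hw
      exact sl_place_unique hu _ _ ((sl_restrict_ord_pos w a).mpr hw) hv
  apply Finset.sum_subset
  · intro w hw
    exact (hfib w).mpr (Finset.mem_filter.mp hw).2
  · intro w hw hnot
    by_contra hne
    exact hnot (Finset.mem_filter.mpr ⟨hT w hne, (hfib w).mp hw⟩)

end Norm

end Fermat.Agent.EKp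
end
end MergeWrap_E_Desc_Kp_Slope_NormAt

section MergeWrap_E_Desc_Kp_Slope_Main -- from E/Desc/Kp/Slope/Main.lean

set_option autoImplicit false
set_option linter.style.haveILetI false

noncomputable section

namespace Fermat.Agent.EKp

open AlgebraicCurve Fermat.Agent.RR Fermat.Agent.Deuring Fermat.Agent.FF IntermediateField
  Polynomial

section Val

variable {K : Type*} [Field K] (A : ValuationSubring K)

theorem sl_val_eq_one {c : K} (hc : c ∈ A) (hc' : c⁻¹ ∈ A) (hc0 : c ≠ 0) :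
    A.valuation c = 1 := by
  have h1 : A.valuation c ≤ 1 := (A.valuation_le_one_iff c).mpr hc
  have h2 : A.valuation c⁻¹ ≤ 1 := (A.valuation_le_one_iff c⁻¹).mpr hc'
  rw [map_inv₀] at h2
  have h3 : A.valuation c ≠ 0 := (Valuation.ne_zero_iff _).mpr hc0
  exact le_antisymm h1 ((inv_le_one₀ (zero_lt_iff.mpr h3)).mp h2)

theorem sl_val_div_eq_one {c d : K} (hd0 : d ≠ 0) (h : A.valuation (c / d) = 1) :
    A.valuation c = A.valuation d := by
  rw [map_div₀] at h
  have h3 : A.valuation d ≠ 0 := (Valuation.ne_zero_iff _).mpr hd0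
  exact (div_eq_one_iff_eq h3).mp h

end Val

variable {K F k Fk Fk₁ Fk₂ : Type*} [Field K] [Field F] [Algebra K F]
  [Field k] [Field Fk] [Algebra k Fk] [Field Fk₁] [Algebra k Fk₁] [Field Fk₂] [Algebra k Fk₂]

/-- a Gauss parameter is transcendental over `K`. -/
theorem sl_transcendental_of_red [IsAlgClosed K] (S : ValSetup K F k Fk) {t : F}
    (ht : t ∈ S.Ov) (htr : Transcendental k (S.red t)) : Transcendental K t := by
  intro halg
  obtain ⟨c, hc⟩ := Fermat.Agent.S24Res.mem_range_of_isAlgebraic halg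
  apply htr
  have hcA : c ∈ S.A := (S.mem_Ov_iff c).mp (hc ▸ ht)
  rw [← hc, S.red_algebraMap hcA]
  exact isAlgebraic_algebraMap _

/-- comparison of two Gauss contents. -/
theorem sl_const_unit (S : ValSetup K F k Fk) {X Y : F} {cX cY : K} (hcX : cX ≠ 0)
    (hcY : cY ≠ 0) (hX : S.red (X / algebraMap K F cX) ≠ 0)
    (hY : S.red (Y / algebraMap K F cY) ≠ 0) (hXY : S.red (X / Y) ≠ 0) :
    cX / cY ∈ S.A ∧ (cX / cY)⁻¹ ∈ S.A := by
  have hX0 : X ≠ 0 := by
    rintro rfl
    rw [zero_div] at hX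
    exact hX S.red_zero
  have hY0 : Y ≠ 0 := by
    rintro rfl
    rw [zero_div] at hY
    exact hY S.red_zero
  have hcX' : algebraMap K F cX ≠ 0 := (_root_.map_ne_zero _).mpr hcX
  have hcY' : algebraMap K F cY ≠ 0 := (_root_.map_ne_zero _).mpr hcY
  have e1 : algebraMap K F (cX / cY) =
      (X / Y) * (Y / algebraMap K F cY) * (X / algebraMap K F cX)⁻¹ := by
    rw [map_div₀]
    field_simp
  have e2 : algebraMap K F (cX / cY)⁻¹ =
      (X / Y)⁻¹ * (Y / algebraMap K F cY)⁻¹ * (X / algebraMap K F cX) := by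
    rw [map_inv₀, map_div₀]
    field_simp
  constructor
  · rw [← S.mem_Ov_iff, e1]
    exact mul_mem (mul_mem (S.mem_of_red_ne_zero hXY) (S.mem_of_red_ne_zero hY))
      (S.inv_mem_of_red_ne_zero hX)
  · rw [← S.mem_Ov_iff, e2]
    exact mul_mem (mul_mem (S.inv_mem_of_red_ne_zero hXY) (S.inv_mem_of_red_ne_zero hY))
      (S.mem_of_red_ne_zero hX)

section Clamp

variable (A : ValuationSubring K) (ϖ : K)

open Classical in
/-- the clamp of a constant. -/
def slopeClK (a : K) : K :=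
  if A.valuation a ≤ A.valuation ϖ then ϖ
  else if A.valuation a < 1 then a
  else 1

theorem slopeClK_mul (hϖ1 : A.valuation ϖ < 1) (a : K) :
    A.valuation (slopeClK A ϖ a) * max 1 (A.valuation a) =
      max (A.valuation ϖ) (A.valuation a) := by
  unfold slopeClK
  split_ifs with h1 h2
  · rw [max_eq_left (le_trans h1 hϖ1.le), mul_one, max_eq_left h1]
  · push Not at h1
    rw [max_eq_left h2.le, mul_one, max_eq_right h1.le]
  · push Not at h1 h2
    rw [map_one, one_mul, max_eq_right h2, max_eq_right h1.le]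

theorem slopeClK_ne_zero (hϖ : ϖ ≠ 0) (a : K) : slopeClK A ϖ a ≠ 0 := by
  unfold slopeClK
  split_ifs with h1 h2
  · exact hϖ
  · push Not at h1
    intro h0
    rw [h0, map_zero] at h1
    exact not_lt_zero h1
  · exact one_ne_zero

end Clamp

theorem slopeCl_eq (S₁ : ValSetup K F k Fk₁) (u : F) (ϖ : K) (P : Place K F) :
    slopeCl S₁ u ϖ P =
      if P.ord u < 0 then 1 else slopeClK S₁.A ϖ (valueAt S₁.hF P u) := by
  unfold slopeCl slopeClK
  rfl

/-- the multiset product of the clamps of the roots, via the two Gauss contents. -/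
theorem sl_roots_prod {Γ : Type*} [CommGroupWithZero Γ] {Φ M₁ M₂ : K → Γ}
    (hΦ : ∀ a, Φ a * M₁ a = M₂ a) (s : Multiset K) :
    (s.map Φ).prod * (s.map M₁).prod = (s.map M₂).prod := by
  rw [← Multiset.prod_map_mul]
  congr 1
  exact Multiset.map_congr rfl fun a _ => hΦ a

/-- a multiset product as a product over a larger finset. -/
theorem sl_multiset_prod_eq {Γ : Type*} [CommMonoid Γ] [DecidableEq K] (Φ : K → Γ)
    (s : Multiset K) (B : Finset K) (hB : s.toFinset ⊆ B) :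
    (s.map Φ).prod = ∏ a ∈ B, Φ a ^ s.count a := by
  rw [Finset.prod_multiset_map_count]
  apply Finset.prod_subset hB
  intro a _ ha
  rw [Multiset.mem_toFinset] at ha
  rw [Multiset.count_eq_zero_of_notMem ha, pow_zero]

/-- `∏ x ^ n_i = x ^ (∑ n_i)`. -/
theorem sl_prod_zpow_const {Γ : Type*} [CommGroupWithZero Γ] {ι : Type*} (s : Finset ι)
    (x : Γ) (hx : x ≠ 0) (n : ι → ℤ) : ∏ i ∈ s, x ^ n i = x ^ ∑ i ∈ s, n i := by
  classical
  induction s using Finset.induction_on with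
  | empty => simp
  | insert a s ha ih => rw [Finset.prod_insert ha, Finset.sum_insert ha, ih, zpow_add₀ hx]

end Fermat.Agent.EKp

namespace Fermat.Agent.EKp

open AlgebraicCurve Fermat.Agent.RR Fermat.Agent.Deuring Fermat.Agent.FF IntermediateField
  Polynomial

variable {K F k Fk₁ Fk₂ : Type*} [Field K] [Field F] [Algebra K F]
  [Field k] [Field Fk₁] [Algebra k Fk₁] [Field Fk₂] [Algebra k Fk₂]

/-- the places with `u = a`. -/
theorem sl_value_iff [IsAlgClosed K] (h : IsRRField K F) {u : F} (hu : Transcendental K u)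
    (P : Place K F) (a : K) :
    (0 ≤ P.ord u ∧ valueAt h P u = a) ↔ 0 < P.ord (u - algebraMap K F a) := by
  constructor
  · rintro ⟨h0, hval⟩
    have hmem : u ∈ P.toValuationSubring := Fermat.Agent.S24Res.mem_of_ord_nonneg P h0
    rcases (valueAt_eq_iff h P hmem a).mp hval with h1 | h1
    · exfalso
      apply hu
      rw [h1]
      exact isAlgebraic_algebraMap _
    · exact h1
  · intro h1
    have hm : u - algebraMap K F a ∈ P.toValuationSubring :=
      Fermat.Agent.S24Res.mem_of_ord_nonneg P h1.le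
    have hmem : u ∈ P.toValuationSubring := by
      have := add_mem hm (P.algebraMap_mem' a)
      rwa [sub_add_cancel] at this
    exact ⟨Fermat.Agent.S24Res.ord_nonneg_of_mem P hmem,
      (valueAt_eq_iff h P hmem a).mpr (Or.inr h1)⟩

/-- **SLOPE**, from the sub-seats. -/
theorem slope_of [IsAlgClosed K] [CharZero K] {S₁ : ValSetup K F k Fk₁}
    {S₂ : ValSetup K F k Fk₂} {u : F} {ϖ : K} (h : SlopeData S₁ S₂ u ϖ)
    (hG₁ : SlopeGauss₁ S₁ u) (hG₂ : SlopeGauss₂ S₁ S₂ u ϖ) (hN₁ : SlopeNorm₁ S₁ u)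
    (hN₂ : SlopeNorm₂ S₂ u) {ψ : F} (hψ₁ : S₁.red ψ ≠ 0) (hψ₂ : S₂.red ψ ≠ 0)
    (T : Finset (Place K F)) (hT : ∀ P : Place K F, P.ord ψ ≠ 0 → P ∈ T) :
    S₁.A.valuation (∏ P ∈ T, slopeCl S₁ u ϖ P ^ (P.ord ψ)) = 1 := by
  classical
  have hu : Transcendental K u := sl_transcendental_of_red S₁ h.u_mem h.u_tr
  haveI : FiniteDimensional K⟮u⟯ F := Fermat.Agent.RedTr.fundIdK_finiteDimensional S₁.hF hu
  have hψ0 : ψ ≠ 0 := S₁.ne_zero_of_red_ne_zero hψ₁
  have hR₁ := hN₁ ψ hψ₁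
  have hR₂ := hN₂ ψ hψ₂
  have hR0 : Algebra.norm K⟮u⟯ ψ ≠ 0 := by
    intro h0
    rw [h0, map_zero] at hR₁
    exact hR₁ S₁.red_zero
  obtain ⟨p, q, hp, hq, hpq⟩ := sl_exists_ratio _ hR0
  have hRF : algebraMap K⟮u⟯ F (Algebra.norm K⟮u⟯ ψ) = aeval u p / aeval u q := by
    rw [hpq, map_div₀]
    show ((aeval (AdjoinSimple.gen K u) p : K⟮u⟯) : F) /
      ((aeval (AdjoinSimple.gen K u) q : K⟮u⟯) : F) = _
    rw [sl_coe_aeval_gen, sl_coe_aeval_gen]
  obtain ⟨c₁p, hc₁p, hv₁p, hr₁p⟩ := hG₁ p hp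
  obtain ⟨c₁q, hc₁q, hv₁q, hr₁q⟩ := hG₁ q hq
  obtain ⟨c₂p, hc₂p, hv₂p, hr₂p⟩ := hG₂ p hp
  obtain ⟨c₂q, hc₂q, hv₂q, hr₂q⟩ := hG₂ q hq
  rw [hRF] at hR₁ hR₂
  have e₁ : S₁.A.valuation c₁p = S₁.A.valuation c₁q := by
    obtain ⟨m1, m2⟩ := sl_const_unit S₁ hc₁p hc₁q hr₁p hr₁q hR₁
    exact sl_val_div_eq_one _ hc₁q (sl_val_eq_one _ m1 m2 (div_ne_zero hc₁p hc₁q))
  have e₂ : S₁.A.valuation c₂p = S₁.A.valuation c₂q := by
    obtain ⟨m1, m2⟩ := sl_const_unit S₂ hc₂p hc₂q hr₂p hr₂q hR₂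
    rw [← h.A_eq] at m1 m2
    exact sl_val_div_eq_one _ hc₂q (sl_val_eq_one _ m1 m2 (div_ne_zero hc₂p hc₂q))
  -- the clamp in the value group
  have hΦ : ∀ a, S₁.A.valuation (slopeClK S₁.A ϖ a) * max 1 (S₁.A.valuation a) =
      max (S₁.A.valuation ϖ) (S₁.A.valuation a) := slopeClK_mul S₁.A ϖ h.varpi_lt
  have hΦ0 : ∀ a, S₁.A.valuation (slopeClK S₁.A ϖ a) ≠ 0 := fun a =>
    (Valuation.ne_zero_iff _).mpr (slopeClK_ne_zero S₁.A ϖ h.varpi_ne a)
  have hp' := sl_roots_prod hΦ p.roots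
  have hq' := sl_roots_prod hΦ q.roots
  have hpΦ : (p.roots.map fun a => S₁.A.valuation (slopeClK S₁.A ϖ a)).prod *
      S₁.A.valuation c₁p = S₁.A.valuation c₂p := by
    rw [hv₁p, hv₂p, ← hp']
    rw [mul_left_comm]
  have hqΦ : (q.roots.map fun a => S₁.A.valuation (slopeClK S₁.A ϖ a)).prod *
      S₁.A.valuation c₁q = S₁.A.valuation c₂q := by
    rw [hv₁q, hv₂q, ← hq']
    rw [mul_left_comm]
  have hΦeq : (p.roots.map fun a => S₁.A.valuation (slopeClK S₁.A ϖ a)).prod =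
      (q.roots.map fun a => S₁.A.valuation (slopeClK S₁.A ϖ a)).prod := by
    have hne : S₁.A.valuation c₁q ≠ 0 := (Valuation.ne_zero_iff _).mpr hc₁q
    apply mul_right_cancel₀ hne
    rw [hqΦ, ← e₁, hpΦ, e₂]
  -- bookkeeping
  have step1 : S₁.A.valuation (∏ P ∈ T, slopeCl S₁ u ϖ P ^ (P.ord ψ)) =
      ∏ P ∈ T.filter (fun P => 0 ≤ P.ord u),
        S₁.A.valuation (slopeClK S₁.A ϖ (valueAt S₁.hF P u)) ^ (P.ord ψ) := by
    rw [map_prod, Finset.prod_filter]
    refine Finset.prod_congr rfl fun P _ => ?_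
    rw [map_zpow₀, slopeCl_eq]
    by_cases h1 : P.ord u < 0
    · rw [if_pos h1, if_neg (by omega), map_one, one_zpow]
    · rw [if_neg h1, if_pos (by omega)]
  set B : Finset K := ((T.filter (fun P => 0 ≤ P.ord u)).image fun P => valueAt S₁.hF P u) ∪
    p.roots.toFinset ∪ q.roots.toFinset with hB
  have step2 : ∏ P ∈ T.filter (fun P => 0 ≤ P.ord u),
        S₁.A.valuation (slopeClK S₁.A ϖ (valueAt S₁.hF P u)) ^ (P.ord ψ) =
      ∏ a ∈ B, S₁.A.valuation (slopeClK S₁.A ϖ a) ^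
        ((p.rootMultiplicity a : ℤ) - q.rootMultiplicity a) := by
    rw [← Finset.prod_fiberwise_of_maps_to (t := B) (g := fun P => valueAt S₁.hF P u)]
    · refine Finset.prod_congr rfl fun a _ => ?_
      have h1 : ∀ P ∈ (T.filter fun P => 0 ≤ P.ord u).filter
          (fun P => valueAt S₁.hF P u = a),
          S₁.A.valuation (slopeClK S₁.A ϖ (valueAt S₁.hF P u)) ^ (P.ord ψ) =
            S₁.A.valuation (slopeClK S₁.A ϖ a) ^ (P.ord ψ) := by
        intro P hP
        rw [(Finset.mem_filter.mp hP).2]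
      have hsum : ∑ P ∈ (T.filter fun P => 0 ≤ P.ord u).filter
          (fun P => valueAt S₁.hF P u = a), P.ord ψ =
          (p.rootMultiplicity a : ℤ) - q.rootMultiplicity a := by
        rw [← sl_sum_eq S₁.hF hu hψ0 hp hq hpq T hT a]
        refine Finset.sum_congr ?_ (fun _ _ => rfl)
        ext P
        simp only [Finset.mem_filter, and_assoc]
        rw [sl_value_iff S₁.hF hu P a]
      rw [Finset.prod_congr rfl h1, sl_prod_zpow_const _ _ (hΦ0 a), hsum]
    · intro P hP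
      rw [hB]
      exact Finset.mem_union_left _ (Finset.mem_union_left _ (Finset.mem_image_of_mem _ hP))
  have step3 : ∏ a ∈ B, S₁.A.valuation (slopeClK S₁.A ϖ a) ^
        ((p.rootMultiplicity a : ℤ) - q.rootMultiplicity a) = 1 := by
    have h1 : ∀ a ∈ B, S₁.A.valuation (slopeClK S₁.A ϖ a) ^
        ((p.rootMultiplicity a : ℤ) - q.rootMultiplicity a) =
        S₁.A.valuation (slopeClK S₁.A ϖ a) ^ (p.roots.count a) /
          S₁.A.valuation (slopeClK S₁.A ϖ a) ^ (q.roots.count a) := by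
      intro a _
      rw [zpow_sub₀ (hΦ0 a), zpow_natCast, zpow_natCast, count_roots, count_roots]
    rw [Finset.prod_congr rfl h1, Finset.prod_div_distrib,
      ← sl_multiset_prod_eq (fun a => S₁.A.valuation (slopeClK S₁.A ϖ a)) p.roots B,
      ← sl_multiset_prod_eq (fun a => S₁.A.valuation (slopeClK S₁.A ϖ a)) q.roots B, hΦeq]
    · apply div_self
      rw [← hΦeq]
      intro h0
      rw [h0, zero_mul] at hpΦ
      exact (Valuation.ne_zero_iff _).mpr hc₂p hpΦ.symm
    · rw [hB]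
      exact Finset.subset_union_right
    · rw [hB]
      exact Finset.subset_union_left.trans' Finset.subset_union_right |>.trans
        (le_refl _)
  rw [step1, step2, step3]

end Fermat.Agent.EKp

namespace Fermat.Agent.EKp

open AlgebraicCurve Fermat.Agent.RR Fermat.Agent.Deuring Fermat.Agent.FF IntermediateField
  Polynomial

variable {K F k Fk₁ Fk₂ : Type*} [Field K] [Field F] [Algebra K F]
  [Field k] [Field Fk₁] [Algebra k Fk₁] [Field Fk₂] [Algebra k Fk₂]

/-- **SLOPE**, annulus form, from the sub-seats. -/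
theorem slope_annulus_of [IsAlgClosed K] [CharZero K] {S₁ : ValSetup K F k Fk₁}
    {S₂ : ValSetup K F k Fk₂} {u : F} {ϖ : K} (h : SlopeData S₁ S₂ u ϖ)
    (hG₁ : SlopeGauss₁ S₁ u) (hG₂ : SlopeGauss₂ S₁ S₂ u ϖ) (hN₁ : SlopeNorm₁ S₁ u)
    (hN₂ : SlopeNorm₂ S₂ u) {ψ : F} (hψ₁ : S₁.red ψ ≠ 0) (hψ₂ : S₂.red ψ ≠ 0)
    (T : Finset (Place K F))
    (hT : ∀ P : Place K F, P ∈ T ↔ P.ord ψ ≠ 0 ∧ 0 ≤ P.ord u ∧
      S₁.A.valuation ϖ < S₁.A.valuation (valueAt S₁.hF P u) ∧
      S₁.A.valuation (valueAt S₁.hF P u) < 1) :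
    ∃ z : ℤ, S₁.A.valuation (∏ P ∈ T, valueAt S₁.hF P u ^ (P.ord ψ)) =
      S₁.A.valuation ϖ ^ z := by
  classical
  set T' : Finset (Place K F) := (divOf S₁.hF ψ).support with hT'
  have hT'mem : ∀ P : Place K F, P.ord ψ ≠ 0 → P ∈ T' := by
    intro P hP
    rw [hT', Finsupp.mem_support_iff, divOf_apply]
    exact hP
  have hsub : T ⊆ T' := fun P hP => hT'mem P ((hT P).mp hP).1
  have hmain := slope_of h hG₁ hG₂ hN₁ hN₂ hψ₁ hψ₂ T' hT'mem
  have hϖ0 : S₁.A.valuation ϖ ≠ 0 := (Valuation.ne_zero_iff _).mpr h.varpi_ne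
  set T₂ : Finset (Place K F) := T'.filter (fun P => 0 ≤ P.ord u ∧
    S₁.A.valuation (valueAt S₁.hF P u) ≤ S₁.A.valuation ϖ) with hT₂
  have hfac : ∀ P ∈ T', S₁.A.valuation (slopeCl S₁ u ϖ P ^ (P.ord ψ)) =
      (if P ∈ T then S₁.A.valuation (valueAt S₁.hF P u ^ (P.ord ψ)) else 1) *
        (if P ∈ T₂ then S₁.A.valuation ϖ ^ (P.ord ψ) else 1) := by
    intro P hP
    have hPψ : P.ord ψ ≠ 0 := by
      rw [hT', Finsupp.mem_support_iff, divOf_apply] at hP
      exact hP
    rw [slopeCl_eq]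
    by_cases h1 : P.ord u < 0
    · have hnT : P ∉ T := fun hh => by
        have := ((hT P).mp hh).2.1
        omega
      have hnT₂ : P ∉ T₂ := fun hh => by
        have := (Finset.mem_filter.mp hh).2.1
        omega
      rw [if_pos h1, if_neg hnT, if_neg hnT₂, one_zpow, map_one, one_mul]
    · rw [if_neg h1]
      push Not at h1
      unfold slopeClK
      by_cases h2 : S₁.A.valuation (valueAt S₁.hF P u) ≤ S₁.A.valuation ϖ
      · have hnT : P ∉ T := fun hh => by
          have := ((hT P).mp hh).2.2.1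
          exact absurd h2 (not_le.mpr this)
        have hT₂P : P ∈ T₂ := Finset.mem_filter.mpr ⟨hP, h1, h2⟩
        rw [if_pos h2, if_neg hnT, if_pos hT₂P, one_mul, map_zpow₀]
      · have hnT₂ : P ∉ T₂ := fun hh => h2 (Finset.mem_filter.mp hh).2.2
        rw [if_neg h2, if_neg hnT₂, mul_one]
        push Not at h2
        by_cases h3 : S₁.A.valuation (valueAt S₁.hF P u) < 1
        · have hTP : P ∈ T := (hT P).mpr ⟨hPψ, h1, h2, h3⟩
          rw [if_pos h3, if_pos hTP]
        · have hnT : P ∉ T := fun hh => h3 ((hT P).mp hh).2.2.2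
          rw [if_neg h3, if_neg hnT, one_zpow, map_one]
  rw [map_prod, Finset.prod_congr rfl hfac, Finset.prod_mul_distrib,
    Finset.prod_ite_mem, Finset.inter_eq_right.mpr hsub, ← map_prod,
    Finset.prod_ite_mem, Finset.inter_eq_right.mpr (Finset.filter_subset _ _),
    sl_prod_zpow_const _ _ hϖ0] at hmain
  refine ⟨-∑ P ∈ T₂, P.ord ψ, ?_⟩
  rw [zpow_neg]
  exact eq_inv_of_mul_eq_one_left hmain

end Fermat.Agent.EKp
end
end MergeWrap_E_Desc_Kp_Slope_Main

section MergeWrap_E_Desc_Kp_Slope -- from E/Desc/Kp/Slope.lean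

set_option autoImplicit false

noncomputable section

namespace Fermat.Agent.EKp

open AlgebraicCurve Fermat.Agent.RR Fermat.Agent.Deuring Fermat.Agent.FF IntermediateField
  Polynomial

variable {K F k Fk₁ Fk₂ : Type*} [Field K] [Field F] [Algebra K F]
  [Field k] [Field Fk₁] [Algebra k Fk₁] [Field Fk₂] [Algebra k Fk₂]

/-- **SLOPE**. -/
theorem slope [IsAlgClosed K] [CharZero K] {S₁ : ValSetup K F k Fk₁} {S₂ : ValSetup K F k Fk₂}
    {u : F} {ϖ : K} (h : SlopeData S₁ S₂ u ϖ) {ψ : F} (hψ₁ : S₁.red ψ ≠ 0) (hψ₂ : S₂.red ψ ≠ 0)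
    (T : Finset (Place K F)) (hT : ∀ P : Place K F, P.ord ψ ≠ 0 → P ∈ T) :
    S₁.A.valuation (∏ P ∈ T, slopeCl S₁ u ϖ P ^ (P.ord ψ)) = 1 :=
  slope_of h (slopeGauss₁ h) (slopeGauss₂ h) (slopeNorm₁ h) (slopeNorm₂ h) hψ₁ hψ₂ T hT

/-- **SLOPE**, annulus form: `Σ_{P in the annulus} ord_P(ψ) v(u(P)) ∈ v(ϖ) ℤ`. -/
theorem slope_annulus [IsAlgClosed K] [CharZero K] {S₁ : ValSetup K F k Fk₁}
    {S₂ : ValSetup K F k Fk₂}
    {u : F} {ϖ : K} (h : SlopeData S₁ S₂ u ϖ) {ψ : F} (hψ₁ : S₁.red ψ ≠ 0) (hψ₂ : S₂.red ψ ≠ 0)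
    (T : Finset (Place K F))
    (hT : ∀ P : Place K F, P ∈ T ↔ P.ord ψ ≠ 0 ∧ 0 ≤ P.ord u ∧
      S₁.A.valuation ϖ < S₁.A.valuation (valueAt S₁.hF P u) ∧
      S₁.A.valuation (valueAt S₁.hF P u) < 1) :
    ∃ z : ℤ, S₁.A.valuation (∏ P ∈ T, valueAt S₁.hF P u ^ (P.ord ψ)) =
      S₁.A.valuation ϖ ^ z :=
  slope_annulus_of h (slopeGauss₁ h) (slopeGauss₂ h) (slopeNorm₁ h) (slopeNorm₂ h) hψ₁ hψ₂ T hT

end Fermat.Agent.EKp
end
end MergeWrap_E_Desc_Kp_Slope
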