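import Mathlib
import Fermat.Agent.MUL.E.Desc.Kp.Eval
import Fermat.Agent.MUL.Lib.HP.Aut

section MergeWrap_E_Desc_Kp_CoreUnit -- from E/Desc/Kp/CoreUnit.lean

set_option autoImplicit false
set_option linter.unusedSectionVars false
set_option linter.style.haveILetI false

noncomputable section

namespace Fermat.Agent.EKp

open AlgebraicCurve Fermat.Agent.RR Fermat.Agent.Deuring Fermat.Agent.BadRed

variable {K F k Fk₁ Fk₂ : Type*} [Field K] [Field F] [Algebra K F]
  [Field k] [Field Fk₁] [Algebra k Fk₁] [Field Fk₂] [Algebra k Fk₂]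
  {ι : Type*} [Fintype ι]

/-- one place: `g ∈ 𝔏(m₁ D₀ - P)`, a unit for both valuations, with the value `1` at the nodes
`j ≠ i`. -/
theorem kp_exists_unit_single [Infinite k] (N : NodalSeed K F k Fk₁ Fk₂ ι) {i : ι}
    {P : Place K F} (hP : IsNodeOf N P i) :
    ∃ g : F, N.toNodalCore.IsInt (N.m₁ • N.D₀ - Finsupp.single P 1) g ∧ N.S₁.red g ≠ 0 ∧
      N.S₂.red g ≠ 0 ∧ ∀ j, j ≠ i → NodeValAt N j g 1 := by
  classical
  set c : ι → k := fun j => if j = i then 0 else 1 with hc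
  obtain ⟨a, ha, ha0, hav, -⟩ := exists_interpolation_exact N.S₁.hFk N.s₁ N.s₁_inj
    (N.m₁ • N.R₁) (N.smul_R₁_node N.m₁) ∅ (fun Q hQ => absurd hQ (Finset.notMem_empty Q))
    (N.hdeg₁ (le_refl N.m₁)) c
  obtain ⟨b, hb, hb0, hbv, -⟩ := exists_interpolation_exact N.S₂.hFk N.s₂ N.s₂_inj
    (N.m₁ • N.R₂) (N.smul_R₂_node N.m₁) ∅ (fun Q hQ => absurd hQ (Finset.notMem_empty Q))
    (N.hdeg₂ (le_refl N.m₁)) c
  have hci : c i = 0 := by simp [hc]
  have hcj : ∀ j, j ≠ i → c j = 1 := fun j hj => by simp [hc, hj]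
  have hai : VanAt (N.s₁ i) a := by
    have := hav i
    rw [hci] at this
    exact (valAt_zero_right_iff _ _).mp this
  have hmem : ((a, b) : Fk₁ × Fk₂) ∈
      nodalRR N.s₁ N.s₂ (N.m₁ • N.R₁ - Finsupp.single (N.s₁ i) 1) (N.m₁ • N.R₂) := by
    have h1 : a ∈ riemannRochSpace (N.m₁ • N.R₁ - Finsupp.single (N.s₁ i) 1) := by
      refine td_mem_sub_single ha (Or.inr ?_)
      rw [N.smul_R₁_node]
      have := hai.resolve_left ha0
      omega
    exact ⟨h1, hb, fun j => ⟨c j, hav j, hbv j⟩⟩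
  rw [← hP.2 N.m₁ (le_refl _)] at hmem
  obtain ⟨g, hg, hg1, hg2⟩ := N.td_lift hmem
  refine ⟨g, hg, by rw [hg1]; exact ha0, by rw [hg2]; exact hb0, fun j hj => ⟨?_, ?_⟩⟩
  · rw [hg1, ← hcj j hj]
    exact hav j
  · rw [hg2, ← hcj j hj]
    exact hbv j

/-- monotonicity of `𝔏` in the divisor. -/
theorem kp_isInt_of_le (N : NodalSeed K F k Fk₁ Fk₂ ι) {D D' : Divisor K F} (h : D ≤ D')
    {f : F} (hf : N.toNodalCore.IsInt D f) : N.toNodalCore.IsInt D' f :=
  ⟨riemannRochSpace_mono h hf.1, hf.2.1, hf.2.2⟩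

/-- **(A5)**: a unit of `𝔏(n (m₁ + 1) D₀ - E)` with the value `1` at the nodes `j ≠ i`. -/
theorem kp_exists_unit [Infinite k] (N : NodalSeed K F k Fk₁ Fk₂ ι) (i : ι) (n : ℕ)
    (E : Divisor K F) (hE : 0 ≤ E) (hEN : ∀ P, E P ≠ 0 → IsNodeOf N P i)
    (hn : Divisor.degree E = n) :
    ∃ g : F, N.toNodalCore.IsInt ((n * (N.m₁ + 1)) • N.D₀ - E) g ∧ N.S₁.red g ≠ 0 ∧
      N.S₂.red g ≠ 0 ∧ ∀ j, j ≠ i → NodeValAt N j g 1 := by
  classical
  induction n generalizing E with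
  | zero =>
    have hE0 : (0 : Divisor K F) = E := by
      refine eq_of_le_of_degree_eq N.S₁.hF hE ?_
      rw [hn, map_zero]
      rfl
    subst hE0
    refine ⟨1, ⟨?_, one_mem _, one_mem _⟩, ?_, ?_, fun j _ => nodeValAt_one j⟩
    · rw [Nat.zero_mul, zero_smul, sub_zero]
      exact td_one_mem (le_refl _)
    · rw [N.S₁.red_one]; exact one_ne_zero
    · rw [N.S₂.red_one]; exact one_ne_zero
  | succ n ih =>
    -- a place of the support
    have hne : E ≠ 0 := by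
      rintro rfl
      rw [map_zero] at hn
      have : (0 : ℤ) = ((n + 1 : ℕ) : ℤ) := hn
      push_cast at this
      omega
    obtain ⟨P, hP⟩ : ∃ P, E P ≠ 0 := by
      by_contra hcon
      push Not at hcon
      exact hne (Finsupp.ext hcon)
    have hEP : 1 ≤ E P := by
      have h0 : (0 : ℤ) ≤ E P := (Finsupp.le_def.mp hE) P
      omega
    set E' : Divisor K F := E - Finsupp.single P 1 with hE'
    have hE'0 : 0 ≤ E' := by
      rw [Finsupp.le_def]
      intro v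
      rw [hE', Finsupp.sub_apply, Finsupp.single_apply]
      have h0 : (0 : ℤ) ≤ E v := (Finsupp.le_def.mp hE) v
      simp only [Finsupp.coe_zero, Pi.zero_apply]
      split_ifs with hv
      · subst hv; omega
      · omega
    have hE'N : ∀ Q, E' Q ≠ 0 → IsNodeOf N Q i := by
      intro Q hQ
      by_cases hQP : P = Q
      · subst hQP
        exact hEN P hP
      · apply hEN Q
        rwa [hE', Finsupp.sub_apply, Finsupp.single_apply, if_neg hQP, sub_zero] at hQ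
    have hE'n : Divisor.degree E' = n := by
      have h1 := degree_add_single N.S₁.hF E' P
      rw [hE', sub_add_cancel, hn] at h1
      rw [hE']
      push_cast at h1
      omega
    obtain ⟨g', hg', hg'1, hg'2, hg'v⟩ := ih E' hE'0 hE'N hE'n
    obtain ⟨gP, hgP, hgP1, hgP2, hgPv⟩ := kp_exists_unit_single N (hEN P hP)
    have hmul := NodalCore.IsInt.mul N.toNodalCore hg' hgP
    have hle : (n * (N.m₁ + 1)) • N.D₀ - E' + (N.m₁ • N.D₀ - Finsupp.single P 1) ≤
        ((n + 1) * (N.m₁ + 1)) • N.D₀ - E := by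
      have e1 : (n * (N.m₁ + 1)) • N.D₀ - E' + (N.m₁ • N.D₀ - Finsupp.single P 1) =
          (n * (N.m₁ + 1) + N.m₁) • N.D₀ - E := by
        rw [hE', add_smul]; abel
      have e2 : ((n + 1) * (N.m₁ + 1)) • N.D₀ =
          (n * (N.m₁ + 1) + N.m₁) • N.D₀ + N.D₀ := by
        have : (n + 1) * (N.m₁ + 1) = (n * (N.m₁ + 1) + N.m₁) + 1 := by ring
        rw [this, add_smul, one_smul]
      rw [e1, e2]
      have := N.D₀_nonneg
      rw [sub_le_sub_iff_right]
      exact le_add_of_nonneg_right this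
    refine ⟨g' * gP, kp_isInt_of_le N hle hmul, ?_, ?_, fun j hj => ?_⟩
    · rw [N.S₁.red_mul hg'.2.1 hgP.2.1]
      exact mul_ne_zero hg'1 hgP1
    · rw [N.S₂.red_mul hg'.2.2 hgP.2.2]
      exact mul_ne_zero hg'2 hgP2
    · have := NodeValAt.mul hg'.2.1 hg'.2.2 hgP.2.1 hgP.2.2 (hg'v j hj) (hgPv j hj)
      rwa [one_mul] at this

end Fermat.Agent.EKp
end
end MergeWrap_E_Desc_Kp_CoreUnit
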