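import Mathlib
import Fermat.Agent.MUL.Lib.BadRed.Nodal.Deuring2.Main
import Fermat.Agent.MUL.E.Desc.Kp.Eval
import Fermat.Agent.MUL.Lib.BadRed.Nodal.Deuring2.TypeDual
import Fermat.Agent.MUL.E.Desc.Kp.CoreUnit

section MergeWrap_E_Desc_Kp_CoreB -- from E/Desc/Kp/CoreB.lean

/-!
# Cluster E' (Mazur's descent), DESC-Kp: the CORE count for ANN and FIX, part B  (helper31)

Blueprint: `NOTES/blueprint-E-DESC-Kp.md`, section 4, ANN (1)-(4) and FIX.

`N : NodalSeed K F k Fk₁ Fk₂ ι`, `k` infinite, `r = N.rmap` the reduction of places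
(`r P = none`: `P` is of type (N)).  For an effective divisor `E` supported on places of type (N)
at ONE node `i`:

* `kp_core` (`Core.lean`) : there are `M` and `ψ ∈ 𝔏(M D₀ - E)`, a unit for both valuations,
  such that the divisor of `ψ` on the places of type (N) is `E`, or `E + P**` for one place `P**`
  of type (N).   (`ANN`: `E = Z` a `Γ`-orbit;  `FIX`: `E = 12 P*`.)

(`IsNodeOf`, COUNT, EVAL: `Eval.lean`, helper68.)
This file: the spaces `kpB N i M α β = B(α, β)`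
(`mem_kpB`, `kpB_anti`, `kp_nodalRR_sub_eq`), elements of exact order at a node
(`kp_exists_exact`, `kp_exists_fst`, `kp_exists_snd`) and the dimension bound
`kp_finrank_kpB_le : dim B(α, β) + α + β ≤ dim L_C + 1`.
-/

set_option autoImplicit false
set_option linter.style.haveILetI false
set_option linter.unusedSectionVars false
set_option linter.unusedVariables false

noncomputable section

open AlgebraicCurve Fermat.Agent.RR Fermat.Agent.Deuring Fermat.Agent.BadRed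

namespace Fermat.Agent.EKp

variable {K F k Fk₁ Fk₂ : Type*} [Field K] [Field F] [Algebra K F]
  [Field k] [Field Fk₁] [Algebra k Fk₁] [Field Fk₂] [Algebra k Fk₂] {ι : Type*} [Fintype ι]

/-! ### Riemann–Roch spaces `L(R - α Q)` -/

section RR

variable {F₁ : Type*} [Field F₁] [Algebra k F₁]

theorem kp_mem_rr_sub_single {R : Divisor k F₁} {Q : Place k F₁} {n : ℕ} {f : F₁} :
    f ∈ riemannRochSpace (R - Finsupp.single Q (n : ℤ)) ↔
      f ∈ riemannRochSpace R ∧ (f = 0 ∨ -(R Q) + n ≤ Q.ord f) := by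
  classical
  rw [mem_riemannRochSpace_iff, mem_riemannRochSpace_iff]
  constructor
  · intro h
    refine ⟨fun v => ?_, ?_⟩
    · rcases h v with h0 | h1
      · exact Or.inl h0
      · right
        rw [Finsupp.sub_apply, Finsupp.single_apply] at h1
        split_ifs at h1 <;> omega
    · rcases h Q with h0 | h1
      · exact Or.inl h0
      · right
        rw [Finsupp.sub_apply, Finsupp.single_eq_same] at h1
        omega
  · rintro ⟨h1, h2⟩ v
    rcases eq_or_ne f 0 with h0 | h0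
    · exact Or.inl h0
    right
    have hv := (h1 v).resolve_left h0
    rw [Finsupp.sub_apply, Finsupp.single_apply]
    split_ifs with hQv
    · subst hQv
      have := h2.resolve_left h0
      omega
    · omega

/-- interpolation at the nodes `j ≠ i` with EXACT order `α` at the node `i`. -/
theorem kp_exists_exact [Infinite k] (h₁ : IsRRField k F₁) (s : ι → Place k F₁)
    (hs : Function.Injective s) (R : Divisor k F₁) (hR : ∀ j, R (s j) = 0) (i : ι) (α : ℕ)
    (hdeg : 2 * (genusFF k F₁ : ℤ) - 2 < Divisor.degree R - α - Fintype.card ι) (c : ι → k) :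
    ∃ a ∈ riemannRochSpace (R - Finsupp.single (s i) (α : ℤ)), a ≠ 0 ∧ (s i).ord a = α ∧
      ∀ j, j ≠ i → ValAt (s j) a (c j) := by
  classical
  have hcard : Fintype.card {j : ι // j ≠ i} < Fintype.card ι :=
    Fintype.card_subtype_lt (p := fun j => j ≠ i) (x := i) (fun h => h rfl)
  have hR' : ∀ j : {j : ι // j ≠ i}, (R - Finsupp.single (s i) (α : ℤ)) (s j.1) = 0 := by
    intro j
    rw [Finsupp.sub_apply, hR, Finsupp.single_apply, if_neg (fun h => j.2 (hs h).symm), sub_zero]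
  have hd : Divisor.degree (R - Finsupp.single (s i) (α : ℤ)) = Divisor.degree R - α := by
    rw [map_sub, degree_single_one h₁]
  obtain ⟨a, ha, ha0, hac, haQ⟩ := exists_interpolation_exact h₁ (fun j : {j : ι // j ≠ i} => s j.1)
    (fun x y hxy => Subtype.ext (hs hxy)) (R - Finsupp.single (s i) (α : ℤ)) hR' {s i}
    (fun Q hQ j => by
      rw [Finset.mem_singleton] at hQ
      rw [hQ]
      exact fun h => j.2 (hs h).symm)
    (by rw [hd]; omega) (fun j => c j.1)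
  refine ⟨a, ha, ha0, ?_, fun j hj => hac ⟨j, hj⟩⟩
  have := haQ (s i) (Finset.mem_singleton_self _)
  rw [this, Finsupp.sub_apply, hR, Finsupp.single_eq_same]
  ring

end RR

/-! ### the spaces `B(α, β)` -/

section B

variable (N : NodalSeed K F k Fk₁ Fk₂ ι) (i : ι) (M : ℕ)

/-- `B(α, β)`: the pairs of `L_C(M R₁, M R₂)` vanishing to the order `α` (resp. `β`) on the first
(resp. second) branch of the node `i`. -/
def kpB (α β : ℕ) : Submodule k (Fk₁ × Fk₂) :=
  nodalRR N.s₁ N.s₂ (M • N.R₁ - Finsupp.single (N.s₁ i) (α : ℤ))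
    (M • N.R₂ - Finsupp.single (N.s₂ i) (β : ℤ))

theorem mem_kpB {α β : ℕ} {z : Fk₁ × Fk₂} :
    z ∈ kpB N i M α β ↔ z ∈ nodalRR N.s₁ N.s₂ (M • N.R₁) (M • N.R₂) ∧
      (z.1 = 0 ∨ (α : ℤ) ≤ (N.s₁ i).ord z.1) ∧ (z.2 = 0 ∨ (β : ℤ) ≤ (N.s₂ i).ord z.2) := by
  unfold kpB
  rw [mem_nodalRR, mem_nodalRR, kp_mem_rr_sub_single, kp_mem_rr_sub_single, N.smul_R₁_node,
    N.smul_R₂_node, neg_zero, zero_add, zero_add]
  tauto

theorem kpB_le_nodalRR (α β : ℕ) :
    kpB N i M α β ≤ nodalRR N.s₁ N.s₂ (M • N.R₁) (M • N.R₂) :=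
  fun _ hz => ((mem_kpB N i M).mp hz).1

theorem kpB_anti {α α' β β' : ℕ} (hα : α ≤ α') (hβ : β ≤ β') :
    kpB N i M α' β' ≤ kpB N i M α β := by
  intro z hz
  rw [mem_kpB] at hz ⊢
  refine ⟨hz.1, hz.2.1.imp_right fun h => ?_, hz.2.2.imp_right fun h => ?_⟩
  · have : (α : ℤ) ≤ α' := by exact_mod_cast hα
    omega
  · have : (β : ℤ) ≤ β' := by exact_mod_cast hβ
    omega

/-- a pair of `L_C` vanishing on the first branch of the node `i` vanishes on the second. -/
theorem kp_vanAt_snd {z : Fk₁ × Fk₂} (hz : z ∈ nodalRR N.s₁ N.s₂ (M • N.R₁) (M • N.R₂))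
    (h : VanAt (N.s₁ i) z.1) : VanAt (N.s₂ i) z.2 := by
  obtain ⟨c, hc1, hc2⟩ := hz.2.2 i
  have hc0 : c = 0 := hc1.unique ((valAt_zero_right_iff _ _).mpr h)
  rw [hc0] at hc2
  exact (valAt_zero_right_iff _ _).mp hc2

theorem kp_vanAt_fst {z : Fk₁ × Fk₂} (hz : z ∈ nodalRR N.s₁ N.s₂ (M • N.R₁) (M • N.R₂))
    (h : VanAt (N.s₂ i) z.2) : VanAt (N.s₁ i) z.1 := by
  obtain ⟨c, hc1, hc2⟩ := hz.2.2 i
  have hc0 : c = 0 := hc2.unique ((valAt_zero_right_iff _ _).mpr h)
  rw [hc0] at hc1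
  exact (valAt_zero_right_iff _ _).mp hc1

/-- `nodalRR (M R₁ - s₁ i) (M R₂) = B(1, 1)`. -/
theorem kp_nodalRR_sub_eq :
    nodalRR N.s₁ N.s₂ (M • N.R₁ - Finsupp.single (N.s₁ i) 1) (M • N.R₂) = kpB N i M 1 1 := by
  apply le_antisymm
  · intro z hz
    have hz1 : z.1 ∈ riemannRochSpace (M • N.R₁ - Finsupp.single (N.s₁ i) ((1 : ℕ) : ℤ)) := by
      rw [Nat.cast_one]
      exact hz.1
    rw [kp_mem_rr_sub_single, N.smul_R₁_node, neg_zero, zero_add] at hz1
    have hzL : z ∈ nodalRR N.s₁ N.s₂ (M • N.R₁) (M • N.R₂) := ⟨hz1.1, hz.2.1, hz.2.2⟩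
    rw [mem_kpB]
    refine ⟨hzL, hz1.2, ?_⟩
    have hv : VanAt (N.s₁ i) z.1 := hz1.2.imp_right fun h => by
      have : ((1 : ℕ) : ℤ) = 1 := Nat.cast_one
      omega
    rcases kp_vanAt_snd N i M hzL hv with h0 | h0
    · exact Or.inl h0
    · right
      have : ((1 : ℕ) : ℤ) = 1 := Nat.cast_one
      omega
  · intro z hz
    rw [mem_kpB] at hz
    refine ⟨?_, hz.1.2.1, hz.1.2.2⟩
    have : z.1 ∈ riemannRochSpace (M • N.R₁ - Finsupp.single (N.s₁ i) ((1 : ℕ) : ℤ)) := by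
      rw [kp_mem_rr_sub_single, N.smul_R₁_node, neg_zero, zero_add]
      exact ⟨hz.1.1, hz.2.1⟩
    rwa [Nat.cast_one] at this

end B

/-! ### numerics -/

section Num

variable (N : NodalSeed K F k Fk₁ Fk₂ ι)

theorem kp_big₁ {n M : ℕ} (hM : N.m₁ + n ≤ M) :
    2 * ((genusFF K F : ℤ) + genusFF k Fk₁ + genusFF k Fk₂) + Fintype.card ι + 4 + n ≤
      Divisor.degree (M • N.R₁) := by
  rw [N.degree_smul_R₁]
  have h2 : (N.m₁ : ℤ) + n ≤ M := by exact_mod_cast hM
  unfold NodalSeed.m₁ NodalSeed.m₀ at h2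
  push_cast at h2
  have h3 : (M : ℤ) ≤ M * Divisor.degree N.R₁ := by
    have := N.R₁_pos
    have hm0 : (0 : ℤ) ≤ M := Int.natCast_nonneg M
    nlinarith
  omega

theorem kp_big₂ {n M : ℕ} (hM : N.m₁ + n ≤ M) :
    2 * ((genusFF K F : ℤ) + genusFF k Fk₁ + genusFF k Fk₂) + Fintype.card ι + 4 + n ≤
      Divisor.degree (M • N.R₂) := by
  rw [N.degree_smul_R₂]
  have h2 : (N.m₁ : ℤ) + n ≤ M := by exact_mod_cast hM
  unfold NodalSeed.m₁ NodalSeed.m₀ at h2
  push_cast at h2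
  have h3 : (M : ℤ) ≤ M * Divisor.degree N.R₂ := by
    have := N.R₂_pos
    have hm0 : (0 : ℤ) ≤ M := Int.natCast_nonneg M
    nlinarith
  omega

theorem kp_big₀ {n M : ℕ} (hM : N.m₁ + n ≤ M) :
    2 * ((genusFF K F : ℤ) + genusFF k Fk₁ + genusFF k Fk₂) + Fintype.card ι + 4 + n ≤
      Divisor.degree (M • N.D₀) := by
  rw [N.degree_smul_D₀]
  have h2 : (N.m₁ : ℤ) + n ≤ M := by exact_mod_cast hM
  unfold NodalSeed.m₁ NodalSeed.m₀ at h2
  push_cast at h2
  have h3 : (M : ℤ) ≤ M * Divisor.degree N.D₀ := by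
    have := N.degree_D₀_pos
    have hm0 : (0 : ℤ) ≤ M := Int.natCast_nonneg M
    nlinarith
  omega

/-- an element of `L(M R₁)` of exact order `α` at the node `i`, with given values at the other
nodes. -/
theorem kp_exists_fst [Infinite k] (i : ι) {α M : ℕ} (hM : N.m₁ + α ≤ M) (c : ι → k) :
    ∃ a ∈ riemannRochSpace (M • N.R₁ - Finsupp.single (N.s₁ i) (α : ℤ)), a ≠ 0 ∧
      (N.s₁ i).ord a = α ∧ ∀ j, j ≠ i → ValAt (N.s₁ j) a (c j) := by
  have hb := kp_big₁ N hM
  have hg := Int.natCast_nonneg (genusFF K F)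
  have hg₂ := Int.natCast_nonneg (genusFF k Fk₂)
  exact kp_exists_exact N.S₁.hFk N.s₁ N.s₁_inj (M • N.R₁) (N.smul_R₁_node M) i α (by omega) c

theorem kp_exists_snd [Infinite k] (i : ι) {β M : ℕ} (hM : N.m₁ + β ≤ M) (c : ι → k) :
    ∃ b ∈ riemannRochSpace (M • N.R₂ - Finsupp.single (N.s₂ i) (β : ℤ)), b ≠ 0 ∧
      (N.s₂ i).ord b = β ∧ ∀ j, j ≠ i → ValAt (N.s₂ j) b (c j) := by
  have hb := kp_big₂ N hM
  have hg := Int.natCast_nonneg (genusFF K F)
  have hg₁ := Int.natCast_nonneg (genusFF k Fk₁)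
  exact kp_exists_exact N.S₂.hFk N.s₂ N.s₂_inj (M • N.R₂) (N.smul_R₂_node M) i β (by omega) c

end Num

/-! ### the dimension of `B(α, β)` -/

section Dim

variable [Infinite k] (N : NodalSeed K F k Fk₁ Fk₂ ι) (i : ι)

/-- `(a, 0) ∈ B(α, β) ∖ B(α + 1, β)`. -/
theorem kp_exists_mem_fst {α β M : ℕ} (hα : 1 ≤ α) (hM : N.m₁ + α ≤ M) :
    ∃ z ∈ kpB N i M α β, z ∉ kpB N i M (α + 1) β ∧ z.1 ≠ 0 := by
  obtain ⟨a, ha, ha0, hord, hval⟩ := kp_exists_fst N i hM (fun _ => 0)
  rw [kp_mem_rr_sub_single] at ha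
  have hvan : ∀ j, ValAt (N.s₁ j) a 0 := by
    intro j
    by_cases hj : j = i
    · subst hj
      rw [valAt_zero_right_iff]
      right
      rw [hord]
      exact_mod_cast hα
    · exact hval j hj
  refine ⟨(a, 0), ?_, ?_, ha0⟩
  · rw [mem_kpB]
    exact ⟨⟨ha.1, Submodule.zero_mem _, fun j => ⟨0, hvan j, valAt_zero _⟩⟩,
      Or.inr (by rw [hord]), Or.inl rfl⟩
  · intro h
    rw [mem_kpB] at h
    have := h.2.1.resolve_left ha0
    rw [hord] at this
    push_cast at this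
    omega

/-- `(0, b) ∈ B(α, β) ∖ B(α, β + 1)`. -/
theorem kp_exists_mem_snd {α β M : ℕ} (hβ : 1 ≤ β) (hM : N.m₁ + β ≤ M) :
    ∃ z ∈ kpB N i M α β, z ∉ kpB N i M α (β + 1) ∧ z.2 ≠ 0 := by
  obtain ⟨b, hb, hb0, hord, hval⟩ := kp_exists_snd N i hM (fun _ => 0)
  rw [kp_mem_rr_sub_single] at hb
  have hvan : ∀ j, ValAt (N.s₂ j) b 0 := by
    intro j
    by_cases hj : j = i
    · subst hj
      rw [valAt_zero_right_iff]
      right
      rw [hord]
      exact_mod_cast hβ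
    · exact hval j hj
  refine ⟨(0, b), ?_, ?_, hb0⟩
  · rw [mem_kpB]
    exact ⟨⟨Submodule.zero_mem _, hb.1, fun j => ⟨0, valAt_zero _, hvan j⟩⟩,
      Or.inl rfl, Or.inr (by rw [hord])⟩
  · intro h
    rw [mem_kpB] at h
    have := h.2.2.resolve_left hb0
    rw [hord] at this
    push_cast at this
    omega

/-- `dim B(α, β) + α + β ≤ dim L_C + 1` for `α, β ≥ 1`. -/
theorem kp_finrank_kpB_le {n M : ℕ} (hM : N.m₁ + n ≤ M) :
    ∀ α β : ℕ, 1 ≤ α → 1 ≤ β → α ≤ n + 1 → β ≤ n + 1 →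
      Module.finrank k (kpB N i M α β) + α + β ≤
        Module.finrank k (nodalRR N.s₁ N.s₂ (M • N.R₁) (M • N.R₂)) + 1 := by
  haveI := finite_nodalRR N.S₁.hFk N.S₂.hFk N.s₁ N.s₂ (M • N.R₁) (M • N.R₂)
  have hfin : ∀ α β, Module.Finite k (kpB N i M α β) := fun α β =>
    Submodule.finiteDimensional_of_le (kpB_le_nodalRR N i M α β)
  -- the base case
  have h11 : Module.finrank k (kpB N i M 1 1) + 1 + 1 ≤
      Module.finrank k (nodalRR N.s₁ N.s₂ (M • N.R₁) (M • N.R₂)) + 1 := by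
    have hlt : kpB N i M 1 1 < nodalRR N.s₁ N.s₂ (M • N.R₁) (M • N.R₂) := by
      refine lt_of_le_of_ne (kpB_le_nodalRR N i M 1 1) fun h => ?_
      have h1 : ((1 : Fk₁), (1 : Fk₂)) ∈ nodalRR N.s₁ N.s₂ (M • N.R₁) (M • N.R₂) :=
        ⟨td_one_mem (N.smul_R₁_nonneg M), td_one_mem (N.smul_R₂_nonneg M),
          fun j => ⟨1, td_valAt_one _, td_valAt_one _⟩⟩
      rw [← h, mem_kpB] at h1
      have := h1.2.1.resolve_left one_ne_zero
      rw [Place.ord_one] at this
      norm_num at this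
    have := Submodule.finrank_lt_finrank_of_lt hlt
    omega
  -- first index
  have hα : ∀ α : ℕ, 1 ≤ α → α ≤ n + 1 → Module.finrank k (kpB N i M α 1) + α + 1 ≤
      Module.finrank k (nodalRR N.s₁ N.s₂ (M • N.R₁) (M • N.R₂)) + 1 := by
    intro α hα1
    induction α, hα1 using Nat.le_induction with
    | base => exact fun _ => h11
    | succ α hα1 ih =>
      intro hαn
      have ih' := ih (by omega)
      obtain ⟨z, hz, hzn, -⟩ := kp_exists_mem_fst N i (α := α) (β := 1) (M := M) hα1 (by omega)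
      have hlt : kpB N i M (α + 1) 1 < kpB N i M α 1 :=
        lt_of_le_of_ne (kpB_anti N i M (Nat.le_succ α) le_rfl) fun h => hzn (h ▸ hz)
      haveI := hfin α 1
      have := Submodule.finrank_lt_finrank_of_lt hlt
      omega
  intro α β hα1 hβ1 hαn
  induction β, hβ1 using Nat.le_induction with
  | base => exact fun _ => hα α hα1 hαn
  | succ β hβ1 ih =>
    intro hβn
    have ih' := ih (by omega)
    obtain ⟨z, hz, hzn, -⟩ := kp_exists_mem_snd N i (α := α) (β := β) (M := M) hβ1 (by omega)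
    have hlt : kpB N i M α (β + 1) < kpB N i M α β :=
      lt_of_le_of_ne (kpB_anti N i M le_rfl (Nat.le_succ β)) fun h => hzn (h ▸ hz)
    haveI := hfin α β
    have := Submodule.finrank_lt_finrank_of_lt hlt
    omega

end Dim

end Fermat.Agent.EKp
end
end MergeWrap_E_Desc_Kp_CoreB

section MergeWrap_E_Desc_Kp_CoreDim -- from E/Desc/Kp/CoreDim.lean

set_option autoImplicit false
set_option linter.unusedSectionVars false
set_option linter.style.haveILetI false

noncomputable section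

namespace Fermat.Agent.EKp

open AlgebraicCurve Fermat.Agent.RR Fermat.Agent.Deuring Fermat.Agent.BadRed

section Special

variable {k F₁ F₂ : Type*} [Field k] [Field F₁] [Algebra k F₁] [Field F₂] [Algebra k F₂]
  {ι : Type*}

/-- the degree of `R - a Q`. -/
theorem cd_degree_sub_smul_single (h : IsRRField k F₁) (R : Divisor k F₁) (Q : Place k F₁)
    (a : ℕ) : Divisor.degree (R - a • Finsupp.single Q (1 : ℤ)) = Divisor.degree R - a := by
  induction a with
  | zero => simp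
  | succ n ih =>
    have h1 := degree_add_single h (R - (n + 1) • Finsupp.single Q (1 : ℤ)) Q
    have e : R - (n + 1) • Finsupp.single Q (1 : ℤ) + Finsupp.single Q 1 =
        R - n • Finsupp.single Q (1 : ℤ) := by
      rw [add_smul, one_smul]; abel
    rw [e, ih] at h1
    push_cast
    omega

theorem cd_sub_smul_single_apply_of_ne (R : Divisor k F₁) {Q Q' : Place k F₁} (hne : Q ≠ Q')
    (a : ℕ) : (R - a • Finsupp.single Q (1 : ℤ)) Q' = R Q' := by
  classical
  rw [Finsupp.sub_apply, Finsupp.smul_apply, Finsupp.single_apply, if_neg hne, smul_zero,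
    sub_zero]

theorem cd_sub_smul_single_apply_self (R : Divisor k F₁) (Q : Place k F₁)
    (a : ℕ) : (R - a • Finsupp.single Q (1 : ℤ)) Q = R Q - a := by
  classical
  rw [Finsupp.sub_apply, Finsupp.smul_apply, Finsupp.single_apply, if_pos rfl, nsmul_eq_mul,
    mul_one]

/-- an element of `L(R - a Q)`, `R Q = 0`, `a ≥ 1`, vanishes at `Q`. -/
theorem cd_vanAt_of_mem {R : Divisor k F₁} {Q : Place k F₁} (hQ : R Q = 0) {a : ℕ}
    (ha : 1 ≤ a) {f : F₁} (hf : f ∈ riemannRochSpace (R - a • Finsupp.single Q (1 : ℤ))) :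
    VanAt Q f := by
  rcases (mem_riemannRochSpace_iff.mp hf) Q with h0 | h
  · exact Or.inl h0
  · right
    rw [cd_sub_smul_single_apply_self, hQ] at h
    have : (1 : ℤ) ≤ a := by exact_mod_cast ha
    omega

/-- **(L2)** the dimension of `B(a, b)`. -/
theorem finrank_nodalRR_ord_le [Fintype ι] (h₁ : IsRRField k F₁) (h₂ : IsRRField k F₂)
    (s₁ : ι → Place k F₁) (s₂ : ι → Place k F₂) (hs₁ : Function.Injective s₁)
    (R₁ : Divisor k F₁) (R₂ : Divisor k F₂)
    (hR₁ : ∀ j, R₁ (s₁ j) = 0) (i : ι) (a b : ℕ) (ha : 1 ≤ a)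
    (hdeg₁ : 2 * (genusFF k F₁ : ℤ) - 2 < Divisor.degree R₁ - a - Fintype.card ι + 1)
    (hdeg₂ : 2 * (genusFF k F₂ : ℤ) - 2 < Divisor.degree R₂ - b) :
    (Module.finrank k (nodalRR s₁ s₂ (R₁ - a • Finsupp.single (s₁ i) (1 : ℤ))
        (R₂ - b • Finsupp.single (s₂ i) (1 : ℤ))) : ℤ) ≤
      Divisor.degree R₁ + Divisor.degree R₂ + 2 - (genusFF k F₁ : ℤ) - (genusFF k F₂ : ℤ)
        - Fintype.card ι - ((a : ℤ) + b - 1) := by
  classical
  set R₁' : Divisor k F₁ := R₁ - a • Finsupp.single (s₁ i) (1 : ℤ) with hR₁'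
  set R₂' : Divisor k F₂ := R₂ - b • Finsupp.single (s₂ i) (1 : ℤ) with hR₂'
  -- the nodes different from `i`
  set T : Finset (Place k F₁) := (Finset.univ.erase i).image s₁ with hT
  have hTcard : (T.card : ℤ) = Fintype.card ι - 1 := by
    rw [hT, Finset.card_image_of_injective _ hs₁, Finset.card_erase_of_mem (Finset.mem_univ i),
      Finset.card_univ]
    have : 1 ≤ Fintype.card ι := Fintype.card_pos_iff.mpr ⟨i⟩
    omega
  have hTR : ∀ Q ∈ T, R₁' Q = 0 := by
    intro Q hQ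
    obtain ⟨j, hj, rfl⟩ := Finset.mem_image.mp hQ
    have hji : j ≠ i := (Finset.mem_erase.mp hj).1
    rw [hR₁', cd_sub_smul_single_apply_of_ne _ (fun h => hji (hs₁ h).symm), hR₁ j]
  have hmemT : ∀ j, j ≠ i → s₁ j ∈ T := fun j hj =>
    Finset.mem_image_of_mem s₁ (Finset.mem_erase.mpr ⟨hj, Finset.mem_univ j⟩)
  have := finite_nodalRR h₁ h₂ s₁ s₂ R₁' R₂'
  have := finite_riemannRochSpace h₁ (R₁' - sumPlaces T)
  have := finite_riemannRochSpace h₂ R₂'
  let g : ↥(nodalRR s₁ s₂ R₁' R₂') →ₗ[k] ↥(riemannRochSpace R₂') :=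
    LinearMap.codRestrict _ ((LinearMap.snd k F₁ F₂) ∘ₗ (nodalRR s₁ s₂ R₁' R₂').subtype)
      (fun x => x.2.2.1)
  let f : ↥(LinearMap.ker g) →ₗ[k] ↥(riemannRochSpace (R₁' - sumPlaces T)) :=
    LinearMap.codRestrict _
      ((LinearMap.fst k F₁ F₂) ∘ₗ (nodalRR s₁ s₂ R₁' R₂').subtype ∘ₗ (LinearMap.ker g).subtype)
      (fun x => by
        have hx2 : ((x : ↥(nodalRR s₁ s₂ R₁' R₂')) : F₁ × F₂).2 = 0 :=
          congrArg Subtype.val (LinearMap.mem_ker.mp x.2)
        show ((x : ↥(nodalRR s₁ s₂ R₁' R₂')) : F₁ × F₂).1 ∈ _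
        rw [mem_riemannRochSpace_sub_sumPlaces_iff hTR]
        refine ⟨x.1.2.1, fun Q hQ => ?_⟩
        obtain ⟨j, -, rfl⟩ := Finset.mem_image.mp hQ
        obtain ⟨c, hc1, hc2⟩ := x.1.2.2.2 j
        rw [hx2] at hc2
        have hc0 : c = 0 := hc2.unique (valAt_zero _)
        rw [hc0] at hc1
        exact (valAt_zero_right_iff _ _).mp hc1)
  have hf_inj : Function.Injective f := by
    intro x y hxy
    have h1 : ((x : ↥(nodalRR s₁ s₂ R₁' R₂')) : F₁ × F₂).1 =
        ((y : ↥(nodalRR s₁ s₂ R₁' R₂')) : F₁ × F₂).1 := congrArg Subtype.val hxy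
    have hx2 : ((x : ↥(nodalRR s₁ s₂ R₁' R₂')) : F₁ × F₂).2 = 0 :=
      congrArg Subtype.val (LinearMap.mem_ker.mp x.2)
    have hy2 : ((y : ↥(nodalRR s₁ s₂ R₁' R₂')) : F₁ × F₂).2 = 0 :=
      congrArg Subtype.val (LinearMap.mem_ker.mp y.2)
    exact Subtype.ext (Subtype.ext (Prod.ext h1 (hx2.trans hy2.symm)))
  have hrank := LinearMap.finrank_range_add_finrank_ker g
  have h1 : Module.finrank k (LinearMap.range g) ≤ ell R₂' := by
    rw [ell_def]
    exact Submodule.finrank_le _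
  have h2 : Module.finrank k (LinearMap.ker g) ≤ ell (R₁' - sumPlaces T) := by
    rw [ell_def]
    exact LinearMap.finrank_le_finrank_of_injective hf_inj
  have hd₁ : Divisor.degree (R₁' - sumPlaces T) =
      Divisor.degree R₁ - a - (Fintype.card ι - 1) := by
    rw [map_sub, degree_sumPlaces h₁, hTcard, hR₁', cd_degree_sub_smul_single h₁]
  have hd₂ : Divisor.degree R₂' = Divisor.degree R₂ - b := by
    rw [hR₂', cd_degree_sub_smul_single h₂]
  have hell₁ : (ell (R₁' - sumPlaces T) : ℤ) =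
      Divisor.degree (R₁' - sumPlaces T) + 1 - (genusFF k F₁ : ℤ) :=
    ell_of_degree_gt h₁ (by rw [hd₁]; omega)
  have hell₂ : (ell R₂' : ℤ) = Divisor.degree R₂' + 1 - (genusFF k F₂ : ℤ) :=
    ell_of_degree_gt h₂ (by rw [hd₂]; omega)
  rw [hd₁] at hell₁
  rw [hd₂] at hell₂
  have h3 : (Module.finrank k (nodalRR s₁ s₂ R₁' R₂') : ℤ) ≤
      (ell (R₁' - sumPlaces T) : ℤ) + (ell R₂' : ℤ) := by
    have : Module.finrank k (nodalRR s₁ s₂ R₁' R₂') ≤ ell (R₁' - sumPlaces T) + ell R₂' := by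
      omega
    exact_mod_cast this
  rw [hell₁, hell₂] at h3
  linarith

end Special

variable {K F k Fk₁ Fk₂ : Type*} [Field K] [Field F] [Algebra K F]
  [Field k] [Field Fk₁] [Algebra k Fk₁] [Field Fk₂] [Algebra k Fk₂]
  {ι : Type*} [Fintype ι] (N : NodalSeed K F k Fk₁ Fk₂ ι)

/-- numerics: `deg ((m₁ + e) D₀) ≥ 2 (g + g₁ + g₂) + s + 4 + e`, and the same for `R₁`, `R₂`. -/
theorem cd_big₀ {M e : ℕ} (hM : N.m₁ + e ≤ M) :
    2 * ((genusFF K F : ℤ) + genusFF k Fk₁ + genusFF k Fk₂) + Fintype.card ι + 4 + e ≤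
      Divisor.degree (M • N.D₀) := by
  obtain ⟨d, rfl⟩ := Nat.exists_eq_add_of_le hM
  have h1 := N.big₀ (le_refl N.m₁)
  rw [N.degree_smul_D₀] at h1 ⊢
  have h2 := N.degree_D₀_pos
  push_cast
  have hd : (0 : ℤ) ≤ d := Int.natCast_nonneg d
  have he : (0 : ℤ) ≤ e := Int.natCast_nonneg e
  nlinarith

theorem cd_big₁ {M e : ℕ} (hM : N.m₁ + e ≤ M) :
    2 * ((genusFF K F : ℤ) + genusFF k Fk₁ + genusFF k Fk₂) + Fintype.card ι + 4 + e ≤
      Divisor.degree (M • N.R₁) := by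
  obtain ⟨d, rfl⟩ := Nat.exists_eq_add_of_le hM
  have h1 := N.big₁ (le_refl N.m₁)
  rw [N.degree_smul_R₁] at h1 ⊢
  have h2 := N.R₁_pos
  push_cast
  have hd : (0 : ℤ) ≤ d := Int.natCast_nonneg d
  have he : (0 : ℤ) ≤ e := Int.natCast_nonneg e
  nlinarith

theorem cd_big₂ {M e : ℕ} (hM : N.m₁ + e ≤ M) :
    2 * ((genusFF K F : ℤ) + genusFF k Fk₁ + genusFF k Fk₂) + Fintype.card ι + 4 + e ≤
      Divisor.degree (M • N.R₂) := by
  obtain ⟨d, rfl⟩ := Nat.exists_eq_add_of_le hM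
  have h1 := N.big₂ (le_refl N.m₁)
  rw [N.degree_smul_R₂] at h1 ⊢
  have h2 := N.R₂_pos
  push_cast
  have hd : (0 : ℤ) ≤ d := Int.natCast_nonneg d
  have he : (0 : ℤ) ≤ e := Int.natCast_nonneg e
  nlinarith

/-- **(L3)** `dim V(M D₀ - E) + deg E = dim L_C(M R₁, M R₂)` for `M ≥ m₁ + deg E`. -/
theorem finrank_V_sub_eff {M e : ℕ} (E : Divisor K F)
    (hE : Divisor.degree E = e) (hM : N.m₁ + e ≤ M) :
    (Module.finrank k (N.toNodalCore.V (M • N.D₀ - E)) : ℤ) + e =
      Module.finrank k (nodalRR N.s₁ N.s₂ (M • N.R₁) (M • N.R₂)) := by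
  have hM₁ : N.m₁ ≤ M := le_trans (Nat.le_add_right _ _) hM
  have hb := cd_big₀ N hM
  have hg₁ := Int.natCast_nonneg (genusFF k Fk₁)
  have hg₂ := Int.natCast_nonneg (genusFF k Fk₂)
  have hs := Int.natCast_nonneg (Fintype.card ι)
  have he := Int.natCast_nonneg e
  rw [← N.V_eq (N.m₀_le_of_m₁_le hM₁), N.toNodalCore.finrank_V, N.toNodalCore.finrank_V]
  have h1 := ell_of_degree_gt N.S₁.hF (D := M • N.D₀) (by omega)
  have h2 := ell_of_degree_gt N.S₁.hF (D := M • N.D₀ - E) (by rw [map_sub, hE]; omega)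
  rw [map_sub, hE] at h2
  omega

/-- **(L2) + (L3)**: `V(M D₀ - E)` is not contained in `B(a, b)` for `a + b ≥ deg E + 2`
(`1 ≤ a`, `a, b ≤ deg E + 1`, `M ≥ m₁ + deg E + 1`). -/
theorem V_sub_not_le {M e : ℕ} (E : Divisor K F)
    (hE : Divisor.degree E = e) (hM : N.m₁ + (e + 1) ≤ M) (i : ι) {a b : ℕ} (ha : 1 ≤ a)
    (hae : a ≤ e + 1) (hbe : b ≤ e + 1) (hab : e + 2 ≤ a + b) :
    ¬ N.toNodalCore.V (M • N.D₀ - E) ≤
      nodalRR N.s₁ N.s₂ (M • N.R₁ - a • Finsupp.single (N.s₁ i) (1 : ℤ))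
        (M • N.R₂ - b • Finsupp.single (N.s₂ i) (1 : ℤ)) := by
  intro hle
  have hM' : N.m₁ + e ≤ M := by omega
  have hM₁ : N.m₁ ≤ M := le_trans (Nat.le_add_right _ _) hM
  have hb₁ := cd_big₁ N hM
  have hb₂ := cd_big₂ N hM
  have hg := Int.natCast_nonneg (genusFF K F)
  have hg₁ := Int.natCast_nonneg (genusFF k Fk₁)
  have hg₂ := Int.natCast_nonneg (genusFF k Fk₂)
  have hs := Int.natCast_nonneg (Fintype.card ι)
  have hae' : (a : ℤ) ≤ e + 1 := by exact_mod_cast hae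
  have hbe' : (b : ℤ) ≤ e + 1 := by exact_mod_cast hbe
  have hab' : (e : ℤ) + 2 ≤ a + b := by exact_mod_cast hab
  push_cast at hb₁ hb₂
  have h1 := finrank_nodalRR_ord_le N.S₁.hFk N.S₂.hFk N.s₁ N.s₂ N.s₁_inj (M • N.R₁) (M • N.R₂)
    (N.smul_R₁_node M) i a b ha (by omega) (by omega)
  have h2 := finrank_V_sub_eff N E hE hM'
  have h3 := N.finrank_nodalRR_smul (N.m₀_le_of_m₁_le hM₁)
  haveI := finite_nodalRR N.S₁.hFk N.S₂.hFk N.s₁ N.s₂
    (M • N.R₁ - a • Finsupp.single (N.s₁ i) (1 : ℤ))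
    (M • N.R₂ - b • Finsupp.single (N.s₂ i) (1 : ℤ))
  have h4 := Submodule.finrank_mono hle
  have h5 : (Module.finrank k (N.toNodalCore.V (M • N.D₀ - E)) : ℤ) ≤
      (Module.finrank k (nodalRR N.s₁ N.s₂ (M • N.R₁ - a • Finsupp.single (N.s₁ i) (1 : ℤ))
        (M • N.R₂ - b • Finsupp.single (N.s₂ i) (1 : ℤ))) : ℤ) := by
    exact_mod_cast h4
  rw [N.degree_smul_R₁, N.degree_smul_R₂] at h1
  have h6 := N.deg_eq
  have h7 : (M : ℤ) * Divisor.degree N.D₀ =
      M * Divisor.degree N.R₁ + M * Divisor.degree N.R₂ := by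
    rw [← h6]; ring
  rw [N.degree_smul_R₁] at hb₁
  rw [N.degree_smul_R₂] at hb₂
  omega

end Fermat.Agent.EKp

namespace Fermat.Agent.EKp

open AlgebraicCurve Fermat.Agent.RR Fermat.Agent.Deuring Fermat.Agent.BadRed

variable {K F k Fk₁ Fk₂ : Type*} [Field K] [Field F] [Algebra K F]
  [Field k] [Field Fk₁] [Algebra k Fk₁] [Field Fk₂] [Algebra k Fk₂]
  {ι : Type*} [Fintype ι]

/-- **(L3)**, in the shape consumed by `kp_core` (helper31):
`dim V(M D₀ - E) + deg E = dim L_C(M R₁, M R₂)` for `deg E ≤ n`, `M ≥ m₁ + n`. -/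
theorem kp_finrank_V (N : NodalSeed K F k Fk₁ Fk₂ ι) {n M : ℕ} (hM : N.m₁ + n ≤ M)
    (E : Divisor K F) (hdeg : Divisor.degree E ≤ n) :
    (Module.finrank k (N.toNodalCore.V (M • N.D₀ - E)) : ℤ) + Divisor.degree E =
      Module.finrank k (nodalRR N.s₁ N.s₂ (M • N.R₁) (M • N.R₂)) := by
  have hM₁ : N.m₁ ≤ M := le_trans (Nat.le_add_right _ _) hM
  have hb := cd_big₀ N hM
  have hg₁ := Int.natCast_nonneg (genusFF k Fk₁)
  have hg₂ := Int.natCast_nonneg (genusFF k Fk₂)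
  have hs := Int.natCast_nonneg (Fintype.card ι)
  rw [← N.V_eq (N.m₀_le_of_m₁_le hM₁), N.toNodalCore.finrank_V, N.toNodalCore.finrank_V]
  have h1 := ell_of_degree_gt N.S₁.hF (D := M • N.D₀) (by omega)
  have h2 := ell_of_degree_gt N.S₁.hF (D := M • N.D₀ - E) (by rw [map_sub]; omega)
  rw [map_sub] at h2
  omega

end Fermat.Agent.EKp
end
end MergeWrap_E_Desc_Kp_CoreDim

section MergeWrap_E_Desc_Kp_Core -- from E/Desc/Kp/Core.lean

/-!
# Cluster E' (Mazur's descent), DESC-Kp: the CORE count for ANN and FIX  (helper31)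

Blueprint: `NOTES/blueprint-E-DESC-Kp.md`, section 4, ANN (1)-(4) and FIX.

`N : NodalSeed K F k Fk₁ Fk₂ ι`, `k` infinite.  For an effective divisor `E` supported on places
of type (N) at ONE node `i`:

* `kp_core` : there are `M` and `ψ ∈ 𝔏(M D₀ - E)`, a unit for both valuations, such that the
  divisor of `ψ` on the places of type (N) is `E`, or `E + P**` for one place `P**` of type (N)
  at the node `i`.

(`ANN`: `E = Z` a `Γ`-orbit;  `FIX`: `E = 12 P*`.)
-/

set_option autoImplicit false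
set_option linter.style.haveILetI false
set_option linter.unusedSectionVars false
set_option linter.unusedVariables false

noncomputable section

open AlgebraicCurve Fermat.Agent.RR Fermat.Agent.Deuring Fermat.Agent.BadRed

namespace Fermat.Agent.EKp

variable {K F k Fk₁ Fk₂ : Type*} [Field K] [Field F] [Algebra K F]
  [Field k] [Field Fk₁] [Algebra k Fk₁] [Field Fk₂] [Algebra k Fk₂] {ι : Type*} [Fintype ι]

/-! ### generalities -/

/-- over an infinite field, a subspace which is not contained in any of finitely many subspaces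
contains an element outside all of them. -/
theorem kp_exists_generic [Infinite k] {E' : Type*} [AddCommGroup E'] [Module k E']
    (V : Submodule k E') (S : Set (Submodule k E')) (hS : S.Finite) (h : ∀ W ∈ S, ¬ V ≤ W) :
    ∃ z ∈ V, ∀ W ∈ S, z ∉ W := by
  haveI : Finite ↥S := hS.to_subtype
  obtain ⟨x, hx⟩ := Submodule.exists_forall_notMem_of_forall_ne_top
    (fun W : ↥S => (W.1).comap V.subtype) (fun W htop => h W.1 W.2 (fun v hv => by
      have : (⟨v, hv⟩ : ↥V) ∈ (W.1).comap V.subtype := by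
        rw [htop]
        trivial
      exact this))
  exact ⟨x.1, x.2, fun W hW hxW => hx ⟨W, hW⟩ hxW⟩

/-- an effective divisor of degree `1` is a place. -/
theorem kp_eq_single_of_degree_eq_one {K' F' : Type*} [Field K'] [Field F'] [Algebra K' F']
    (h : IsRRField K' F') {G : Divisor K' F'} (hG : 0 ≤ G) (hdeg : Divisor.degree G = 1) :
    ∃ P, G = Finsupp.single P 1 := by
  classical
  have hG0 : G ≠ 0 := by
    rintro rfl
    rw [map_zero] at hdeg
    exact zero_ne_one hdeg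
  obtain ⟨P, hP⟩ : ∃ P, G P ≠ 0 := by
    by_contra hcon
    push Not at hcon
    exact hG0 (Finsupp.ext hcon)
  have hP1 : 1 ≤ G P := by
    have := Finsupp.le_def.mp hG P
    simp only [Finsupp.coe_zero, Pi.zero_apply] at this
    omega
  have hG' : 0 ≤ G - Finsupp.single P 1 := by
    rw [Finsupp.le_def]
    intro v
    rw [Finsupp.sub_apply, Finsupp.single_apply]
    have := Finsupp.le_def.mp hG v
    simp only [Finsupp.coe_zero, Pi.zero_apply] at this ⊢
    split_ifs with hv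
    · subst hv
      omega
    · omega
  have hd' : Divisor.degree (G - Finsupp.single P 1) = 0 := by
    rw [map_sub, degree_single_one h, hdeg, sub_self]
  have := eq_zero_of_nonneg_of_degree_eq_zero h hG' hd'
  exact ⟨P, sub_eq_zero.mp this⟩

/-! ### bookkeeping: the part of type (N) of the divisor of a function -/

/-- the part of type (N) of `div ψ`, for `ψ ∈ 𝔏(M D₀ - E)` a unit for both valuations, `E`
supported on the places of type (N): it is `E + G` with `G ≥ 0` of type (N), and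
`deg G + deg E` is the number of zeros of type (N) of `ψ`. -/
theorem kp_typeN_part [Infinite k] (N : NodalSeed K F k Fk₁ Fk₂ ι) {M : ℕ} {E : Divisor K F}
    (hEN : ∀ P, E P ≠ 0 → N.rmap P = none) {ψ : F}
    (hψ : N.toNodalCore.IsInt (M • N.D₀ - E) ψ) (hψ₁ : N.S₁.red ψ ≠ 0) :
    ∃ G : Divisor K F, 0 ≤ G ∧ (∀ P, G P ≠ 0 → N.rmap P = none) ∧
      (∀ P, N.rmap P = none → P.ord ψ = E P + G P) ∧
      Divisor.degree G + Divisor.degree E =
        Finsupp.mapDomain N.rmap (divOf N.S₁.hF ψ) none := by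
  classical
  have hψ0 : ψ ≠ 0 := N.S₁.ne_zero_of_red_ne_zero hψ₁
  set Dn : Divisor K F := (divOf N.S₁.hF ψ).filter (fun P => N.rmap P = none) with hDn
  have hDn_pos : ∀ P, N.rmap P = none → Dn P = P.ord ψ := fun P hP => by
    rw [hDn, Finsupp.filter_apply_pos (fun P => N.rmap P = none) _ hP, divOf_apply]
  have hDn_neg : ∀ P, N.rmap P ≠ none → Dn P = 0 := fun P hP => by
    rw [hDn, Finsupp.filter_apply_neg (fun P => N.rmap P = none) _ hP]
  have hord : ∀ P, N.rmap P = none → E P ≤ P.ord ψ := by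
    intro P hP
    have h1 := ((mem_riemannRochSpace_iff.mp hψ.1) P).resolve_left hψ0
    rw [Finsupp.sub_apply, Finsupp.smul_apply, D₀_apply_of_rmap_eq_none hP, smul_zero] at h1
    omega
  refine ⟨Dn - E, ?_, ?_, ?_, ?_⟩
  · rw [Finsupp.le_def]
    intro P
    rw [Finsupp.sub_apply]
    simp only [Finsupp.coe_zero, Pi.zero_apply]
    by_cases hP : N.rmap P = none
    · rw [hDn_pos P hP]
      have := hord P hP
      omega
    · rw [hDn_neg P hP]
      have hE0 : E P = 0 := by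
        by_contra h
        exact hP (hEN P h)
      omega
  · intro P hP
    by_contra hPn
    apply hP
    rw [Finsupp.sub_apply, hDn_neg P hPn]
    have hE0 : E P = 0 := by
      by_contra h
      exact hPn (hEN P h)
    omega
  · intro P hP
    rw [Finsupp.sub_apply, hDn_pos P hP]
    ring
  · rw [← map_add, sub_add_cancel, mapDomain_none_eq_sum, degree_eq_sum N.S₁.hF, hDn,
      Finsupp.support_filter]
    refine Finset.sum_congr ?_ fun P hP => ?_
    · congr
    · exact Finsupp.filter_apply_pos (fun P => N.rmap P = none) _ (Finset.mem_filter.mp hP).2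

/-! ### the count -/

/-- `B(a, b)` in the form of `CoreDim.lean`. -/
theorem kpB_eq_smul (N : NodalSeed K F k Fk₁ Fk₂ ι) (i : ι) (M a b : ℕ) :
    kpB N i M a b = nodalRR N.s₁ N.s₂ (M • N.R₁ - a • Finsupp.single (N.s₁ i) (1 : ℤ))
        (M • N.R₂ - b • Finsupp.single (N.s₂ i) (1 : ℤ)) := by
  unfold kpB
  rw [Finsupp.smul_single, Finsupp.smul_single, nsmul_eq_mul, mul_one, nsmul_eq_mul, mul_one]

open Classical in
/-- **CORE** (the common count of ANN and FIX).  `E ≥ 0` a divisor supported on places of type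
(N) at ONE node `i`.  Then there are `M` and `ψ ∈ 𝔏(M D₀ - E)`, a unit for both valuations,
whose divisor on the places of type (N) is `E`, or `E + P**` for a place `P**` of type (N) at
the node `i`. -/
theorem kp_core [Infinite k] (N : NodalSeed K F k Fk₁ Fk₂ ι) (i : ι) (E : Divisor K F)
    (hE : 0 ≤ E) (hEN : ∀ P, E P ≠ 0 → IsNodeOf N P i) :
    ∃ (M : ℕ) (ψ : F), N.toNodalCore.IsInt (M • N.D₀ - E) ψ ∧ N.S₁.red ψ ≠ 0 ∧
      N.S₂.red ψ ≠ 0 ∧
      ((∀ P, N.rmap P = none → P.ord ψ = E P) ∨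
        ∃ Pss, IsNodeOf N Pss i ∧
          ∀ P, N.rmap P = none → P.ord ψ = E P + if P = Pss then 1 else 0) := by
  obtain ⟨e, he⟩ : ∃ e : ℕ, Divisor.degree E = e :=
    ⟨(Divisor.degree E).toNat,
      (Int.toNat_of_nonneg (degree_nonneg_of_nonneg N.S₁.hF hE)).symm⟩
  rcases Nat.eq_zero_or_pos e with h0 | hpos
  · -- `E = 0`
    subst h0
    have hE0 : E = 0 := eq_zero_of_nonneg_of_degree_eq_zero N.S₁.hF hE (by rw [he]; rfl)
    subst hE0
    refine ⟨0, 1, ⟨td_one_mem ?_, one_mem _, one_mem _⟩, ?_, ?_, Or.inl fun P _ => ?_⟩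
    · rw [zero_smul, sub_zero]
    · rw [N.S₁.red_one]; exact one_ne_zero
    · rw [N.S₂.red_one]; exact one_ne_zero
    · rw [Place.ord_one]; rfl
  -- `deg E = e ≥ 1`
  set M : ℕ := (e + 1) * (N.m₁ + 1) with hM
  have hM1 : N.m₁ + (e + 1) ≤ M := by rw [hM]; nlinarith
  have hM2 : e * (N.m₁ + 1) ≤ M := by rw [hM]; nlinarith
  have hMm : N.m₁ ≤ M := by omega
  have hEne : E ≠ 0 := by
    rintro rfl
    rw [map_zero] at he
    have : (0 : ℤ) = (e : ℤ) := he
    omega
  obtain ⟨P₀, hP₀⟩ : ∃ P, E P ≠ 0 := by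
    by_contra hcon
    push Not at hcon
    exact hEne (Finsupp.ext hcon)
  have hP₀i := hEN P₀ hP₀
  have hEnn : ∀ P, 0 ≤ E P := fun P => Finsupp.le_def.mp hE P
  -- `V ≤ B(1, 1)`
  have hVle : N.toNodalCore.V (M • N.D₀ - E) ≤ kpB N i M 1 1 := by
    rw [← kp_nodalRR_sub_eq, ← hP₀i.2 M hMm]
    apply N.toNodalCore.V_mono
    rw [sub_le_sub_iff_left, Finsupp.le_def]
    intro v
    rw [Finsupp.single_apply]
    split_ifs with hv
    · subst hv
      have := hEnn P₀
      omega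
    · exact hEnn v
  -- the witness
  obtain ⟨g, hg, hg₁, hg₂, hgv⟩ := kp_exists_unit N i e E hE hEN he
  have hg' : N.toNodalCore.IsInt (M • N.D₀ - E) g := by
    refine kp_isInt_of_le N ?_ hg
    rw [sub_le_sub_iff_right]
    obtain ⟨d, hd⟩ := Nat.exists_eq_add_of_le hM2
    rw [hd, add_smul]
    exact le_add_of_nonneg_right (N.smul_D₀_nonneg d)
  have hz₀ : ((N.S₁.red g, N.S₂.red g) : Fk₁ × Fk₂) ∈ N.toNodalCore.V (M • N.D₀ - E) := by
    have := N.toNodalCore.red₂_mem_V hg'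
    rwa [N.toNodalCore.red₂_def] at this
  -- the bad family
  set S : Set (Submodule k (Fk₁ × Fk₂)) :=
    (({LinearMap.ker (LinearMap.fst k Fk₁ Fk₂), LinearMap.ker (LinearMap.snd k Fk₁ Fk₂)} :
        Set (Submodule k (Fk₁ × Fk₂))) ∪
      (fun j => kpB N j M 1 1) '' {j | j ≠ i}) ∪
      (fun a => kpB N i M a (e + 2 - a)) '' (Set.Icc 1 (e + 1)) with hS
  have hSfin : S.Finite :=
    Set.Finite.union (Set.Finite.union (Set.toFinite _) (Set.Finite.image _ (Set.toFinite _)))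
      (Set.Finite.image _ (Set.finite_Icc 1 (e + 1)))
  have hSnot : ∀ W ∈ S, ¬ N.toNodalCore.V (M • N.D₀ - E) ≤ W := by
    intro W hW hle
    rcases hW with (hW | ⟨j, hj, rfl⟩) | ⟨a, ha, rfl⟩
    · rcases hW with rfl | rfl
      · have := hle hz₀
        rw [LinearMap.mem_ker] at this
        exact hg₁ this
      · have := hle hz₀
        rw [LinearMap.mem_ker] at this
        exact hg₂ this
    · have h1 := hle hz₀
      rw [mem_kpB] at h1
      have hv : VanAt (N.s₁ j) (N.S₁.red g) := h1.2.1.imp_right fun h => by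
        push_cast at h
        omega
      have := ((valAt_zero_right_iff _ _).mpr hv).unique (hgv j hj).1
      exact zero_ne_one this
    · simp only [kpB_eq_smul] at hle
      have ha1 := ha.1
      have ha2 := ha.2
      exact V_sub_not_le N E he hM1 i ha1 ha2 (by omega) (by omega) hle
  obtain ⟨z, hzV, hzS⟩ := kp_exists_generic (N.toNodalCore.V (M • N.D₀ - E)) S hSfin hSnot
  have hz1 : z.1 ≠ 0 := fun h =>
    hzS _ (Or.inl (Or.inl (Set.mem_insert _ _))) (LinearMap.mem_ker.mpr h)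
  have hz2 : z.2 ≠ 0 := fun h =>
    hzS _ (Or.inl (Or.inl (Set.mem_insert_of_mem _ rfl))) (LinearMap.mem_ker.mpr h)
  have hzB : z ∈ kpB N i M 1 1 := hVle hzV
  have hzL : z ∈ nodalRR N.s₁ N.s₂ (M • N.R₁) (M • N.R₂) := kpB_le_nodalRR N i M 1 1 hzB
  have hzj : ∀ j, j ≠ i → ¬ ValAt (N.s₁ j) z.1 0 := by
    intro j hj hv
    apply hzS _ (Or.inl (Or.inr ⟨j, hj, rfl⟩))
    have hv1 : VanAt (N.s₁ j) z.1 := (valAt_zero_right_iff _ _).mp hv
    have hv2 : VanAt (N.s₂ j) z.2 := kp_vanAt_snd N j M hzL hv1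
    rw [mem_kpB]
    refine ⟨hzL, hv1.imp_right fun h => ?_, hv2.imp_right fun h => ?_⟩
    · push_cast
      omega
    · push_cast
      omega
  -- the lift
  obtain ⟨ψ, hψ, hψ₁, hψ₂⟩ := N.td_lift (a := z.1) (b := z.2) hzV
  have hψ₁' : N.S₁.red ψ ≠ 0 := by rw [hψ₁]; exact hz1
  have hψ₂' : N.S₂.red ψ ≠ 0 := by rw [hψ₂]; exact hz2
  obtain ⟨G, hG0, hGN, hGord, hGdeg⟩ := kp_typeN_part N (fun P hP => (hEN P hP).1) hψ hψ₁'
  have hGnn : ∀ P, 0 ≤ G P := fun P => Finsupp.le_def.mp hG0 P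
  have hpole : ∀ P, N.rmap P = none → 0 ≤ P.ord ψ := by
    intro P hP
    rw [hGord P hP]
    have h1 := hEnn P
    have h2 := hGnn P
    omega
  obtain ⟨hnode, hcount⟩ := count_node hψ₁' hψ₂' hpole i (by rw [hψ₁]; exact hzj)
  rw [hψ₁, hψ₂] at hcount
  -- the orders at the node
  have ha1 : (1 : ℤ) ≤ (N.s₁ i).ord z.1 := by
    have := ((mem_kpB N i M).mp hzB).2.1.resolve_left hz1
    push_cast at this
    exact this
  have hb1 : (1 : ℤ) ≤ (N.s₂ i).ord z.2 := by
    have := ((mem_kpB N i M).mp hzB).2.2.resolve_left hz2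
    push_cast at this
    exact this
  have hab : (N.s₁ i).ord z.1 + (N.s₂ i).ord z.2 ≤ e + 1 := by
    by_contra hcon
    push Not at hcon
    obtain ⟨a, haa⟩ : ∃ a : ℕ, (a : ℤ) = (N.s₁ i).ord z.1 :=
      ⟨((N.s₁ i).ord z.1).toNat, Int.toNat_of_nonneg (by omega)⟩
    obtain ⟨b, hbb⟩ : ∃ b : ℕ, (b : ℤ) = (N.s₂ i).ord z.2 :=
      ⟨((N.s₂ i).ord z.2).toNat, Int.toNat_of_nonneg (by omega)⟩
    have hzab : z ∈ kpB N i M a b := by
      rw [mem_kpB]
      exact ⟨hzL, Or.inr haa.le, Or.inr hbb.le⟩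
    have ha' : 1 ≤ a := by omega
    have hb' : 1 ≤ b := by omega
    have hsum : e + 2 ≤ a + b := by omega
    rcases le_total a (e + 1) with hae | hae
    · apply hzS (kpB N i M a (e + 2 - a)) (Or.inr ⟨a, ⟨ha', hae⟩, rfl⟩)
      exact kpB_anti N i M (le_refl a) (by omega) hzab
    · apply hzS (kpB N i M (e + 1) (e + 2 - (e + 1)))
        (Or.inr ⟨e + 1, ⟨by omega, le_refl _⟩, rfl⟩)
      exact kpB_anti N i M hae (by omega) hzab
  -- the degree of `G`
  have hGd : Divisor.degree G + e = (N.s₁ i).ord z.1 + (N.s₂ i).ord z.2 := by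
    rw [← hcount, ← hGdeg, he]
  have hGd0 := degree_nonneg_of_nonneg N.S₁.hF hG0
  refine ⟨M, ψ, hψ, hψ₁', hψ₂', ?_⟩
  rcases (show Divisor.degree G = 0 ∨ Divisor.degree G = 1 by omega) with hd | hd
  · left
    have hG00 := eq_zero_of_nonneg_of_degree_eq_zero N.S₁.hF hG0 hd
    intro P hP
    rw [hGord P hP, hG00, Finsupp.coe_zero, Pi.zero_apply, add_zero]
  · right
    obtain ⟨Pss, hPss⟩ := kp_eq_single_of_degree_eq_one N.S₁.hF hG0 hd
    have hPssN : N.rmap Pss = none :=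
      hGN Pss (by rw [hPss, Finsupp.single_eq_same]; exact one_ne_zero)
    have hordP : Pss.ord ψ ≠ 0 := by
      rw [hGord Pss hPssN, hPss, Finsupp.single_eq_same]
      have h1 := hEnn Pss
      omega
    refine ⟨Pss, hnode Pss hPssN hordP, fun P hP => ?_⟩
    rw [hGord P hP, hPss, Finsupp.single_apply]
    congr 1
    by_cases h : P = Pss
    · subst h
      rw [if_pos rfl]
    · rw [if_neg h, if_neg (Ne.symm h)]

end Fermat.Agent.EKp
end
end MergeWrap_E_Desc_Kp_Core
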