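import Mathlib
import Fermat.Agent.MUL.E.Desc.Kp.Core
import Fermat.Agent.MUL.E.Desc.Kp.Slope
import Fermat.Agent.MUL.E.Desc.Kp.Annulus
import Fermat.Agent.MUL.E.Desc.Kp.Ann
import Fermat.Agent.MUL.Lib.BadRed.Mod.SeedOfU
import Fermat.Agent.MUL.E.Desc.Kp.OrdToric
import Fermat.Agent.MUL.E.Desc.Kp.FTT
import Fermat.Agent.MUL.Lib.Deuring.FundIneq
import Fermat.Agent.MUL.E.Desc.Kp.ModDefs
import Fermat.Agent.MUL.E.Desc.Kp.ValI
import Fermat.Agent.MUL.Lib.FF.GalAct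
import Fermat.Agent.MUL.E.S15.CuspDiv

section MergeWrap_E_Desc_Kp_Fix -- from E/Desc/Kp/Fix.lean

/-!
# Cluster E' (Mazur's descent), DESC-Kp: FIX  (helper31)

Blueprint: `NOTES/blueprint-E-DESC-Kp.md`, section 4, FIX.

`N : NodalSeed K F k Fk₁ Fk₂ ι` with the `u`-datum (`SlopeData`, `AnnulusData`).  A place `P*` of
type (N) which is `c`-integral (`v(u(P*))^c ∈ v(ϖ)^ℤ`) is, up to ordinary places, the divisor of
a function: there is `ψ` with `ord_{P*} ψ = c` and without zeros or poles at the other places of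
type (N).

Proof: the count `kp_core` for `E = c P*` gives `ψ` with divisor `c P*` or `c P* + P**` on the
places of type (N); in the second case SLOPE gives `v(u(P*))^c v(u(P**)) ∈ v(ϖ)^ℤ`, hence
`v(u(P**)) ∈ v(ϖ)^ℤ`, which contradicts `v(ϖ) < v(u(P**)) < 1` (EVAL).
-/

set_option autoImplicit false
set_option linter.style.haveILetI false
set_option linter.unusedSectionVars false
set_option linter.unusedVariables false

noncomputable section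

open AlgebraicCurve Fermat.Agent.RR Fermat.Agent.Deuring Fermat.Agent.BadRed Fermat.Agent.FF

namespace Fermat.Agent.EKp

variable {K F k Fk₁ Fk₂ : Type*} [Field K] [Field F] [Algebra K F]
  [Field k] [Field Fk₁] [Algebra k Fk₁] [Field Fk₂] [Algebra k Fk₂] {ι : Type*} [Fintype ι]

/-- there is no power of `w < 1` strictly between `w` and `1`. -/
theorem kp_zpow_not_between {Γ₀ : Type*} [LinearOrderedCommGroupWithZero Γ₀] {w y : Γ₀}
    (hw0 : w ≠ 0) (hw : w < 1) (h1 : w < y) (h2 : y < 1) (m : ℤ) : y ≠ w ^ m := by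
  have hpos : 0 < w := zero_lt_iff.mpr hw0
  rintro rfl
  rcases le_or_gt m 0 with hm | hm
  · exact absurd h2 (not_lt.mpr (one_le_zpow_of_nonpos₀ hpos hw.le hm))
  · have h3 : w ^ m ≤ w ^ (1 : ℤ) := zpow_le_zpow_right_of_le_one₀ hpos hw.le (by omega)
    rw [zpow_one] at h3
    exact absurd h1 (not_lt.mpr h3)

/-- **FIX**, for any multiplicity `c`. -/
theorem kp_fix [IsAlgClosed K] [CharZero K] [Infinite k] (N : NodalSeed K F k Fk₁ Fk₂ ι)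
    {u : F} {ϖ : K} (hS : SlopeData N.S₁ N.S₂ u ϖ) (hA : AnnulusData N u ϖ) (c : ℕ)
    (Ps : Place K F) (hPs : N.rmap Ps = none)
    (hint : ∃ a : ℤ, N.S₁.A.valuation (valueAt N.S₁.hF Ps u ^ c) = N.S₁.A.valuation ϖ ^ a) :
    ∃ ψ : F, N.S₁.red ψ ≠ 0 ∧ N.S₂.red ψ ≠ 0 ∧ Ps.ord ψ = (c : ℤ) ∧
      ∀ P, P ≠ Ps → N.rmap P = none → P.ord ψ = 0 := by
  classical
  obtain ⟨i, hi⟩ := exists_isNodeOf hPs
  have hE : (0 : Divisor K F) ≤ Finsupp.single Ps (c : ℤ) := by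
    rw [Finsupp.le_def]
    intro v
    rw [Finsupp.single_apply]
    split_ifs <;> simp
  have hEN : ∀ P, (Finsupp.single Ps (c : ℤ) : Divisor K F) P ≠ 0 → IsNodeOf N P i := by
    intro P hP
    rw [Finsupp.single_apply] at hP
    split_ifs at hP with h
    · subst h
      exact hi
    · exact absurd rfl hP
  obtain ⟨M, ψ, hψ, hψ₁, hψ₂, hdiv⟩ := kp_core N i _ hE hEN
  refine ⟨ψ, hψ₁, hψ₂, ?_⟩
  rcases hdiv with hdiv | ⟨Pss, hPss, hdiv⟩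
  · refine ⟨?_, fun P hne hP => ?_⟩
    · rw [hdiv Ps hPs, Finsupp.single_eq_same]
    · rw [hdiv P hP, Finsupp.single_apply, if_neg (Ne.symm hne)]
  · exfalso
    obtain ⟨a, ha⟩ := hint
    have hc0 : (0 : ℤ) ≤ (c : ℤ) := Int.natCast_nonneg c
    -- SLOPE
    set T := (divOf N.S₁.hF ψ).support.filter (fun P => N.rmap P = none) with hT
    have hTmem : ∀ P, P ∈ T ↔ P.ord ψ ≠ 0 ∧ N.rmap P = none := by
      intro P
      rw [hT, Finset.mem_filter, Finsupp.mem_support_iff, divOf_apply]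
    obtain ⟨z, hz⟩ := slope_annulus hS hψ₁ hψ₂ T (fun P => annulus_filter_iff hA ψ P)
    have hx0 : ∀ P, N.rmap P = none → valueAt N.S₁.hF P u ≠ 0 := fun P hP =>
      (hA.valueAt_spec_N hP).1
    have hPssT : Pss ∈ T := by
      rw [hTmem]
      refine ⟨?_, hPss.1⟩
      rw [hdiv Pss hPss.1, if_pos rfl, Finsupp.single_apply]
      split_ifs <;> omega
    -- the product
    have hprod : ∏ P ∈ T, valueAt N.S₁.hF P u ^ (P.ord ψ) =
        valueAt N.S₁.hF Ps u ^ c * valueAt N.S₁.hF Pss u := by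
      have h1 : ∀ P ∈ T, valueAt N.S₁.hF P u ^ (P.ord ψ) =
          valueAt N.S₁.hF P u ^ ((Finsupp.single Ps (c : ℤ) : Divisor K F) P) *
            valueAt N.S₁.hF P u ^ (if P = Pss then (1 : ℤ) else 0) := by
        intro P hP
        have hPN := ((hTmem P).mp hP).2
        rw [hdiv P hPN, zpow_add₀ (hx0 P hPN)]
      rw [Finset.prod_congr rfl h1, Finset.prod_mul_distrib]
      congr 1
      · rw [Finset.prod_eq_single Ps]
        · rw [Finsupp.single_eq_same, zpow_natCast]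
        · intro P _ hne
          rw [Finsupp.single_apply, if_neg (Ne.symm hne), zpow_zero]
        · intro hPsT
          have h0 : Ps.ord ψ = 0 := by
            by_contra h
            exact hPsT ((hTmem Ps).mpr ⟨h, hPs⟩)
          rw [hdiv Ps hPs, Finsupp.single_eq_same] at h0
          have hc : (c : ℤ) = 0 := by
            split_ifs at h0 <;> omega
          rw [Finsupp.single_eq_same, hc, zpow_zero]
      · rw [Finset.prod_eq_single Pss]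
        · rw [if_pos rfl, zpow_one]
        · intro P _ hne
          rw [if_neg hne, zpow_zero]
        · intro h
          exact absurd hPssT h
    rw [hprod, map_mul, ha] at hz
    have hw0 : N.S₁.A.valuation ϖ ≠ 0 := (Valuation.ne_zero_iff _).mpr hA.varpi_ne
    have hy : N.S₁.A.valuation (valueAt N.S₁.hF Pss u) = N.S₁.A.valuation ϖ ^ (z - a) := by
      rw [zpow_sub₀ hw0, ← hz, mul_div_assoc, mul_comm, div_mul_cancel₀ _ (zpow_ne_zero a hw0)]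
    obtain ⟨-, h1, h2⟩ := hA.valueAt_spec_N hPss.1
    exact kp_zpow_not_between hw0 hS.varpi_lt h1 h2 (z - a) hy

/-- **FIX**: a `12`-integral place of type (N) is, up to ordinary places, `1/12` of the divisor
of a function. -/
theorem kp_fix_twelve [IsAlgClosed K] [CharZero K] [Infinite k] (N : NodalSeed K F k Fk₁ Fk₂ ι)
    {u : F} {ϖ : K} (hS : SlopeData N.S₁ N.S₂ u ϖ) (hA : AnnulusData N u ϖ)
    (Pss : Place K F) (hPss : N.rmap Pss = none)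
    (h12 : ∃ a : ℤ, N.S₁.A.valuation (valueAt N.S₁.hF Pss u ^ 12) = N.S₁.A.valuation ϖ ^ a) :
    ∃ ψ' : F, ψ' ≠ 0 ∧ Pss.ord ψ' = 12 ∧ ∀ P, P ≠ Pss → N.rmap P = none → P.ord ψ' = 0 := by
  obtain ⟨ψ, hψ₁, -, h1, h2⟩ := kp_fix N hS hA 12 Pss hPss h12
  exact ⟨ψ, N.S₁.ne_zero_of_red_ne_zero hψ₁, by rw [h1]; rfl, h2⟩

end Fermat.Agent.EKp
end
end MergeWrap_E_Desc_Kp_Fix

section MergeWrap_E_Desc_Kp_AnnFix -- from E/Desc/Kp/AnnFix.lean

set_option autoImplicit false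
set_option linter.unusedSectionVars false
set_option linter.style.haveILetI false

noncomputable section

namespace Fermat.Agent.EKp

open AlgebraicCurve Fermat.Agent.RR Fermat.Agent.Deuring Fermat.Agent.BadRed Fermat.Agent.FF
  IntermediateField

variable {K F k Fk₁ Fk₂ : Type*} [Field K] [Field F] [Algebra K F]
  [Field k] [Field Fk₁] [Algebra k Fk₁] [Field Fk₂] [Algebra k Fk₂] {ι : Type*}

/-- **ANN + FIX**: the input `AnnFix` of (FTT). -/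
theorem annFix [Fintype ι] [Infinite k] [IsAlgClosed K] [CharZero K]
    {N : NodalSeed K F k Fk₁ Fk₂ ι} {u : F} {ϖ : K} (h : AnnulusData N u ϖ)
    (hs : SlopeData N.S₁ N.S₂ u ϖ) (Γ : Set (SemilinearAut K F))
    (hΓ : ∀ t ∈ Γ, N.nodalSetup.IsInertial t)
    (hΓu : ∀ t ∈ Γ, t • u = u) (hVI : VIStatement N.S₁.A Γ ϖ) :
    AnnFix N.nodalSetup Γ 12 :=
  annFix_of h hs Γ hΓ hΓu hVI fun Pss hPss h12 => kp_fix_twelve N hs h Pss hPss h12

end Fermat.Agent.EKp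
end
end MergeWrap_E_Desc_Kp_AnnFix

section MergeWrap_E_Desc_Kp_OrdToricWire -- from E/Desc/Kp/OrdToricWire.lean

/-!
# DESC-Kp: `OrdToric` (the shape consumed by `ftt`) from KP-ORDT
-/

set_option autoImplicit false

noncomputable section

open AlgebraicCurve Fermat.Agent.RR Fermat.Agent.Deuring Fermat.Agent.BadRed

namespace Fermat.Agent.EKp

variable {K F k Fk₁ Fk₂ : Type*} [Field K] [Field F] [Algebra K F]
  [Field k] [Field Fk₁] [Algebra k Fk₁] [Field Fk₂] [Algebra k Fk₂] {ι : Type*} [Fintype ι]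

/-- **ORDT** in the shape of `FTT.lean`: `OrdToric N n d` for `d = ∑ ε i`, every `n`. -/
theorem ordToric_of_uData (N : NodalSetup K F k Fk₁ Fk₂ ι)
    (hg₁ : genusFF k Fk₁ = 0) (hg₂ : genusFF k Fk₂ = 0)
    {u : F} {ϖ : K} (ε : ι → ℕ) (hu0 : u ≠ 0) (hϖ : ϖ ≠ 0)
    (hu₁ : u ∈ N.S₁.Ov) (hu₁' : u⁻¹ ∈ N.S₁.Ov)
    (hw₂ : algebraMap K F ϖ * u⁻¹ ∈ N.S₂.Ov) (hw₂' : (algebraMap K F ϖ * u⁻¹)⁻¹ ∈ N.S₂.Ov)
    (hε₁ : ∀ i, (N.s₁ i).ord (N.S₁.red u) = ε i)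
    (hε₂ : ∀ i, (N.s₂ i).ord (N.S₂.red (algebraMap K F ϖ * u⁻¹)) = ε i)
    (hord : ∀ P : Place K F, N.r P = none → P.ord u = 0)
    (hR1 : ∀ c : K, c ≠ 0 → ∃ (b : ℕ) (a : ℤ), 0 < b ∧
      N.S₁.A.valuation (c ^ b) = N.S₁.A.valuation (ϖ ^ a))
    (n : ℕ) : OrdToric N n (∑ i, ε i) := by
  intro D' _ hD' hprin
  obtain ⟨g, hg, hgD⟩ := hprin
  refine isW0Div_of_ordinary N hg₁ hg₂ ε hu0 hϖ hu₁ hu₁' hw₂ hw₂' hε₁ hε₂ hord hR1 hD' hg
    (fun P => ?_)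
  rw [← hgD P, Finsupp.smul_apply, nsmul_eq_mul]

end Fermat.Agent.EKp
end
end MergeWrap_E_Desc_Kp_OrdToricWire

section MergeWrap_E_Desc_Kp_SeedData -- from E/Desc/Kp/SeedData.lean

set_option autoImplicit false
set_option linter.unusedSectionVars false
set_option linter.style.haveILetI false

noncomputable section

namespace Fermat.Agent.EKp

open AlgebraicCurve Fermat.Agent.RR Fermat.Agent.Deuring Fermat.Agent.BadRed Fermat.Agent.FF
  IntermediateField Fermat.Agent.BadRed.SeedPoles Fermat.Agent.BadRed.SeedNode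

variable {K F k Fk₁ Fk₂ : Type*} [Field K] [Field F] [Algebra K F]
  [Field k] [Field Fk₁] [Algebra k Fk₁] [Field Fk₂] [Algebra k Fk₂] {ι : Type*}

/-- `(ϖ / u)_∞ = (u⁻¹)_∞`. -/
theorem sd_poleDiv_div (h : IsRRField K F) {ϖ : K} (hϖ0 : ϖ ≠ 0) (u : F) :
    poleDiv h (algebraMap K F ϖ / u) = poleDiv h u⁻¹ := by
  ext v
  refine poleDiv_eq_of_adicValuation_eq h v ?_
  rw [adicValuation_div_const v hϖ0 u, map_inv₀]

/-- `deg (ϖ / u)_∞ = [F : K(u)]`. -/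
theorem sd_degree_poleDiv_div (h : IsRRField K F) {ϖ : K} (hϖ0 : ϖ ≠ 0) {u : F}
    (hu : Transcendental K u) [FiniteDimensional K⟮u⟯ F] :
    Divisor.degree (poleDiv h (algebraMap K F ϖ / u)) = (Module.finrank K⟮u⟯ F : ℤ) := by
  rw [sd_poleDiv_div h hϖ0 u, degree_poleDiv_inv,
    Fermat.Agent.RRHur.degree_poleDiv_eq_finrank h hu]

/-- a nonzero element of the maximal ideal of `A` has valuation `< 1`. -/
theorem sd_val_lt_one {Fk : Type*} [Field Fk] [Algebra k Fk] (S : ValSetup K F k Fk) {ϖ : K}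
    (hϖ0 : ϖ ≠ 0) (hϖ : ϖ ∈ S.A) (hϖres : S.res ⟨ϖ, hϖ⟩ = 0) : S.A.valuation ϖ < 1 :=
  (an_val_lt_one_iff S.A hϖ0).mpr ⟨hϖ, inv_notMem_of_res_eq_zero S hϖ0 hϖ hϖres⟩

/-- **the `u`-data of SLOPE** from the hypotheses of `seedOfU`. -/
theorem slopeData_of (C : NodalCore K F k Fk₁ Fk₂ ι) {u : F} {ϖ : K}
    (hϖ0 : ϖ ≠ 0) (hϖ : ϖ ∈ C.S₁.A) (hϖres : C.S₁.res ⟨ϖ, hϖ⟩ = 0)
    (hu₁ : u ∈ C.S₁.Ov) (hubar₁ : Transcendental k (C.S₁.red u))
    (hu₂ : algebraMap K F ϖ / u ∈ C.S₂.Ov)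
    (hubar₂ : Transcendental k (C.S₂.red (algebraMap K F ϖ / u)))
    [FiniteDimensional K⟮u⟯ F] [FiniteDimensional k⟮C.S₁.red u⟯ Fk₁]
    [FiniteDimensional k⟮C.S₂.red (algebraMap K F ϖ / u)⟯ Fk₂]
    (hdeg₁ : Module.finrank K⟮u⟯ F ≤ Module.finrank k⟮C.S₁.red u⟯ Fk₁)
    (hdeg₂ : Module.finrank K⟮u⟯ F ≤ Module.finrank k⟮C.S₂.red (algebraMap K F ϖ / u)⟯ Fk₂) :
    SlopeData C.S₁ C.S₂ u ϖ := by
  have htr : Transcendental K u := SeedNode.sn_transcendental_of_red C.S₁ hu₁ hubar₁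
  refine ⟨C.A_eq, hϖ0, sd_val_lt_one C.S₁ hϖ0 hϖ hϖres, hu₁, hubar₁, hu₂, hubar₂,
    le_antisymm hdeg₁ ?_, le_antisymm hdeg₂ ?_⟩
  · have h1 := degree_poleDiv_red_le C.S₁ hu₁ hubar₁
    rw [Fermat.Agent.RRHur.degree_poleDiv_eq_finrank C.S₁.hFk hubar₁,
      Fermat.Agent.RRHur.degree_poleDiv_eq_finrank C.S₁.hF htr] at h1
    exact_mod_cast h1
  · have h1 := degree_poleDiv_red_le C.S₂ hu₂ hubar₂
    rw [Fermat.Agent.RRHur.degree_poleDiv_eq_finrank C.S₂.hFk hubar₂,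
      sd_degree_poleDiv_div C.S₂.hF hϖ0 htr] at h1
    exact_mod_cast h1

/-- a function vanishing at `Q` has the value `0` at `Q`. -/
theorem sd_valAt_zero {Fk : Type*} [Field Fk] [Algebra k Fk] {Q : Place k Fk} {f : Fk}
    (h : 0 < Q.ord f) : ValAt Q f 0 := by
  right
  rw [map_zero, sub_zero]
  exact h

/-- **the `u`-data of ANNULUS** for a seed with `D₀ = (u + ϖ / u)_∞`. -/
theorem annulusData_of [Fintype ι] [Infinite k] (N : NodalSeed K F k Fk₁ Fk₂ ι) {u : F} {ϖ : K}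
    (hϖ0 : ϖ ≠ 0) (hϖ : ϖ ∈ N.S₁.A)
    (hu₁ : u ∈ N.S₁.Ov) (hubar₁ : Transcendental k (N.S₁.red u))
    (hu₂ : algebraMap K F ϖ / u ∈ N.S₂.Ov)
    (hubar₂ : Transcendental k (N.S₂.red (algebraMap K F ϖ / u)))
    [FiniteDimensional K⟮u⟯ F] [FiniteDimensional k⟮N.S₁.red u⟯ Fk₁]
    [FiniteDimensional k⟮N.S₂.red (algebraMap K F ϖ / u)⟯ Fk₂]
    (hdeg₁ : Module.finrank K⟮u⟯ F ≤ Module.finrank k⟮N.S₁.red u⟯ Fk₁)
    (hdeg₂ : Module.finrank K⟮u⟯ F ≤ Module.finrank k⟮N.S₂.red (algebraMap K F ϖ / u)⟯ Fk₂)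
    (hs₁ : ∀ i, 0 < (N.s₁ i).ord (N.S₁.red u))
    (hs₂ : ∀ i, 0 < (N.s₂ i).ord (N.S₂.red (algebraMap K F ϖ / u)))
    (hz₁ : ∀ Q : Place k Fk₁, 0 < Q.ord (N.S₁.red u) → ∃ i, Q = N.s₁ i)
    (hz₂ : ∀ Q : Place k Fk₂, 0 < Q.ord (N.S₂.red (algebraMap K F ϖ / u)) → ∃ i, Q = N.s₂ i)
    (hD₀ : N.D₀ = poleDiv N.S₁.hF (u + algebraMap K F ϖ / u)) :
    AnnulusData N u ϖ := by
  have htr : Transcendental K u := SeedNode.sn_transcendental_of_red N.S₁ hu₁ hubar₁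
  have hu0 : u ≠ 0 := fun h0 => htr (h0 ▸ isAlgebraic_zero)
  refine
    { varpi_ne := hϖ0
      varpi_mem := hϖ
      red₁_ne := fun h0 => hubar₁ (h0 ▸ isAlgebraic_zero)
      red₂_ne := fun h0 => hubar₂ (h0 ▸ isAlgebraic_zero)
      ord_N := ?_
      node₁ := fun i => sd_valAt_zero (hs₁ i)
      node₂ := fun i => sd_valAt_zero (hs₂ i)
      zero₁ := ?_
      zero₂ := ?_
      deg₁ := ?_
      deg₂ := ?_ }
  · intro P hP
    have h0 := D₀_apply_of_rmap_eq_none (N := N) hP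
    rw [hD₀, poleDiv_add_div N.S₁.hF hu0 hϖ0, Finsupp.add_apply, poleDiv_apply, poleDiv_apply,
      P.ord_inv] at h0
    rcases max_cases (-(P.ord u)) 0 with ⟨h1, _⟩ | ⟨h1, _⟩ <;>
      rcases max_cases (- -(P.ord u)) 0 with ⟨h2, _⟩ | ⟨h2, _⟩ <;> omega
  · intro Q hQ
    by_contra hlt
    obtain ⟨i, hi⟩ := hz₁ Q (not_le.mp hlt)
    exact hQ i hi
  · intro Q hQ
    by_contra hlt
    obtain ⟨i, hi⟩ := hz₂ Q (not_le.mp hlt)
    exact hQ i hi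
  · rw [Fermat.Agent.RRHur.degree_poleDiv_eq_finrank N.S₁.hFk hubar₁,
      Fermat.Agent.RRHur.degree_poleDiv_eq_finrank N.S₁.hF htr]
    exact_mod_cast hdeg₁
  · rw [Fermat.Agent.RRHur.degree_poleDiv_eq_finrank N.S₂.hFk hubar₂,
      sd_degree_poleDiv_div N.S₁.hF hϖ0 htr]
    exact_mod_cast hdeg₂

section SeedOfU

variable [Fintype ι] [Infinite k] (C : NodalCore K F k Fk₁ Fk₂ ι)
    (u : F) (ϖ : K) (hϖ0 : ϖ ≠ 0) (hϖ : ϖ ∈ C.S₁.A) (hϖres : C.S₁.res ⟨ϖ, hϖ⟩ = 0)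
    (hu₁ : u ∈ C.S₁.Ov) (hubar₁ : Transcendental k (C.S₁.red u))
    (hu₂ : algebraMap K F ϖ / u ∈ C.S₂.Ov)
    (hubar₂ : Transcendental k (C.S₂.red (algebraMap K F ϖ / u)))
    [FiniteDimensional K⟮u⟯ F] [FiniteDimensional k⟮C.S₁.red u⟯ Fk₁]
    [FiniteDimensional k⟮C.S₂.red (algebraMap K F ϖ / u)⟯ Fk₂]
    (hdeg₁ : Module.finrank K⟮u⟯ F ≤ Module.finrank k⟮C.S₁.red u⟯ Fk₁)
    (hdeg₂ : Module.finrank K⟮u⟯ F ≤ Module.finrank k⟮C.S₂.red (algebraMap K F ϖ / u)⟯ Fk₂)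
    (hs₁ : ∀ i, 0 < (C.s₁ i).ord (C.S₁.red u))
    (hs₂ : ∀ i, 0 < (C.s₂ i).ord (C.S₂.red (algebraMap K F ϖ / u)))
    (hz₁ : ∀ Q : Place k Fk₁, 0 < Q.ord (C.S₁.red u) → ∃ i, Q = C.s₁ i)
    (hz₂ : ∀ Q : Place k Fk₂, 0 < Q.ord (C.S₂.red (algebraMap K F ϖ / u)) → ∃ i, Q = C.s₂ i)
    (hsep : ∀ i j, i ≠ j → ∃ (g : F) (c : ι → k), NodeVal C.S₁ C.S₂ u C.s₁ C.s₂ g c ∧ c i ≠ c j)
    (hgenus : genusFF K F + 1 ≤ genusFF k Fk₁ + genusFF k Fk₂ + Fintype.card ι)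

/-- `SlopeData` for the seed `seedOfU`. -/
theorem slopeData_seedOfU :
    SlopeData
      (seedOfU C u ϖ hϖ0 hϖ hϖres hu₁ hubar₁ hu₂ hubar₂ hdeg₁ hdeg₂ hs₁ hs₂ hz₁ hz₂ hsep
        hgenus).S₁
      (seedOfU C u ϖ hϖ0 hϖ hϖres hu₁ hubar₁ hu₂ hubar₂ hdeg₁ hdeg₂ hs₁ hs₂ hz₁ hz₂ hsep
        hgenus).S₂ u ϖ :=
  slopeData_of C hϖ0 hϖ hϖres hu₁ hubar₁ hu₂ hubar₂ hdeg₁ hdeg₂

/-- `AnnulusData` for the seed `seedOfU`. -/
theorem annulusData_seedOfU :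
    AnnulusData
      (seedOfU C u ϖ hϖ0 hϖ hϖres hu₁ hubar₁ hu₂ hubar₂ hdeg₁ hdeg₂ hs₁ hs₂ hz₁ hz₂ hsep
        hgenus) u ϖ :=
  haveI i1 : FiniteDimensional
      k⟮(seedOfU C u ϖ hϖ0 hϖ hϖres hu₁ hubar₁ hu₂ hubar₂ hdeg₁ hdeg₂ hs₁ hs₂ hz₁ hz₂ hsep
        hgenus).S₁.red u⟯ Fk₁ := ‹FiniteDimensional k⟮C.S₁.red u⟯ Fk₁›
  haveI i2 : FiniteDimensional
      k⟮(seedOfU C u ϖ hϖ0 hϖ hϖres hu₁ hubar₁ hu₂ hubar₂ hdeg₁ hdeg₂ hs₁ hs₂ hz₁ hz₂ hsep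
        hgenus).S₂.red (algebraMap K F ϖ / u)⟯ Fk₂ :=
    ‹FiniteDimensional k⟮C.S₂.red (algebraMap K F ϖ / u)⟯ Fk₂›
  annulusData_of
    (seedOfU C u ϖ hϖ0 hϖ hϖres hu₁ hubar₁ hu₂ hubar₂ hdeg₁ hdeg₂ hs₁ hs₂ hz₁ hz₂ hsep hgenus)
    hϖ0 hϖ hu₁ hubar₁ hu₂ hubar₂ hdeg₁ hdeg₂ hs₁ hs₂ hz₁ hz₂ rfl

/-- **ANN + FIX for `seedOfU`**: the input `AnnFix` of (FTT), from (VI) alone. -/
theorem annFix_seedOfU [IsAlgClosed K] [CharZero K] (Γ : Set (SemilinearAut K F))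
    (hΓ : ∀ t ∈ Γ, (seedOfU C u ϖ hϖ0 hϖ hϖres hu₁ hubar₁ hu₂ hubar₂ hdeg₁ hdeg₂ hs₁ hs₂ hz₁ hz₂
      hsep hgenus).nodalSetup.IsInertial t)
    (hΓu : ∀ t ∈ Γ, t • u = u) (hVI : VIStatement C.S₁.A Γ ϖ) :
    AnnFix (seedOfU C u ϖ hϖ0 hϖ hϖres hu₁ hubar₁ hu₂ hubar₂ hdeg₁ hdeg₂ hs₁ hs₂ hz₁ hz₂ hsep
      hgenus).nodalSetup Γ 12 :=
  annFix
    (annulusData_seedOfU C u ϖ hϖ0 hϖ hϖres hu₁ hubar₁ hu₂ hubar₂ hdeg₁ hdeg₂ hs₁ hs₂ hz₁ hz₂
      hsep hgenus)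
    (slopeData_seedOfU C u ϖ hϖ0 hϖ hϖres hu₁ hubar₁ hu₂ hubar₂ hdeg₁ hdeg₂ hs₁ hs₂ hz₁ hz₂
      hsep hgenus) Γ hΓ hΓu hVI

end SeedOfU

end Fermat.Agent.EKp
end
end MergeWrap_E_Desc_Kp_SeedData

section MergeWrap_E_Desc_Kp_ModU -- from E/Desc/Kp/ModU.lean

set_option autoImplicit false
set_option linter.style.haveILetI false
set_option linter.unusedSectionVars false
set_option synthInstance.maxHeartbeats 400000

noncomputable section

namespace Fermat.Agent.EKp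

open IntermediateField ModularCurve AlgebraicCurve Fermat.Agent.F3 Fermat.Agent.F3G
  Fermat.Agent.GaussInt Fermat.Agent.AtkinLehner Fermat.Agent.Deuring Fermat.Agent.RR
  Fermat.Agent.BadRed

local notation "Qb" => AlgebraicClosure ℚ
local notation "GQb" => (AlgebraicClosure ℚ ≃ₐ[ℚ] AlgebraicClosure ℚ)

attribute [local instance] Fermat.Agent.BadRed.fwFintype

/-- (R1) transported along an equality of valuation rings. -/
theorem kp_mod_R1 (p : ℕ) (hp : p.Prime) (A : ValuationSubring Qb) (hA : A.LiesOverPrime p)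
    (B : ValuationSubring Qb) (hB : B = A) (c : Qb) (hc : c ≠ 0) :
    ∃ (b : ℕ) (a : ℤ), 0 < b ∧ B.valuation (c ^ b) = B.valuation (((p : Qb) ^ 12) ^ a) := by
  subst hB
  exact rankOne_form p hp B hA 12 (by norm_num) c hc

variable (D : ALData) [NeZero D.Q] [NeZero D.R] [NeZero (D.Q * D.R)]
  (A : ValuationSubring Qb) (hq : D.Q.Prime) (hA : A.LiesOverPrime D.Q) (hqR : ¬ D.Q ∣ D.R)
  [Fact D.Q.Prime] [CharP (IsLocalRing.ResidueField A) D.Q]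
  [PerfectRing (IsLocalRing.ResidueField A) D.Q]

/-- the places of type (N) are neither zeros nor poles of `u`. -/
theorem kp_mod_ord_N (haux : AuxLevelOK D.Q D.R) (P : Place Qb (modularFunctionFieldBar (D.Q * D.R)))
    (hP : (kpN D A hq hA hqR haux).r P = none) : P.ord (fwU D) = 0 := by
  haveI := infinite_residue A
  haveI : FiniteDimensional Qb⟮fwU D⟯ (modularFunctionFieldBar (D.Q * D.R)) :=
    finiteDimensional_uF hq (Dvd.intro _ rfl)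
  haveI : FiniteDimensional (IsLocalRing.ResidueField A)⟮(kpS D A hq hA hqR).red (fwU D)⟯
      (modularFunctionFieldFullC (IsLocalRing.ResidueField A) D.R) :=
    fw_finiteDimensional_red D A hq hA _ (isGaussSetup_gaussSetupBad D hq hqR A hA)
  haveI : FiniteDimensional (IsLocalRing.ResidueField A)⟮(valSetupZero D (kpS D A hq hA hqR)).red
        (algebraMap Qb (modularFunctionFieldBar (D.Q * D.R)) (fwPi D) / fwU D)⟯
      (modularFunctionFieldFullC (IsLocalRing.ResidueField A) D.R) := by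
    rw [fw_red_pi_div]
    exact fw_finiteDimensional_red D A hq hA _ (isGaussSetup_gaussSetupBad D hq hqR A hA)
  have h : AnnulusData
      (fwSeed D A hq hA hqR (kpS D A hq hA hqR) (isGaussSetup_gaussSetupBad D hq hqR A hA)
        (hasLattice_gaussSetupBad D hq hqR A hA) haux
        (fw_sep D A hq hA hqR _ (isGaussSetup_gaussSetupBad D hq hqR A hA) haux))
      (fwU D) (fwPi D) := by
    unfold fwSeed
    exact annulusData_seedOfU _ _ _ _ _ _ _ _ _ _ _ _ _ _ _ _ _ _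
  exact h.ord_N P hP

/-- **MOD-u.** -/
theorem kp_modU (haux : AuxLevelOK D.Q D.R) (hg : ModG D A) : ModU D A hq hA hqR haux := by
  intro n
  have hS := isGaussSetup_gaussSetupBad D hq hqR A hA
  have htr := fw_transcendental_red D A hq hA (kpS D A hq hA hqR) hS
  have hne : (kpS D A hq hA hqR).red (fwU D) ≠ 0 := fun h0 => htr (h0 ▸ isAlgebraic_zero)
  have hu0 : fwU D ≠ 0 := (kpS D A hq hA hqR).ne_zero_of_red_ne_zero hne
  have hu₁ := fw_uF_mem D A (kpS D A hq hA hqR) hS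
  have hu₁' := (kpS D A hq hA hqR).inv_mem_of_red_ne_zero hne
  have hmul : algebraMap Qb (modularFunctionFieldBar (D.Q * D.R)) (fwPi D) * (fwU D)⁻¹ =
      algebraMap Qb (modularFunctionFieldBar (D.Q * D.R)) (fwPi D) / fwU D :=
    (div_eq_mul_inv _ _).symm
  have hred₂ : (valSetupZero D (kpS D A hq hA hqR)).red
      (algebraMap Qb (modularFunctionFieldBar (D.Q * D.R)) (fwPi D) * (fwU D)⁻¹) =
      (kpS D A hq hA hqR).red (fwU D) := by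
    rw [hmul]
    exact fw_red_pi_div D A (kpS D A hq hA hqR)
  have hw₂ : algebraMap Qb (modularFunctionFieldBar (D.Q * D.R)) (fwPi D) * (fwU D)⁻¹ ∈
      (valSetupZero D (kpS D A hq hA hqR)).Ov := by
    rw [hmul]
    exact fw_pi_div_mem D A (kpS D A hq hA hqR) hS
  have hw₂' : (algebraMap Qb (modularFunctionFieldBar (D.Q * D.R)) (fwPi D) * (fwU D)⁻¹)⁻¹ ∈
      (valSetupZero D (kpS D A hq hA hqR)).Ov :=
    (valSetupZero D (kpS D A hq hA hqR)).inv_mem_of_red_ne_zero (by rw [hred₂]; exact hne)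
  refine ordToric_of_uData (kpN D A hq hA hqR haux) hg hg (kpEps D A hq hA hqR) hu0
    (fw_pi_ne_zero D hq) hu₁ hu₁' hw₂ hw₂' (fun i => (kpEps_cast D A hq hA hqR i).symm)
    (fun i => ?_) (kp_mod_ord_N D A hq hA hqR haux)
    (fun c hc => kp_mod_R1 D.Q hq A hA _ hS.A_eq c hc) n
  show ((frobAut (IsLocalRing.ResidueField A) D.R D.Q)⁻¹ • i.1).ord
    ((valSetupZero D (kpS D A hq hA hqR)).red
      (algebraMap Qb (modularFunctionFieldBar (D.Q * D.R)) (fwPi D) * (fwU D)⁻¹)) = _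
  rw [hred₂, ord_frobAut_inv_smul_of_coe_ssFun _ _ _ D.Q
    (fw_coe_red_uF D A hq hA (kpS D A hq hA hqR) hS)]
  exact (kpEps_cast D A hq hA hqR i).symm

/-- inertia fixes the cusp `∞`. -/
theorem kpΓ_fix_oo :
    ∀ t ∈ kpΓ D A, t • Fermat.Agent.S17.Setup.cuspPlace (D.Q * D.R) =
      Fermat.Agent.S17.Setup.cuspPlace (D.Q * D.R) := by
  rintro _ ⟨τ, -, rfl⟩
  exact Fermat.Agent.FFGal.galQ_smul_cuspPlace (D.Q * D.R) τ

/-- **(FTT) for `J₀(q R)`** at the place `A | q`. -/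
theorem kp_mod_ftt (haux : AuxLevelOK D.Q D.R) (hg : ModG D A)
    (hAF : AnnFix (kpN D A hq hA hqR haux) (kpΓ D A) 12) (n : ℕ) (x : JZero (D.Q * D.R))
    (hx : n • x = 0) (hfix : ∀ σ ∈ A.inertiaSubgroupIn ℚ, σ • x = x) :
    (12 * kpD D A hq hA hqR) • x ∈ (kpN D A hq hA hqR haux).W0 n := by
  refine ftt (kpS D A hq hA hqR).hF (kpN D A hq hA hqR haux)
    (Fermat.Agent.S17.Setup.cuspPlace (D.Q * D.R)) (kpΓ D A) (kpΓ_fix_oo D A)
    (kpΓ_isInertial D A hq hA hqR haux) hAF (kp_modU D A hq hA hqR haux hg n) x hx ?_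
  rintro _ ⟨τ, hτ, rfl⟩
  exact hfix τ hτ

end Fermat.Agent.EKp
end
end MergeWrap_E_Desc_Kp_ModU
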