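import Mathlib
import Fermat.Agent.MUL.Lib.BadRed.Nodal.Setup
import Fermat.Agent.MUL.Lib.BadRed.Nodal.ToricKeyDef
import Fermat.Agent.MUL.Lib.TameInertia.Main
import Fermat.Agent.MUL.Orig.E.Desc.Kp.Defs
import Fermat.Agent.MUL.S17.Pts.Orbit
import Fermat.Agent.MUL.Lib.Div.Inst
import Fermat.Agent.MUL.F3.TorsFin.Final
import Fermat.Agent.MUL.Orig.Lib.FF.PlacesQbar
import Fermat.Agent.MUL.Orig.Lib.KFin.Inertia
import Fermat.Agent.MUL.F3.I2.Deg.Canon
import Fermat.Agent.MUL.F3.EigenPadic.Theta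
import Fermat.Agent.MUL.S20
import Fermat.Agent.MUL.Orig.S23.FiniteDim
import Fermat.Agent.MUL.Lib.GenusEq.GenusFM
import Fermat.Agent.MUL.Orig.E.Desc.Kp.Rep
import Fermat.Agent.MUL.S17.H.Setup.Cusp
import Fermat.Agent.MUL.Lib.RR.OfModularBar
import Fermat.Agent.MUL.Lib.BadRed.Nodal.Gluing.Inertia
import Fermat.Agent.MUL.Lib.BadRed.Nodal.Gluing.Main
import Fermat.Agent.MUL.Lib.BadRed.Nodal.Deuring2.Main
import Fermat.Agent.MUL.E.Desc.Kp.ModDefs
import Fermat.Agent.MUL.S36.G.NormValues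

section MergeWrap_E_Desc_Kp_Asm -- from E/Desc/Kp/Asm.lean

set_option autoImplicit false

namespace Fermat.Agent.EKp

variable {G J : Type*} [Group G] [AddCommGroup J] [DistribMulAction G J]

/-- the `n`-torsion subgroup. -/
def torsN (J : Type*) [AddCommGroup J] (n : ℕ) : AddSubgroup J where
  carrier := {x | n • x = 0}
  zero_mem' := smul_zero n
  add_mem' := fun {a b} ha hb => by
    simp only [Set.mem_ofPred_eq] at ha hb ⊢
    rw [smul_add, ha, hb, add_zero]
  neg_mem' := fun {a} ha => by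
    simp only [Set.mem_ofPred_eq] at ha ⊢
    rw [smul_neg, ha, neg_zero]

theorem mem_torsN {n : ℕ} {x : J} : x ∈ torsN J n ↔ n • x = 0 := Iff.rfl

theorem asm_smul_sub (σ : G) (x y : J) : σ • (x - y) = σ • x - σ • y :=
  map_sub (DistribSMul.toAddMonoidHom J σ) x y

theorem asm_smul_nsmul (σ : G) (m : ℕ) (x : J) : σ • (m • x) = m • (σ • x) :=
  map_nsmul (DistribSMul.toAddMonoidHom J σ) m x

theorem asm_pow_smul_fixed {τ : G} {x : J} (h : τ • x = x) (k : ℕ) : τ ^ k • x = x := by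
  induction k with
  | zero => simp
  | succ k ih => rw [pow_succ, mul_smul, h, ih]

/-- a subgroup of index at most `C` contains `C ! • x`. -/
theorem asm_factorial_nsmul_mem {A : Type*} [AddCommGroup A] (B : AddSubgroup A) {C : ℕ}
    (hidx : B.index ≠ 0) (hC : B.index ≤ C) (x : A) : C.factorial • x ∈ B := by
  have h1 : B.index • x ∈ B := by
    have h2 : (B.index : ℕ) • (QuotientAddGroup.mk x : A ⧸ B) = 0 := by
      have : B.FiniteIndex := ⟨hidx⟩
      have hfin : Finite (A ⧸ B) := AddSubgroup.finite_quotient_of_finiteIndex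
      have := card_nsmul_eq_zero' (G := A ⧸ B) (x := (QuotientAddGroup.mk x : A ⧸ B))
      rwa [← AddSubgroup.index_eq_card] at this
    rw [← QuotientAddGroup.mk_nsmul, QuotientAddGroup.eq_zero_iff] at h2
    exact h2
  obtain ⟨d, hd⟩ := Nat.dvd_factorial (Nat.pos_of_ne_zero hidx) hC
  rw [hd, mul_comm, mul_smul]
  exact B.nsmul_mem h1 d

/-- the cardinality of the source of a homomorphism of finite groups is at most
`#(kernel) * #(target)`. -/
theorem asm_card_le_ker_mul {A B : Type*} [AddCommGroup A] [AddCommGroup B] [Finite A] [Finite B]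
    (φ : A →+ B) : Nat.card A ≤ Nat.card φ.ker * Nat.card B := by
  have h1 : Nat.card A = Nat.card (A ⧸ φ.ker) * Nat.card φ.ker :=
    AddSubgroup.card_eq_card_quotient_mul_card_addSubgroup φ.ker
  have h2 : Nat.card (A ⧸ φ.ker) = Nat.card φ.range :=
    Nat.card_congr (QuotientAddGroup.quotientKerEquivRange φ).toEquiv
  have h3 : Nat.card φ.range ≤ Nat.card B :=
    Nat.card_le_card_of_injective (fun x : φ.range => (x : B)) Subtype.val_injective
  rw [h1, h2, mul_comm]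
  exact Nat.mul_le_mul_left _ h3

/-- **KP-ASM** (blueprint section 3). -/
theorem kp_abstract (I : Subgroup G) {n m₀ g : ℕ} (hn : 0 < n)
    [hfinV : Finite (torsN J n)] [hfin₀ : Finite (torsN J m₀)]
    (T : AddSubgroup J) (hTn : T ≤ torsN J n)
    (hE1 : ∀ σ ∈ I, ∀ w ∈ torsN J n, σ • w - w ∈ T)
    (hFTT : ∀ x ∈ torsN J n, (∀ σ ∈ I, σ • x = x) → m₀ • x ∈ T)
    (hTB : Nat.card T ≤ n ^ g) (hLB : n ^ (2 * g) ≤ Nat.card (torsN J n))
    (R₀ : J) (τ₀ : G) (hτ₀ : τ₀ ∈ I) (hR₀ : τ₀ • R₀ - R₀ ∈ T)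
    (hgen : ∀ σ ∈ I, ∃ k : ℕ, (∀ w ∈ torsN J n, σ • w = τ₀ ^ k • w) ∧ σ • R₀ = τ₀ ^ k • R₀) :
    ∃ w ∈ torsN J n, ∀ σ ∈ I,
      σ • ((Nat.card (torsN J m₀)).factorial • R₀ - w)
        = (Nat.card (torsN J m₀)).factorial • R₀ - w := by
  classical
  set C₀ := Nat.card (torsN J m₀) with hC₀
  have hfinT : Finite T := Finite.of_injective (fun x : T => (⟨x.1, hTn x.2⟩ : torsN J n))
    (fun a b h => Subtype.ext (congrArg (fun z : torsN J n => (z : J)) h))
  -- `f = τ₀ - 1 : V → T`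
  let f : torsN J n →+ T :=
    { toFun := fun w => ⟨τ₀ • (w : J) - w, hE1 τ₀ hτ₀ w w.2⟩
      map_zero' := by
        apply Subtype.ext
        simp
      map_add' := fun a b => by
        apply Subtype.ext
        simp only [AddSubgroup.coe_add, smul_add]
        abel }
  have hf : ∀ w : torsN J n, ((f w : T) : J) = τ₀ • (w : J) - w := fun _ => rfl
  -- the kernel of `f` is fixed by `I`
  have hker : ∀ w : torsN J n, w ∈ f.ker → ∀ σ ∈ I, σ • (w : J) = w := by
    intro w hw σ hσ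
    have h1 : τ₀ • (w : J) = w := by
      have := congrArg (fun z : T => (z : J)) ((AddMonoidHom.mem_ker).mp hw)
      simp only [hf, AddSubgroup.coe_zero] at this
      exact sub_eq_zero.mp this
    obtain ⟨k, hk, -⟩ := hgen σ hσ
    rw [hk w w.2, asm_pow_smul_fixed h1]
  -- `m₀ : ker f → T`
  let h : f.ker →+ T :=
    { toFun := fun w => ⟨m₀ • ((w : torsN J n) : J), hFTT _ (w : torsN J n).2 (hker w w.2)⟩
      map_zero' := by
        apply Subtype.ext
        simp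
      map_add' := fun a b => by
        apply Subtype.ext
        simp [smul_add] }
  have hkerh : Nat.card h.ker ≤ C₀ := by
    refine Nat.card_le_card_of_injective
      (fun w : h.ker => (⟨(((w : f.ker) : torsN J n) : J), ?_⟩ : torsN J m₀)) ?_
    · have := congrArg (fun z : T => (z : J)) ((AddMonoidHom.mem_ker).mp w.2)
      exact mem_torsN.mpr (by simpa [h] using this)
    · intro a b hab
      have := congrArg (fun z : torsN J m₀ => (z : J)) hab
      exact Subtype.ext (Subtype.ext (Subtype.ext this))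
  have h1 : Nat.card f.ker ≤ C₀ * Nat.card T :=
    (asm_card_le_ker_mul h).trans (Nat.mul_le_mul_right _ hkerh)
  have h2 : Nat.card (torsN J n) = Nat.card (torsN J n ⧸ f.ker) * Nat.card f.ker :=
    AddSubgroup.card_eq_card_quotient_mul_card_addSubgroup f.ker
  have h3 : Nat.card (torsN J n ⧸ f.ker) = Nat.card f.range :=
    Nat.card_congr (QuotientAddGroup.quotientKerEquivRange f).toEquiv
  have hTpos : 0 < Nat.card T := Nat.card_pos
  have hBpos : 0 < Nat.card f.range := Nat.card_pos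
  have hng : 0 < n ^ g := pow_pos hn g
  -- `n ^ g ≤ C₀ * #B`
  have h4 : n ^ g * n ^ g ≤ n ^ g * (C₀ * Nat.card f.range) := by
    calc n ^ g * n ^ g = n ^ (2 * g) := by rw [two_mul, pow_add]
      _ ≤ Nat.card (torsN J n) := hLB
      _ = Nat.card f.range * Nat.card f.ker := by rw [h2, h3]
      _ ≤ Nat.card f.range * (C₀ * Nat.card T) := Nat.mul_le_mul_left _ h1
      _ ≤ Nat.card f.range * (C₀ * n ^ g) := by gcongr
      _ = n ^ g * (C₀ * Nat.card f.range) := by ring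
  have h5 : n ^ g ≤ C₀ * Nat.card f.range := Nat.le_of_mul_le_mul_left h4 hng
  -- the index of `B = range f` in `T`
  have hidx0 : f.range.index ≠ 0 := AddSubgroup.index_ne_zero_of_finite
  have h6 : f.range.index * Nat.card f.range = Nat.card T := AddSubgroup.index_mul_card f.range
  have hidx : f.range.index ≤ C₀ := by
    have h7 : f.range.index * Nat.card f.range ≤ C₀ * Nat.card f.range := by
      rw [h6]
      exact hTB.trans h5
    exact Nat.le_of_mul_le_mul_right h7 hBpos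
  obtain ⟨w, hw⟩ := asm_factorial_nsmul_mem f.range hidx0 hidx (⟨τ₀ • R₀ - R₀, hR₀⟩ : T)
  have hw' : τ₀ • (w : J) - w = C₀.factorial • (τ₀ • R₀ - R₀) := by
    have := congrArg (fun z : T => (z : J)) hw
    simpa [hf] using this
  refine ⟨w, w.2, ?_⟩
  have hτ : τ₀ • (C₀.factorial • R₀ - (w : J)) = C₀.factorial • R₀ - w := by
    rw [asm_smul_sub, asm_smul_nsmul]
    have e1 : τ₀ • (w : J) = w + C₀.factorial • (τ₀ • R₀ - R₀) := by
      rw [← hw']
      abel
    rw [e1, smul_sub]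
    abel
  intro σ hσ
  obtain ⟨k, hk, hkR⟩ := hgen σ hσ
  have e2 : σ • (C₀.factorial • R₀ - (w : J)) = τ₀ ^ k • (C₀.factorial • R₀ - (w : J)) := by
    rw [asm_smul_sub, asm_smul_nsmul, asm_smul_sub, asm_smul_nsmul, hkR, hk w w.2]
  rw [e2, asm_pow_smul_fixed hτ]

end Fermat.Agent.EKp
end MergeWrap_E_Desc_Kp_Asm

section MergeWrap_E_Desc_Kp_W0Grp -- from E/Desc/Kp/W0Grp.lean

set_option autoImplicit false

noncomputable section

open AlgebraicCurve Fermat.Agent.RR Fermat.Agent.Deuring Fermat.Agent.BadRed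

namespace Fermat.Agent.EKp

variable {K F k Fk Fk₁ Fk₂ ι : Type*} [Field K] [Field F] [Algebra K F]
  [Field k] [Field Fk] [Algebra k Fk] [Field Fk₁] [Algebra k Fk₁] [Field Fk₂] [Algebra k Fk₂]

/-! ### `n`-th powers in the residue field, up to constants -/

/-- `g` is, up to a constant of `K`, an `n`-th power in the residue field. -/
def IsPowRed (S : ValSetup K F k Fk) (n : ℕ) (g : F) : Prop :=
  ∃ c : K, c ≠ 0 ∧ ∃ h : Fk, h ≠ 0 ∧ S.red (g / algebraMap K F c) = h ^ n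

theorem isPowRed_one (S : ValSetup K F k Fk) (n : ℕ) : IsPowRed S n 1 :=
  ⟨1, one_ne_zero, 1, one_ne_zero, by rw [map_one, div_one, S.red_one, one_pow]⟩

theorem isPowRed_mul (S : ValSetup K F k Fk) {n : ℕ} {g g' : F} (hg : IsPowRed S n g)
    (hg' : IsPowRed S n g') : IsPowRed S n (g * g') := by
  obtain ⟨c, hc, h, hh, hred⟩ := hg
  obtain ⟨c', hc', h', hh', hred'⟩ := hg'
  have h1 : S.red (g / algebraMap K F c) ≠ 0 := by rw [hred]; exact pow_ne_zero n hh
  have h2 : S.red (g' / algebraMap K F c') ≠ 0 := by rw [hred']; exact pow_ne_zero n hh'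
  refine ⟨c * c', mul_ne_zero hc hc', h * h', mul_ne_zero hh hh', ?_⟩
  have e : g * g' / algebraMap K F (c * c') = g / algebraMap K F c * (g' / algebraMap K F c') := by
    rw [map_mul, mul_div_mul_comm]
  rw [e, S.red_mul (S.mem_of_red_ne_zero h1) (S.mem_of_red_ne_zero h2), hred, hred', mul_pow]

theorem isPowRed_inv (S : ValSetup K F k Fk) {n : ℕ} {g : F} (hg : IsPowRed S n g) :
    IsPowRed S n g⁻¹ := by
  obtain ⟨c, hc, h, hh, hred⟩ := hg
  have h1 : S.red (g / algebraMap K F c) ≠ 0 := by rw [hred]; exact pow_ne_zero n hh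
  refine ⟨c⁻¹, inv_ne_zero hc, h⁻¹, inv_ne_zero hh, ?_⟩
  have e : g⁻¹ / algebraMap K F c⁻¹ = (g / algebraMap K F c)⁻¹ := by
    rw [map_inv₀, inv_div_inv, inv_div]
  rw [e, S.red_inv (S.mem_of_red_ne_zero h1) (S.inv_mem_of_red_ne_zero h1)
    (S.ne_zero_of_red_ne_zero h1), hred, inv_pow]

variable (N : NodalSetup K F k Fk₁ Fk₂ ι)

theorem isW0Div_iff {n : ℕ} {D : Divisor K F} :
    N.IsW0Div n D ↔ ∃ g : F, g ≠ 0 ∧ (∀ P : Place K F, P.ord g = n * D P) ∧
      IsPowRed N.S₁ n g ∧ IsPowRed N.S₂ n g :=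
  Iff.rfl

/-! ### `W₀`-divisors form a group -/

theorem isW0Div_zero (n : ℕ) : N.IsW0Div n 0 :=
  ⟨1, one_ne_zero, fun P => by rw [Place.ord_one, Finsupp.zero_apply, mul_zero],
    isPowRed_one N.S₁ n, isPowRed_one N.S₂ n⟩

theorem isW0Div_add {n : ℕ} {D D' : Divisor K F} (hD : N.IsW0Div n D) (hD' : N.IsW0Div n D') :
    N.IsW0Div n (D + D') := by
  obtain ⟨g, hg, hord, h1, h2⟩ := hD
  obtain ⟨g', hg', hord', h1', h2'⟩ := hD'
  refine ⟨g * g', mul_ne_zero hg hg', fun P => ?_, isPowRed_mul N.S₁ h1 h1',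
    isPowRed_mul N.S₂ h2 h2'⟩
  rw [Place.ord_mul P hg hg', hord P, hord' P, Finsupp.add_apply, mul_add]

theorem isW0Div_neg {n : ℕ} {D : Divisor K F} (hD : N.IsW0Div n D) : N.IsW0Div n (-D) := by
  obtain ⟨g, hg, hord, h1, h2⟩ := hD
  refine ⟨g⁻¹, inv_ne_zero hg, fun P => ?_, isPowRed_inv N.S₁ h1, isPowRed_inv N.S₂ h2⟩
  rw [Place.ord_inv, hord P, Finsupp.neg_apply, mul_neg]

/-- a `W₀`-divisor for the exponent `n` is killed by `n` modulo principal divisors. -/
theorem nsmul_mem_principal_of_isW0Div {n : ℕ} {D : Divisor K F} (hD : N.IsW0Div n D) :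
    n • D ∈ Divisor.principal (K := K) (F := F) := by
  obtain ⟨g, hg, hord, -, -⟩ := hD
  refine ⟨g, hg, fun v => ?_⟩
  rw [hord v, Finsupp.smul_apply, nsmul_eq_mul]

/-! ### the subgroup `W₀[n]` of `Pic⁰` -/

/-- **KP-GRP**: the toric part `W₀[n]`, as a subgroup of `Pic⁰`. -/
def w0Sub (n : ℕ) : AddSubgroup (Pic0 K F) where
  carrier := N.W0 n
  zero_mem' := ⟨0, Pic0.mk_zero, isW0Div_zero N n⟩
  add_mem' := by
    rintro _ _ ⟨D, rfl, hD⟩ ⟨D', rfl, hD'⟩
    exact ⟨D + D', Pic0.mk_add D D', isW0Div_add N hD hD'⟩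
  neg_mem' := by
    rintro _ ⟨D, rfl, hD⟩
    exact ⟨-D, rfl, isW0Div_neg N hD⟩

@[simp]
theorem mem_w0Sub {n : ℕ} {x : Pic0 K F} : x ∈ w0Sub N n ↔ x ∈ N.W0 n := Iff.rfl

theorem coe_w0Sub (n : ℕ) : ((w0Sub N n : AddSubgroup (Pic0 K F)) : Set (Pic0 K F)) = N.W0 n :=
  rfl

/-- `W₀[n]` is killed by `n`. -/
theorem nsmul_eq_zero_of_mem_W0 {n : ℕ} {x : Pic0 K F} (hx : x ∈ N.W0 n) : n • x = 0 := by
  obtain ⟨D, rfl, hD⟩ := hx
  have h1 : n • Pic0.mk D = Pic0.mk (n • D) := rfl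
  rw [h1]
  unfold Pic0.mk
  rw [QuotientAddGroup.eq_zero_iff, AddSubgroup.mem_addSubgroupOf]
  have e : ((n • D : Divisor.degZero (K := K) (F := F)) : Divisor K F) = n • (D : Divisor K F) :=
    AddSubgroup.coe_nsmul _ _ _
  rw [e]
  exact nsmul_mem_principal_of_isW0Div N hD

/-- `W₀[n] ⊆ Pic⁰[n]`. -/
theorem w0Sub_le_torsion (n : ℕ) : w0Sub N n ≤ Pic0.torsion K F n := by
  intro x hx
  rw [Pic0.mem_torsion, natCast_zsmul]
  exact nsmul_eq_zero_of_mem_W0 N hx

end Fermat.Agent.EKp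
end
end MergeWrap_E_Desc_Kp_W0Grp

section MergeWrap_E_Desc_Kp_E1Div -- from E/Desc/Kp/E1Div.lean

set_option autoImplicit false

noncomputable section

open AlgebraicCurve Fermat.Agent.RR Fermat.Agent.Deuring Fermat.Agent.BadRed

namespace Fermat.Agent.EKp

variable {K F k Fk Fk₁ Fk₂ ι : Type*} [Field K] [Field F] [Algebra K F]
  [Field k] [Field Fk] [Algebra k Fk] [Field Fk₁] [Algebra k Fk₁] [Field Fk₂] [Algebra k Fk₂]

/-- `v.ord (t • f) = (t⁻¹ • v).ord f`. -/
theorem e1_ord_smul (t : SemilinearAut K F) (v : Place K F) (f : F) :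
    v.ord (t • f) = (t⁻¹ • v).ord f := by
  have h := SemilinearAut.ord_smul t (t⁻¹ • v) f
  rw [smul_inv_smul] at h
  exact h

/-- If `t` preserves the valuation ring and the reduction, then `t g / g` is, up to a constant,
the `n`-th power of `1` in the residue field. -/
theorem isPowRed_smul_div (S : ValSetup K F k Fk) (t : SemilinearAut K F)
    (hmem : ∀ f : F, f ∈ S.Ov → t • f ∈ S.Ov)
    (hred : ∀ f : F, f ∈ S.Ov → S.red (t • f) = S.red f) (n : ℕ) {g : F} (hg : g ≠ 0) :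
    IsPowRed S n (t • g * g⁻¹) := by
  obtain ⟨c, hc, hu⟩ := S.exists_scale hg
  set u : F := c⁻¹ • g with hudef
  have huO : u ∈ S.Ov := S.mem_of_red_ne_zero hu
  have huO' : u⁻¹ ∈ S.Ov := S.inv_mem_of_red_ne_zero hu
  have hu0 : u ≠ 0 := S.ne_zero_of_red_ne_zero hu
  have htu : t • u ∈ S.Ov := hmem u huO
  have hbc : SemilinearAut.baseAut t c ≠ 0 := by
    intro h
    exact hc ((map_eq_zero_iff _ (SemilinearAut.baseAut t).injective).1 h)
  have hcF : algebraMap K F c ≠ 0 := by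
    rw [Ne, map_eq_zero_iff _ (algebraMap K F).injective]
    exact hc
  have hbcF : algebraMap K F (SemilinearAut.baseAut t c) ≠ 0 := by
    rw [Ne, map_eq_zero_iff _ (algebraMap K F).injective]
    exact hbc
  -- `t • u = (t c)⁻¹ (t • g)`
  have e1 : t • u = (algebraMap K F (SemilinearAut.baseAut t c))⁻¹ * t • g := by
    rw [hudef, Algebra.smul_def, smul_mul', map_inv₀, smul_inv'', SemilinearAut.smul_algebraMap]
  have e2 : u⁻¹ = algebraMap K F c * g⁻¹ := by
    rw [hudef, Algebra.smul_def, map_inv₀, mul_inv, inv_inv]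
  refine ⟨SemilinearAut.baseAut t c / c, div_ne_zero hbc hc, 1, one_ne_zero, ?_⟩
  have e3 : t • g * g⁻¹ / algebraMap K F (SemilinearAut.baseAut t c / c) = t • u * u⁻¹ := by
    rw [e1, e2, map_div₀]
    field_simp
  rw [e3, S.red_mul htu huO', hred u huO, S.red_inv huO huO' hu0, mul_inv_cancel₀ hu, one_pow]

variable (N : NodalSetup K F k Fk₁ Fk₂ ι)

/-- **KP-E1D**, divisor form. -/
theorem isW0Div_smul_sub {n : ℕ} {t : SemilinearAut K F} (ht : N.IsInertial t)
    {D D₀ : Divisor K F} (hD : t • D = D) {g : F} (hg : g ≠ 0)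
    (hdiv : ∀ P : Place K F, P.ord g = n * D₀ P - D P) :
    N.IsW0Div n (t • D₀ - D₀) := by
  refine ⟨t • g * g⁻¹, mul_ne_zero ?_ (inv_ne_zero hg), fun P => ?_,
    isPowRed_smul_div N.S₁ t ht.mem₁ ht.red₁ n hg, isPowRed_smul_div N.S₂ t ht.mem₂ ht.red₂ n hg⟩
  · intro h
    apply hg
    have := congrArg (fun x => t⁻¹ • x) h
    simpa using this
  · have htg : t • g ≠ 0 := by
      intro h
      apply hg
      have := congrArg (fun x => t⁻¹ • x) h
      simpa using this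
    have hDP : D (t⁻¹ • P) = D P := by
      rw [← SemilinearAut.divisor_smul_apply, hD]
    rw [Place.ord_mul P htg (inv_ne_zero hg), Place.ord_inv, e1_ord_smul, hdiv, hdiv, hDP,
      Finsupp.sub_apply, SemilinearAut.divisor_smul_apply]
    ring

/-- **KP-E1D** in `Pic⁰`: if `n • R` is the class of a `t`-fixed divisor of degree `0`, then
`t • R - R` lies in the toric part `W₀[n]`. -/
theorem smul_sub_mem_W0 {n : ℕ} {t : SemilinearAut K F} (ht : N.IsInertial t)
    (D : Divisor.degZero (K := K) (F := F)) (hD : t • (D : Divisor K F) = D)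
    (R : Pic0 K F) (hR : n • R = Pic0.mk D) : t • R - R ∈ N.W0 n := by
  obtain ⟨D₀, rfl⟩ := Pic0.mk_surjective R
  -- `n D₀ - D` is principal
  have h1 : n • Pic0.mk D₀ = Pic0.mk (n • D₀) := rfl
  rw [h1] at hR
  unfold Pic0.mk at hR
  rw [QuotientAddGroup.eq, AddSubgroup.mem_addSubgroupOf] at hR
  obtain ⟨g₀, hg₀, hdiv₀⟩ := hR
  have hdiv : ∀ P : Place K F, P.ord g₀⁻¹ = n * (D₀ : Divisor K F) P - (D : Divisor K F) P := by
    intro P
    have := hdiv₀ P
    simp only [AddSubgroup.coe_add, NegMemClass.coe_neg, AddSubgroup.coe_nsmul,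
      Finsupp.add_apply, Finsupp.neg_apply, Finsupp.smul_apply, nsmul_eq_mul] at this
    rw [Place.ord_inv, ← this]
    ring
  have hW := isW0Div_smul_sub N ht hD (inv_ne_zero hg₀) hdiv
  refine ⟨SemilinearAut.degZeroSMulHom t D₀ - D₀, ?_, ?_⟩
  · rw [SemilinearAut.pic0_smul_mk]
    rfl
  · have e : ((SemilinearAut.degZeroSMulHom t D₀ - D₀ : Divisor.degZero (K := K) (F := F)) :
        Divisor K F) = t • (D₀ : Divisor K F) - (D₀ : Divisor K F) := by
      rw [AddSubgroup.coe_sub, SemilinearAut.coe_degZeroSMulHom]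
    rw [e]
    exact hW

/-- the torsion case (T1): inertial automorphisms move `n`-torsion classes by `W₀[n]`. -/
theorem smul_sub_mem_W0_of_torsion {n : ℕ} {t : SemilinearAut K F} (ht : N.IsInertial t)
    (w : Pic0 K F) (hw : n • w = 0) : t • w - w ∈ N.W0 n :=
  smul_sub_mem_W0 N ht 0 (by rw [AddSubgroup.coe_zero, smul_zero]) w (by rw [hw]; rfl)

end Fermat.Agent.EKp
end
end MergeWrap_E_Desc_Kp_E1Div

section MergeWrap_E_Desc_Kp_TameGen -- from E/Desc/Kp/TameGen.lean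

set_option autoImplicit false
set_option linter.style.haveILetI false

namespace Fermat.Agent.EKp

local notation "Qb" => AlgebraicClosure ℚ
local notation "GQb" => (AlgebraicClosure ℚ ≃ₐ[ℚ] AlgebraicClosure ℚ)

variable {J : Type*} [AddCommGroup J] [DistribMulAction GQb J]

/-- if `σ` fixes `σ y - y` then `σ ^ k y = y + k (σ y - y)`. -/
theorem tg_pow_smul (σ : GQb) (y : J) (h : σ • (σ • y - y) = σ • y - y) (k : ℕ) :
    σ ^ k • y = y + k • (σ • y - y) := by
  induction k with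
  | zero => simp
  | succ k ih =>
    have e : σ • (k • (σ • y - y)) = k • (σ • y - y) := by
      rw [← DistribSMul.toAddMonoidHom_apply, map_nsmul, DistribSMul.toAddMonoidHom_apply, h]
    rw [pow_succ', mul_smul, ih, smul_add, e, succ_nsmul]
    abel

/-- **the tame generator.** -/
theorem kp_tame_gen (p : ℕ) (hp : p.Prime) (A : ValuationSubring Qb) (hA : A.LiesOverPrime p)
    {n : ℕ} (hpn : ¬ p ∣ n) (Y : Set J) (hYfin : Y.Finite)
    (hYG : ∀ σ : GQb, ∀ y ∈ Y, σ • y ∈ Y)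
    (hopen : ∀ y ∈ Y, ∃ L : IntermediateField ℚ Qb, FiniteDimensional ℚ L ∧
      ∀ σ : GQb, (∀ a ∈ L, σ a = a) → σ • y = y)
    (T : AddSubgroup J) (hTn : ∀ x ∈ T, n • x = 0)
    (hTfix : ∀ σ ∈ A.inertiaSubgroupIn ℚ, ∀ x ∈ T, σ • x = x)
    (hE1 : ∀ σ ∈ A.inertiaSubgroupIn ℚ, ∀ y ∈ Y, σ • y - y ∈ T) :
    ∃ τ₀ ∈ A.inertiaSubgroupIn ℚ, ∀ σ ∈ A.inertiaSubgroupIn ℚ,
      ∃ k : ℕ, ∀ y ∈ Y, σ • y = τ₀ ^ k • y := by
  classical
  let Ys : SubMulAction GQb J :=
    { carrier := Y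
      smul_mem' := fun σ y hy => hYG σ y hy }
  have hYs : ∀ y : J, y ∈ Ys ↔ y ∈ Y := fun _ => Iff.rfl
  haveI : Finite Ys := hYfin.to_subtype
  let χ : GQb →* Equiv.Perm Ys := MulAction.toPermHom GQb Ys
  have hχ : ∀ (σ : GQb) (y : Ys), ((χ σ y : Ys) : J) = σ • (y : J) := fun _ _ => rfl
  -- the kernel of `χ` is open
  have hopen' : IsOpen (χ.ker : Set GQb) := by
    choose L hLfd hL using fun y : Ys => hopen (y : J) y.2
    haveI : ∀ y : Ys, FiniteDimensional ℚ (L y) := hLfd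
    let E : IntermediateField ℚ Qb := ⨆ y : Ys, L y
    haveI : FiniteDimensional ℚ E := IntermediateField.finiteDimensional_iSup_of_finite
    refine Subgroup.isOpen_mono ?_ (IntermediateField.fixingSubgroup_isOpen E)
    intro σ hσ
    rw [MonoidHom.mem_ker]
    ext y
    rw [hχ]
    refine hL y σ fun a ha => ?_
    have haE : a ∈ E := (le_iSup L y) ha
    exact (IntermediateField.mem_fixingSubgroup_iff E σ).mp hσ a haE
  -- the image of inertia is killed by `n`
  have hcop : ∀ σ ∈ A.inertiaSubgroupIn ℚ, (orderOf (χ σ)).Coprime p := by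
    intro σ hσ
    have h1 : (χ σ) ^ n = 1 := by
      ext y
      rw [← map_pow, hχ,
        tg_pow_smul σ (y : J) (hTfix σ hσ _ (hE1 σ hσ (y : J) y.2)) n,
        hTn _ (hE1 σ hσ (y : J) y.2), add_zero]
      rfl
    have h2 := orderOf_dvd_of_pow_eq_one h1
    exact Nat.Coprime.coprime_dvd_left h2 ((Nat.Prime.coprime_iff_not_dvd hp).mpr hpn).symm
  obtain ⟨⟨τ₀, hτ₀, hgen⟩, -⟩ :=
    Fermat.Agent.TameInertia.tame_inertia χ hopen' p hp A hA hcop
  refine ⟨τ₀, hτ₀, fun σ hσ => ?_⟩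
  obtain ⟨k, hk⟩ := hgen σ hσ
  refine ⟨k, fun y hy => ?_⟩
  have h3 : χ σ ⟨y, hy⟩ = (χ τ₀ ^ k) ⟨y, hy⟩ := by rw [hk]
  rw [← map_pow] at h3
  have h4 := congrArg (fun z : Ys => (z : J)) h3
  simpa only [hχ] using h4

end Fermat.Agent.EKp
end MergeWrap_E_Desc_Kp_TameGen

section MergeWrap_E_Desc_Kp_Inputs -- from E/Desc/Kp/Inputs.lean

set_option autoImplicit false
set_option linter.style.haveILetI false

noncomputable section

namespace Fermat.Agent.EKp

open ModularCurve AlgebraicCurve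

local notation "Qb" => AlgebraicClosure ℚ
local notation "GQb" => (AlgebraicClosure ℚ ≃ₐ[ℚ] AlgebraicClosure ℚ)

/-! ### open stabilisers -/

/-- every divisor of `X₀(N)` over `ℚ̄` has open stabiliser. -/
theorem divisor_open_stab (N : ℕ) [NeZero N] (D : Divisor Qb (modularFunctionFieldBar N)) :
    ∃ L : IntermediateField ℚ Qb, FiniteDimensional ℚ L ∧
      ∀ σ : GQb, (∀ a ∈ L, σ a = a) →
        arithmeticGalois (modularFunctionFieldFull N) σ • D = D := by
  classical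
  induction D using Finsupp.induction with
  | zero => exact ⟨⊥, inferInstance, fun σ _ => smul_zero _⟩
  | single_add P m D _ _ ih =>
    obtain ⟨L₁, hL₁, h₁⟩ := Fermat.Agent.S17.Pts.galPlace_open_stab N P
    obtain ⟨L₂, hL₂, h₂⟩ := ih
    haveI := hL₁
    haveI := hL₂
    refine ⟨L₁ ⊔ L₂, IntermediateField.finiteDimensional_sup L₁ L₂, fun σ hσ => ?_⟩
    have e₁ : arithmeticGalois (modularFunctionFieldFull N) σ • P = P :=
      h₁ σ fun a ha => hσ a ((le_sup_left : L₁ ≤ L₁ ⊔ L₂) ha)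
    have e₂ := h₂ σ fun a ha => hσ a ((le_sup_right : L₂ ≤ L₁ ⊔ L₂) ha)
    rw [smul_add, SemilinearAut.smul_single, e₁, e₂]

/-- every point of `J₀(N)(ℚ̄)` has open stabiliser. -/
theorem jzero_open_stab (N : ℕ) [NeZero N] (x : JZero N) :
    ∃ L : IntermediateField ℚ Qb, FiniteDimensional ℚ L ∧
      ∀ σ : GQb, (∀ a ∈ L, σ a = a) → σ • x = x := by
  obtain ⟨D, rfl⟩ := Pic0.mk_surjective x
  obtain ⟨L, hL, h⟩ := divisor_open_stab N (D : Divisor Qb (modularFunctionFieldBar N))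
  refine ⟨L, hL, fun σ hσ => ?_⟩
  show arithmeticGalois (modularFunctionFieldFull N) σ • Pic0.mk D = Pic0.mk D
  rw [SemilinearAut.pic0_smul_mk]
  exact congrArg Pic0.mk (Subtype.ext (h σ hσ))

/-! ### the statement at a level `M` -/

/-- **(K-p)** for `J₀(M)` at the prime `p`. -/
def KpAt (M p : ℕ) : Prop :=
  ∃ m : ℕ, 0 < m ∧ ∀ A : ValuationSubring Qb, A.LiesOverPrime p →
    ∀ P : JZero M, (∀ σ : GQb, σ • P = P) → ∀ n : ℕ, 0 < n → ¬ p ∣ n →
      ∃ R : JZero M, n • R = m • P ∧ ∀ σ ∈ A.inertiaSubgroupIn ℚ, σ • R = R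

theorem kpStatement_of_kpAt {p : ℕ} (h : KpAt p p) : KpStatement p := h

theorem kpAt_cast {M M' p : ℕ} (h : M = M') (hM : KpAt M p) : KpAt M' p := by
  subst h
  exact hM

/-- the inputs of (K-p) at one place `A` and one exponent `n`. -/
structure KpInputs (M : ℕ) (A : ValuationSubring Qb) (n m₀ g : ℕ) where
  /-- the toric part of `J₀(M)[n]` -/
  T : AddSubgroup (JZero M)
  /-- it is killed by `n` -/
  hTn : ∀ x ∈ T, n • x = 0
  /-- (TK) inertia acts trivially on it -/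
  hTfix : ∀ σ ∈ A.inertiaSubgroupIn ℚ, ∀ x ∈ T, σ • x = x
  /-- (E1D) inertia moves the `n`-th roots of rational points by toric classes -/
  hE1 : ∀ σ ∈ A.inertiaSubgroupIn ℚ, ∀ y : JZero M, (∀ τ : GQb, τ • (n • y) = n • y) →
    σ • y - y ∈ T
  /-- (FTT) fixed torsion is toric up to `m₀` -/
  hFTT : ∀ x : JZero M, n • x = 0 → (∀ σ ∈ A.inertiaSubgroupIn ℚ, σ • x = x) → m₀ • x ∈ T
  /-- (TB) the toric bound -/
  hTB : Nat.card T ≤ n ^ g

/-- **(K-p) from the inputs.** -/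
theorem kpAt_of_inputs (M p : ℕ) [NeZero M] (hp : p.Prime) {m₀ g : ℕ} (hm₀ : 0 < m₀)
    (hLB : ∀ n : ℕ, 0 < n → ¬ p ∣ n → n ^ (2 * g) ≤ Nat.card (torsN (JZero M) n))
    (hin : ∀ A : ValuationSubring Qb, A.LiesOverPrime p → ∀ n : ℕ, 0 < n → ¬ p ∣ n →
      Nonempty (KpInputs M A n m₀ g)) :
    KpAt M p := by
  classical
  have hfin : ∀ n : ℕ, 0 < n → Finite (torsN (JZero M) n) := fun n hn =>
    (Fermat.Agent.F3TF.torsionFinite M n hn).to_subtype
  haveI := hfin m₀ hm₀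
  refine ⟨(Nat.card (torsN (JZero M) m₀)).factorial, Nat.factorial_pos _, ?_⟩
  intro A hA P hP n hn hpn
  obtain ⟨inp⟩ := hin A hA n hn hpn
  haveI := hfin n hn
  obtain ⟨R₀, hR₀⟩ := Fermat.Agent.Div.jZero_divisible M n hn P
  -- the finite set `Y`
  let Y : Set (JZero M) := {y | n • y = 0 ∨ n • y = P}
  have hYfin : Y.Finite := by
    have h1 : {y : JZero M | n • y = 0}.Finite := Fermat.Agent.F3TF.torsionFinite M n hn
    have h2 : {y : JZero M | n • y = P}.Finite := by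
      refine (h1.image fun w => R₀ + w).subset fun y hy => ?_
      refine ⟨y - R₀, ?_, add_sub_cancel R₀ y⟩
      show n • (y - R₀) = 0
      rw [nsmul_sub, show n • y = P from hy, hR₀, sub_self]
    exact h1.union h2
  have hsm : ∀ (σ : GQb) (m : ℕ) (y : JZero M), σ • (m • y) = m • (σ • y) := fun σ m y =>
    asm_smul_nsmul σ m y
  have hs0 : ∀ σ : GQb, σ • (0 : JZero M) = 0 := fun σ =>
    map_zero (DistribSMul.toAddMonoidHom (JZero M) σ)
  have hYG : ∀ σ : GQb, ∀ y ∈ Y, σ • y ∈ Y := by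
    rintro σ y (hy | hy)
    · left
      show n • (σ • y) = 0
      rw [← hsm, hy, hs0]
    · right
      show n • (σ • y) = P
      rw [← hsm, hy, hP σ]
  have hrat : ∀ y ∈ Y, ∀ τ : GQb, τ • (n • y) = n • y := by
    rintro y (hy | hy) τ
    · rw [hy, hs0]
    · rw [hy, hP τ]
  obtain ⟨τ₀, hτ₀, hgen⟩ := kp_tame_gen p hp A hA hpn Y hYfin hYG
    (fun y _ => jzero_open_stab M y) inp.T inp.hTn inp.hTfix
    (fun σ hσ y hy => inp.hE1 σ hσ y (hrat y hy))
  have hR₀Y : R₀ ∈ Y := Or.inr hR₀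
  obtain ⟨w, hw, hfix⟩ := kp_abstract (G := GQb) (J := JZero M) (A.inertiaSubgroupIn ℚ)
    (n := n) (m₀ := m₀) (g := g) hn inp.T (fun x hx => mem_torsN.mpr (inp.hTn x hx))
    (fun σ hσ w hw => inp.hE1 σ hσ w (fun τ => by rw [mem_torsN.mp hw, hs0]))
    (fun x hx hfx => inp.hFTT x (mem_torsN.mp hx) hfx)
    inp.hTB (hLB n hn hpn) R₀ τ₀ hτ₀ (inp.hE1 τ₀ hτ₀ R₀ (hrat R₀ hR₀Y))
    (fun σ hσ => by
      obtain ⟨k, hk⟩ := hgen σ hσ
      exact ⟨k, fun w hw => hk w (Or.inl (mem_torsN.mp hw)), hk R₀ hR₀Y⟩)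
  refine ⟨(Nat.card (torsN (JZero M) m₀)).factorial • R₀ - w, ?_, hfix⟩
  rw [nsmul_sub, mem_torsN.mp hw, sub_zero, smul_comm, hR₀]

end Fermat.Agent.EKp
end
end MergeWrap_E_Desc_Kp_Inputs

section MergeWrap_E_Desc_Kp_OnePlace -- from E/Desc/Kp/OnePlace.lean

set_option autoImplicit false
set_option linter.style.haveILetI false

noncomputable section

namespace Fermat.Agent.EKp

open ModularCurve AlgebraicCurve
open scoped Pointwise

local notation "Qb" => AlgebraicClosure ℚ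
local notation "GQb" => (AlgebraicClosure ℚ ≃ₐ[ℚ] AlgebraicClosure ℚ)

/-- the inertia group of a conjugate place. -/
theorem onePlace_conj_mem (A : ValuationSubring Qb) (σ τ : GQb)
    (hτ : τ ∈ (σ • A).inertiaSubgroupIn ℚ) : σ⁻¹ * τ * σ ∈ A.inertiaSubgroupIn ℚ := by
  have h := Fermat.Agent.KFin.kf_conj_mem_inertiaSubgroupIn (σ • A) σ⁻¹ τ hτ
  rwa [inv_inv, inv_smul_smul] at h

section

variable {M : ℕ}

theorem onePlace_smul_nsmul (σ : GQb) (m : ℕ) (y : JZero M) : σ • (m • y) = m • (σ • y) :=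
  asm_smul_nsmul σ m y

theorem onePlace_smul_zero (σ : GQb) : σ • (0 : JZero M) = 0 :=
  map_zero (DistribSMul.toAddMonoidHom (JZero M) σ)

theorem onePlace_smul_sub (σ : GQb) (x y : JZero M) : σ • (x - y) = σ • x - σ • y :=
  asm_smul_sub σ x y

/-- transport of the inputs of (K-p) to a conjugate place. -/
def KpInputs.conj {A : ValuationSubring Qb} {n m₀ g : ℕ} (inp : KpInputs M A n m₀ g)
    (σ : GQb) : KpInputs M (σ • A) n m₀ g where
  T := inp.T.map (DistribSMul.toAddMonoidHom (JZero M) σ)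
  hTn := by
    rintro _ ⟨x, hx, rfl⟩
    show n • (σ • x) = 0
    rw [← onePlace_smul_nsmul, inp.hTn x hx, onePlace_smul_zero]
  hTfix := by
    rintro τ hτ _ ⟨x, hx, rfl⟩
    show τ • (σ • x) = σ • x
    have h1 := inp.hTfix _ (onePlace_conj_mem A σ τ hτ) x hx
    have h2 : σ • ((σ⁻¹ * τ * σ) • x) = τ • (σ • x) := by
      rw [← mul_smul, ← mul_smul, ← mul_assoc, ← mul_assoc, mul_inv_cancel, one_mul]
    rw [← h2, h1]
  hE1 := by
    intro τ hτ y hy
    have hy' : ∀ ρ : GQb, ρ • (n • (σ⁻¹ • y)) = n • (σ⁻¹ • y) := by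
      intro ρ
      rw [← onePlace_smul_nsmul, hy σ⁻¹, hy ρ]
    have h1 := inp.hE1 _ (onePlace_conj_mem A σ τ hτ) (σ⁻¹ • y) hy'
    refine ⟨_, h1, ?_⟩
    show σ • ((σ⁻¹ * τ * σ) • (σ⁻¹ • y) - σ⁻¹ • y) = τ • y - y
    rw [onePlace_smul_sub, smul_inv_smul, ← mul_smul, ← mul_smul, ← mul_assoc, ← mul_assoc,
      mul_inv_cancel, one_mul, mul_assoc, mul_inv_cancel, mul_one]
  hFTT := by
    intro x hx hfix
    have h1 : n • (σ⁻¹ • x) = 0 := by
      rw [← onePlace_smul_nsmul, hx, onePlace_smul_zero]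
    have h2 : ∀ ρ ∈ A.inertiaSubgroupIn ℚ, ρ • (σ⁻¹ • x) = σ⁻¹ • x := by
      intro ρ hρ
      have h3 := Fermat.Agent.KFin.kf_conj_mem_inertiaSubgroupIn A σ ρ hρ
      have h4 := hfix _ h3
      rw [mul_smul, mul_smul] at h4
      have h5 := congrArg (fun z => σ⁻¹ • z) h4
      simpa only [inv_smul_smul] using h5
    have h6 := inp.hFTT (σ⁻¹ • x) h1 h2
    refine ⟨_, h6, ?_⟩
    show σ • (m₀ • (σ⁻¹ • x)) = m₀ • x
    rw [onePlace_smul_nsmul, smul_inv_smul]
  hTB := by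
    refine le_trans (le_of_eq ?_) inp.hTB
    refine (Nat.card_congr (Equiv.ofBijective
      (fun x : inp.T => (⟨σ • (x : JZero M), ⟨x, x.2, rfl⟩⟩ :
        inp.T.map (DistribSMul.toAddMonoidHom (JZero M) σ))) ⟨?_, ?_⟩)).symm
    · intro a b hab
      have h1 : σ • (a : JZero M) = σ • (b : JZero M) := congrArg Subtype.val hab
      have h2 := congrArg (fun z => σ⁻¹ • z) h1
      simp only [inv_smul_smul] at h2
      exact Subtype.ext h2
    · rintro ⟨_, x, hx, rfl⟩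
      exact ⟨⟨x, hx⟩, rfl⟩

end

/-- **(K-p) from the inputs at ONE place over `p`.** -/
theorem kpAt_of_inputs_one (M p : ℕ) [NeZero M] (hp : p.Prime) {m₀ g : ℕ} (hm₀ : 0 < m₀)
    (hLB : ∀ n : ℕ, 0 < n → ¬ p ∣ n → n ^ (2 * g) ≤ Nat.card (torsN (JZero M) n))
    (A₀ : ValuationSubring Qb) (hA₀ : A₀.LiesOverPrime p)
    (hin : ∀ n : ℕ, 0 < n → ¬ p ∣ n → Nonempty (KpInputs M A₀ n m₀ g)) :
    KpAt M p := by
  refine kpAt_of_inputs M p hp hm₀ hLB fun A hA n hn hpn => ?_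
  haveI : Fact p.Prime := ⟨hp⟩
  obtain ⟨σ, rfl⟩ := Fermat.Agent.FF.exists_smul_eq_of_liesOverPrime A₀ A hA₀ hA
  obtain ⟨inp⟩ := hin n hn hpn
  exact ⟨inp.conj σ⟩

end Fermat.Agent.EKp
end
end MergeWrap_E_Desc_Kp_OnePlace

section MergeWrap_E_Desc_Kp_TorsLB -- from E/Desc/Kp/TorsLB.lean

set_option autoImplicit false
set_option linter.unusedSectionVars false
set_option linter.style.haveILetI false

noncomputable section

namespace Fermat.Agent.EKp

open ModularCurve AlgebraicCurve CongruenceSubgroup ModularCurve.Period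
open Fermat.Agent.F3EC Fermat.Agent.F3Deg
open scoped TensorProduct

local notation "Qb" => AlgebraicClosure ℚ

/-! ### counting -/

/-- A homomorphism from a free `ℤ`-module of rank `r` to a finite group whose kernel lies in
`n M` has an image with at least `n ^ r` elements. -/
theorem lb_pow_finrank_le_card {M X : Type*} [AddCommGroup M] [AddCommGroup X]
    [Module.Free ℤ M] [Module.Finite ℤ M] [Finite X]
    (κ : M →+ X) {n : ℕ}
    (hker : ∀ c : M, κ c = 0 → ∃ c' : M, c = (n : ℤ) • c') :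
    n ^ Module.finrank ℤ M ≤ Nat.card X := by
  classical
  set r := Module.finrank ℤ M with hr
  let b : Module.Basis (Fin r) ℤ M := Module.finBasis ℤ M
  let f : (Fin r → Fin n) → X := fun a => κ (∑ i, ((a i : ℕ) : ℤ) • b i)
  have hf : Function.Injective f := by
    intro a a' h
    have h0 : κ (∑ i, (((a i : ℕ) : ℤ) - ((a' i : ℕ) : ℤ)) • b i) = 0 := by
      have e : ∑ i, (((a i : ℕ) : ℤ) - ((a' i : ℕ) : ℤ)) • b i =
          (∑ i, ((a i : ℕ) : ℤ) • b i) - ∑ i, ((a' i : ℕ) : ℤ) • b i := by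
        rw [← Finset.sum_sub_distrib]
        exact Finset.sum_congr rfl fun i _ => sub_smul _ _ _
      rw [e, map_sub, sub_eq_zero]
      exact h
    obtain ⟨c', hc'⟩ := hker _ h0
    funext i
    have h1 := congrArg (fun m => b.repr m i) hc'
    simp only [map_sum, map_smul, Module.Basis.repr_self, Finsupp.coe_finsetSum,
      Finsupp.coe_smul, Finset.sum_apply, Pi.smul_apply, smul_eq_mul] at h1
    rw [Finset.sum_eq_single i (fun j _ hji => by
      rw [Finsupp.single_apply, if_neg hji, mul_zero]) (fun hi => absurd (Finset.mem_univ i) hi),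
      Finsupp.single_apply, if_pos rfl, mul_one] at h1
    have h2 : (n : ℤ) ∣ ((a i : ℕ) : ℤ) - ((a' i : ℕ) : ℤ) := ⟨_, h1⟩
    have h3 : ((a i : ℕ) : ℤ) % n = ((a' i : ℕ) : ℤ) % n :=
      Int.emod_eq_emod_iff_emod_sub_eq_zero.mpr (Int.emod_eq_zero_of_dvd h2)
    rw [Int.emod_eq_of_lt (Int.natCast_nonneg _) (by exact_mod_cast (a i).2),
      Int.emod_eq_of_lt (Int.natCast_nonneg _) (by exact_mod_cast (a' i).2)] at h3
    exact Fin.ext (by exact_mod_cast h3)
  have hcard : Nat.card (Fin r → Fin n) = n ^ r := by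
    rw [Nat.card_eq_fintype_card, Fintype.card_fun, Fintype.card_fin, Fintype.card_fin]
  rw [← hcard]
  exact Nat.card_le_card_of_injective f hf

/-! ### the rank of `Hom_par(Γ₀(N), ℤ)` -/

variable (N : ℕ) [NeZero N]

/-- Eichler–Shimura: `rank Hom_par(Γ₀(N), ℤ) = 2 dim S₂(Γ₀(N))`. -/
theorem lb_finrank_homPar :
    Module.finrank ℤ (HomPar N) = 2 * Module.finrank ℂ (CuspForm (Gamma0 N) 2) := by
  haveI : FiniteDimensional ℂ (CuspForm (Gamma0 N) 2) :=
    Fermat.Agent.S23.finiteDimensional_cuspForm N 2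
  have h1 : Module.finrank ℂ (ℂ ⊗[ℤ] HomPar N) = Module.finrank ℤ (HomPar N) :=
    Module.finrank_baseChange
  have h2 := (Fermat.Agent.F3EP.periodEquiv N).finrank_eq
  rw [Module.finrank_prod] at h2
  rw [← h1, ← h2, two_mul]

/-- `dim S₂(Γ₀(N)) = g(X₀(N))`. -/
theorem lb_finrank_cuspForm :
    Module.finrank ℂ (CuspForm (Gamma0 N) 2) = genusFF Qb ↥(modularFunctionFieldBar N) := by
  have h1 := Fermat.Agent.S20.result N
  have h2 := Fermat.Agent.GenusEq.genusFF_modularFunctionFieldBar N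
  have h3 : (Module.finrank ℂ (CuspForm (Gamma0 N) 2) : ℚ) =
      (genusFF Qb ↥(modularFunctionFieldBar N) : ℚ) := by rw [h1, h2]
  exact_mod_cast h3

/-- `rank Hom_par(Γ₀(N), ℤ) = 2 g`. -/
theorem lb_finrank_homPar_eq_genus :
    Module.finrank ℤ (HomPar N) = 2 * genusFF Qb ↥(modularFunctionFieldBar N) := by
  rw [lb_finrank_homPar, lb_finrank_cuspForm]

/-! ### the lower bound -/

/-- **(LB)** `n ^ (2 g) ≤ # J₀(N)(ℚ̄)[n]`. -/
theorem torsLB {n : ℕ} (hn : 0 < n) :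
    n ^ (2 * genusFF Qb ↥(modularFunctionFieldBar N)) ≤
      Nat.card (Fermat.Agent.F3.Jtors N n) := by
  haveI : Finite (Fermat.Agent.F3.Jtors N n) := by
    have hfin := Fermat.Agent.F3TF.torsionFinite N n hn
    have e : (↑(Fermat.Agent.F3.Jtors N n) : Set (JZero N)) = {x : JZero N | n • x = 0} := by
      ext x
      simp only [SetLike.mem_coe, Submodule.mem_torsionBy_iff, Set.mem_ofPred_eq, natCast_zsmul]
    exact (e ▸ hfin).to_subtype
  rw [← lb_finrank_homPar_eq_genus]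
  exact lb_pow_finrank_le_card (kappaC N n).toAddMonoidHom
    (fun c hc => kappaC_ker hn hc)

/-- **(LB)**, set form. -/
theorem torsLB_ncard {n : ℕ} (hn : 0 < n) :
    n ^ (2 * genusFF Qb ↥(modularFunctionFieldBar N)) ≤ {x : JZero N | n • x = 0}.ncard := by
  have h := torsLB N hn
  have e : (↑(Fermat.Agent.F3.Jtors N n) : Set (JZero N)) = {x : JZero N | n • x = 0} := by
    ext x
    simp only [SetLike.mem_coe, Submodule.mem_torsionBy_iff, Set.mem_ofPred_eq, natCast_zsmul]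
  rw [← e]
  exact h

end Fermat.Agent.EKp
end
end MergeWrap_E_Desc_Kp_TorsLB

section MergeWrap_E_Desc_Kp_ModTop -- from E/Desc/Kp/ModTop.lean

set_option autoImplicit false
set_option linter.style.haveILetI false

noncomputable section

namespace Fermat.Agent.EKp

open ModularCurve AlgebraicCurve Fermat.Agent.RR Fermat.Agent.BadRed

local notation "Qb" => AlgebraicClosure ℚ
local notation "GQb" => (AlgebraicClosure ℚ ≃ₐ[ℚ] AlgebraicClosure ℚ)

variable {k Fk₁ Fk₂ ι : Type*} [Field k] [Field Fk₁] [Algebra k Fk₁] [Field Fk₂] [Algebra k Fk₂]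
  [Fintype ι]

/-- the image of the inertia group at `A` in the semilinear automorphisms of the function
field of `X₀(M)`. -/
def modTopΓ (M : ℕ) (A : ValuationSubring Qb) :
    Set (SemilinearAut Qb (modularFunctionFieldBar M)) :=
  {t | ∃ τ ∈ A.inertiaSubgroupIn ℚ, t = arithmeticGalois (modularFunctionFieldFull M) τ}

theorem modTop_natCast_ne_zero {n : ℕ} (hn : 0 < n) : (n : Qb) ≠ 0 :=
  Nat.cast_ne_zero.mpr hn.ne'

/-- `s - 1 ≤ g` from the genus relation. -/
theorem modTop_card_le {M : ℕ}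
    (N : NodalSetup Qb (modularFunctionFieldBar M) k Fk₁ Fk₂ ι) (hrel : N.GenusRel) :
    Fintype.card ι - 1 ≤ genusFF Qb (modularFunctionFieldBar M) := by
  unfold NodalSetup.GenusRel at hrel
  omega

/-- **MOD-TOP, one exponent**: the inputs of (K-p) from a nodal package. -/
def kpInputs_of_nodal (M : ℕ) [NeZero M] (A : ValuationSubring Qb)
    (N : NodalSetup Qb (modularFunctionFieldBar M) k Fk₁ Fk₂ ι)
    (hinert : ∀ τ ∈ A.inertiaSubgroupIn ℚ,
      N.IsInertial (arithmeticGalois (modularFunctionFieldFull M) τ))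
    (hrel : N.GenusRel) {n m₀ : ℕ} (hn : 0 < n)
    (hTK : ∀ t : SemilinearAut Qb (modularFunctionFieldBar M), N.IsInertial t →
      ∀ x ∈ N.W0 n, t • x = x)
    (hTB : (N.W0 n).Finite ∧ (N.W0 n).ncard ≤ n ^ (Fintype.card ι - 1))
    (hFTT : ∀ x : JZero M, n • x = 0 → (∀ σ ∈ A.inertiaSubgroupIn ℚ, σ • x = x) →
      m₀ • x ∈ N.W0 n) :
    KpInputs M A n m₀ (genusFF Qb (modularFunctionFieldBar M)) where
  T := w0Sub N n
  hTn := fun x hx => nsmul_eq_zero_of_mem_W0 N hx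
  hTfix := fun σ hσ x hx => hTK _ (hinert σ hσ) x hx
  hE1 := by
    intro σ hσ y hy
    have hfix : ∀ t ∈ modTopΓ M A, t • (n • y) = n • y := by
      rintro t ⟨τ, -, rfl⟩
      exact hy τ
    have hoo : ∀ t ∈ modTopΓ M A, t • Fermat.Agent.S17.Setup.cuspPlace M =
        Fermat.Agent.S17.Setup.cuspPlace M := by
      rintro t ⟨τ, -, rfl⟩
      exact Fermat.Agent.S17.Setup.galPlace_cuspPlace M τ
    obtain ⟨D, hD, hDfix⟩ := rep_pic0 (Fermat.Agent.RRMod.isRRField_bar M)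
      (Fermat.Agent.S17.Setup.cuspPlace M) (modTopΓ M A) hoo (n • y) hfix
    exact smul_sub_mem_W0 N (hinert σ hσ) D (hDfix _ ⟨σ, hσ, rfl⟩) y hD.symm
  hFTT := hFTT
  hTB := by
    have h1 : Nat.card (w0Sub N n) = (N.W0 n).ncard := rfl
    rw [h1]
    exact hTB.2.trans (Nat.pow_le_pow_right hn (modTop_card_le N hrel))

/-- **MOD-TOP**: (K-p) at level `M` from a nodal package at ONE place `A₀ | p`. -/
theorem kpAt_of_nodal (M p : ℕ) [NeZero M] (hp : p.Prime) (A₀ : ValuationSubring Qb)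
    (hA₀ : A₀.LiesOverPrime p)
    (N : NodalSetup Qb (modularFunctionFieldBar M) k Fk₁ Fk₂ ι)
    (hinert : ∀ τ ∈ A₀.inertiaSubgroupIn ℚ,
      N.IsInertial (arithmeticGalois (modularFunctionFieldFull M) τ))
    (hrel : N.GenusRel) {m₀ : ℕ} (hm₀ : 0 < m₀)
    (hTK : ∀ n : ℕ, 0 < n → ¬ p ∣ n →
      ∀ t : SemilinearAut Qb (modularFunctionFieldBar M), N.IsInertial t →
        ∀ x ∈ N.W0 n, t • x = x)
    (hTB : ∀ n : ℕ, 0 < n → ¬ p ∣ n →
      (N.W0 n).Finite ∧ (N.W0 n).ncard ≤ n ^ (Fintype.card ι - 1))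
    (hFTT : ∀ n : ℕ, 0 < n → ¬ p ∣ n → ∀ x : JZero M, n • x = 0 →
      (∀ σ ∈ A₀.inertiaSubgroupIn ℚ, σ • x = x) → m₀ • x ∈ N.W0 n) :
    KpAt M p := by
  refine kpAt_of_inputs_one M p hp hm₀ (fun n hn _ => ?_) A₀ hA₀ fun n hn hpn =>
    ⟨kpInputs_of_nodal M A₀ N hinert hrel hn (hTK n hn hpn) (hTB n hn hpn) (hFTT n hn hpn)⟩
  have h1 := torsLB_ncard M hn
  have h2 : Nat.card (torsN (JZero M) n) = {x : JZero M | n • x = 0}.ncard := rfl
  rw [h2]
  exact h1

end Fermat.Agent.EKp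
end
end MergeWrap_E_Desc_Kp_ModTop

section MergeWrap_Lib_BadRed_Nodal_Gluing_ToricKey -- from Lib/BadRed/Nodal/Gluing/ToricKey.lean

set_option autoImplicit false

/-!
# Cluster T, WP N3 (gluing): final statements

* `abstractToricKey` : `KeyConclusion N → AbstractToricKeyStatement N` (inertia acts trivially on
  the toric part), for an infinite residue field;
* `isFrobLike_of_isInertial` : inertial automorphisms are Frobenius-like with `Q = 1`;
* `exists_gData_of_isW0Div` : gluing data of a `W₀`-divisor (`K` algebraically closed);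
* `smul_eq_nsmul_of_mem_W0` : a Frobenius-like semilinear automorphism acts as `Q` on `W₀[n]`
  (in `Pic⁰`).
-/

noncomputable section

open AlgebraicCurve Fermat.Agent.RR Fermat.Agent.Deuring

namespace Fermat.Agent.BadRed.Gluing

variable {K F k Fk₁ Fk₂ ι : Type*} [Field K] [Field F] [Algebra K F]
  [Field k] [Field Fk₁] [Algebra k Fk₁] [Field Fk₂] [Algebra k Fk₂]

theorem keyConcl_iff (N : NodalSetup K F k Fk₁ Fk₂ ι) : KeyConcl N ↔ KeyConclusion N := Iff.rfl

/-- **(E1'), abstract form**: inertial automorphisms act trivially on the toric part. -/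
theorem abstractToricKey [Fintype ι] [Infinite k] (N : NodalSetup K F k Fk₁ Fk₂ ι)
    (hKey : KeyConclusion N) : AbstractToricKeyStatement N :=
  abstractToricKey_of_ordinary N hKey (exists_ordinary_rep N)

variable {N : NodalSetup K F k Fk₁ Fk₂ ι} {n : ℕ}

/-- inertial automorphisms are Frobenius-like with `Q = 1`. -/
theorem isFrobLike_of_isInertial {t : SemilinearAut K F} (ht : N.IsInertial t) :
    IsFrobLike N t 1 (RingHom.id Fk₁) (RingHom.id Fk₂) where
  mem₁ := ht.mem₁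
  red₁ := ht.red₁
  mem₂ := ht.mem₂
  red₂ := ht.red₂
  const₁ c := by rw [pow_one]; rfl
  const₂ c := by rw [pow_one]; rfl
  node₁ _ _ h := h
  node₂ _ _ h := h
  ord_smul P hP := by
    obtain ⟨Q, hQ⟩ := hP
    exact ⟨Q, by rw [ht.r_smul, hQ]⟩

/-- gluing data of a `W₀`-divisor. -/
theorem exists_gData_of_isW0Div [IsAlgClosed K] (hn : n ≠ 0) {D : Divisor K F}
    (hdeg : Divisor.degree D = 0) (h : N.IsW0Div n D) :
    ∃ d : GData N n, d.D = D ∧ d.g = h.choose := by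
  obtain ⟨hg, hdiv, ⟨c₁, hc₁, h₁, hh₁, hred₁⟩, ⟨c₂, hc₂, h₂, hh₂, hred₂⟩⟩ := h.choose_spec
  obtain ⟨c₀, hc₀⟩ := IsAlgClosed.exists_pow_nat_eq (c₁ / c₂) (Nat.pos_of_ne_zero hn)
  have hc₀0 : c₀ ≠ 0 := by
    rintro rfl
    rw [zero_pow hn] at hc₀
    exact div_ne_zero hc₁ hc₂ hc₀.symm
  exact ⟨⟨D, h.choose, c₁, c₂, c₀, h₁, h₂, hdeg, hg, hdiv, hc₁, hc₂, hc₀0, hh₁, hh₂, hred₁, hred₂,
    hc₀⟩, rfl, rfl⟩

/-- **(P2)**: a Frobenius-like semilinear automorphism acts as multiplication by `Q` on the toric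
part `W₀[n]` of `Pic⁰`. -/
theorem smul_eq_nsmul_of_mem_W0 [Fintype ι] [Infinite k] [IsAlgClosed K] (hKey : KeyConcl N)
    (hrel : N.GenusRel) (hn0 : (n : K) ≠ 0) (hnA : ((n : K))⁻¹ ∈ N.S₁.A)
    {t : SemilinearAut K F} {Q : ℕ} {τ₁ : Fk₁ →+* Fk₁} {τ₂ : Fk₂ →+* Fk₂}
    (ht : IsFrobLike N t Q τ₁ τ₂) {x : Pic0 K F} (hx : x ∈ N.W0 n) : t • x = Q • x := by
  have hn : n ≠ 0 := by
    rintro rfl
    exact hn0 Nat.cast_zero
  obtain ⟨D, rfl, hD⟩ := hx
  obtain ⟨d, hdD, -⟩ := exists_gData_of_isW0Div hn D.2 hD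
  have hprin := smul_sub_nsmul_mem_principal hKey hrel hn0 hnA ht d
  rw [hdD] at hprin
  rw [SemilinearAut.pic0_smul_mk]
  have e : Q • Pic0.mk D = Pic0.mk (Q • D) := rfl
  rw [e]
  unfold Pic0.mk
  rw [QuotientAddGroup.eq, AddSubgroup.mem_addSubgroupOf]
  have e2 : ((-(SemilinearAut.degZeroSMulHom t D) + Q • D : Divisor.degZero (K := K) (F := F)) :
      Divisor K F) = -(t • (D : Divisor K F) - Q • (D : Divisor K F)) := by
    simp only [AddSubgroup.coe_add, NegMemClass.coe_neg, SemilinearAut.coe_degZeroSMulHom,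
      AddSubgroup.coe_nsmul]
    abel
  rw [e2]
  exact neg_mem hprin

/-- inertial automorphisms act trivially on `W₀[n]`. -/
theorem smul_eq_of_mem_W0 [Fintype ι] [Infinite k] [IsAlgClosed K] (hKey : KeyConcl N)
    (hrel : N.GenusRel) (hn0 : (n : K) ≠ 0) (hnA : ((n : K))⁻¹ ∈ N.S₁.A)
    {t : SemilinearAut K F} (ht : N.IsInertial t) {x : Pic0 K F} (hx : x ∈ N.W0 n) :
    t • x = x := by
  have h := smul_eq_nsmul_of_mem_W0 hKey hrel hn0 hnA (isFrobLike_of_isInertial ht) hx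
  rwa [one_smul] at h

end Fermat.Agent.BadRed.Gluing
end
end MergeWrap_Lib_BadRed_Nodal_Gluing_ToricKey

section MergeWrap_Lib_BadRed_Nodal_ToricBound -- from Lib/BadRed/Nodal/ToricBound.lean

set_option autoImplicit false

/-!
# Cluster T / DESC-Kp leaf KP-TB: the toric bound `|W₀[n]| ≤ n ^ (s - 1)`

For a nodal reduction package `N` with `s` nodes (`K` algebraically closed, infinite residue field,
the conclusion of the nodal KEY LEMMA), and `n` a unit of the valuation ring: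

* `toricBound` : `ToricBoundStatement N`, i.e. `W₀[n]` is finite of cardinality `≤ n ^ (s - 1)`.

Proof: fix a big base divisor `R`.  Every `x ∈ W₀[n]` has gluing data `d` with a gluing invariant
`ζ : ι → μ_n(k)` (`Gluing/Ordinary.lean`); rescaling the root `h₁` by `ζ(i₀)⁻¹` normalises
`ζ(i₀) = 1`.  The class `x` is determined by `ζ` (`GData.sub_mem_principal_of_isGlueAt`, the
INJECTIVITY of the gluing map), and there are at most `n ^ (s - 1)` normalised invariants.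
-/

noncomputable section

open AlgebraicCurve Fermat.Agent.RR Fermat.Agent.Deuring

namespace Fermat.Agent.BadRed.Gluing

variable {K F k Fk₁ Fk₂ ι : Type*} [Field K] [Field F] [Algebra K F]
  [Field k] [Field Fk₁] [Algebra k Fk₁] [Field Fk₂] [Algebra k Fk₂]
  {N : NodalSetup K F k Fk₁ Fk₂ ι} {n : ℕ}

/-- rescaling the first root `h₁` of gluing data by an `n`-th root of unity. -/
def GData.scaleData (d : GData N n) (z : k) (hz0 : z ≠ 0) (hz : z ^ n = 1) : GData N n where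
  D := d.D
  g := d.g
  c₁ := d.c₁
  c₂ := d.c₂
  c₀ := d.c₀
  h₁ := z • d.h₁
  h₂ := d.h₂
  hdeg := d.hdeg
  hg := d.hg
  hdiv := d.hdiv
  hc₁ := d.hc₁
  hc₂ := d.hc₂
  hc₀0 := d.hc₀0
  hh₁ := smul_ne_zero hz0 d.hh₁
  hh₂ := d.hh₂
  hred₁ := by
    rw [smul_pow, hz, one_smul]
    exact d.hred₁
  hred₂ := d.hred₂
  hc₀ := d.hc₀

theorem GData.scaleData_D (d : GData N n) (z : k) (hz0 : z ≠ 0) (hz : z ^ n = 1) :
    (d.scaleData z hz0 hz).D = d.D := rfl

theorem GData.scaleData_A (d : GData N n) (z : k) (hz0 : z ≠ 0) (hz : z ^ n = 1) (φ : F) :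
    (d.scaleData z hz0 hz).A φ = z • d.A φ := by
  unfold GData.A
  show N.S₁.red φ * (z • d.h₁) = z • (N.S₁.red φ * d.h₁)
  rw [mul_smul_comm]

theorem GData.scaleData_B (d : GData N n) (z : k) (hz0 : z ≠ 0) (hz : z ^ n = 1) (φ : F) :
    (d.scaleData z hz0 hz).B φ = d.B φ := rfl

theorem GData.scaleData_inLam (d : GData N n) (z : k) (hz0 : z ≠ 0) (hz : z ^ n = 1)
    {R : Divisor K F} {φ : F} (hφ : d.InLam R φ) : (d.scaleData z hz0 hz).InLam R φ := hφ

/-- the gluing invariant of the rescaled data is `z * ζ`. -/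
theorem GData.isGlueAt_scaleData [Fintype ι] [Infinite k] (hn : n ≠ 0) (hrel : N.GenusRel)
    (d : GData N n) (z : k) (hz0 : z ≠ 0) (hz : z ^ n = 1) {R : Divisor K F} (hR : IsBig N R)
    {ζ : ι → k} (hζ : d.IsGlueAt R ζ) :
    (d.scaleData z hz0 hz).IsGlueAt R (fun i => z * ζ i) := by
  obtain ⟨a, b, hab, hgen⟩ := exists_isGenericPair hn hζ.1 hR
  obtain ⟨φ, hφ0, hφ, hA, hB, -⟩ := d.exists_lift_generic hn hR hζ hab hgen
  refine GData.isGlueAt_of_witness hn hrel hR hR le_rfl (d.scaleData_inLam z hz0 hz hφ)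
    fun i => ⟨1, one_ne_zero, ?_, ?_⟩
  · rw [mul_one, d.scaleData_A, hA]
    exact (hgen.2.2 i).1.smul z
  · rw [d.scaleData_B, hB]
    exact (hgen.2.2 i).2

/-- counting through a relation which is injective in the first variable. -/
theorem finite_ncard_le_of_rel {α β : Type*} (s : Set α) (t : Finset β) (P : α → β → Prop)
    (hex : ∀ x ∈ s, ∃ z ∈ t, P x z) (hinj : ∀ x y z, P x z → P y z → x = y) :
    s.Finite ∧ s.ncard ≤ t.card := by
  classical
  choose f hf using fun x : s => hex x.1 x.2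
  let f' : s → t := fun x => ⟨f x, (hf x).1⟩
  have hinj' : Function.Injective f' := by
    intro x y hxy
    have e : f x = f y := congrArg Subtype.val hxy
    apply Subtype.ext
    exact hinj x.1 y.1 (f x) (hf x).2 (by rw [e]; exact (hf y).2)
  have hfin : Finite s := Finite.of_injective f' hinj'
  refine ⟨Set.toFinite s, ?_⟩
  have h1 : Nat.card s ≤ Nat.card t := Nat.card_le_card_of_injective f' hinj'
  rwa [Nat.card_coe_set_eq, Nat.card_eq_fintype_card, Fintype.card_coe] at h1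

/-- the finite set of normalised gluing invariants. -/
def normInv [Fintype ι] [DecidableEq ι] (k : Type*) [Field k] (n : ℕ) (i₀ : ι) :
    Finset (ι → k) :=
  Fintype.piFinset fun i : ι =>
    if i = i₀ then ({1} : Finset k) else Polynomial.nthRootsFinset n (1 : k)

theorem mem_normInv [Fintype ι] [DecidableEq ι] (hn : 0 < n) (i₀ : ι) {ζ : ι → k}
    (hζ : ∀ i, ζ i ^ n = 1) (h0 : ζ i₀ = 1) : ζ ∈ normInv k n i₀ := by
  unfold normInv
  rw [Fintype.mem_piFinset]
  intro i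
  by_cases hi : i = i₀
  · rw [if_pos hi, Finset.mem_singleton, hi]
    exact h0
  · rw [if_neg hi, Polynomial.mem_nthRootsFinset hn]
    exact hζ i

theorem card_normInv_le [Fintype ι] [DecidableEq ι] (n : ℕ) (i₀ : ι) :
    (normInv k n i₀).card ≤ n ^ (Fintype.card ι - 1) := by
  classical
  unfold normInv
  rw [Fintype.card_piFinset]
  have h1 : ∀ i : ι, (if i = i₀ then ({1} : Finset k)
      else Polynomial.nthRootsFinset n (1 : k)).card ≤ (if i = i₀ then 1 else n) := by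
    intro i
    by_cases hi : i = i₀
    · rw [if_pos hi, if_pos hi, Finset.card_singleton]
    · rw [if_neg hi, if_neg hi]
      rw [Polynomial.nthRootsFinset_def]
      exact (Multiset.toFinset_card_le _).trans (Polynomial.card_nthRoots n 1)
  refine (Finset.prod_le_prod (fun i _ => Nat.zero_le _) (fun i _ => h1 i)).trans ?_
  have h2 : ∏ i : ι, (if i = i₀ then 1 else n) = ∏ i ∈ Finset.univ.erase i₀, n := by
    rw [← Finset.prod_erase (Finset.univ : Finset ι) (a := i₀) (by rw [if_pos rfl])]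
    exact Finset.prod_congr rfl fun i hi => if_neg (Finset.ne_of_mem_erase hi)
  rw [h2, Finset.prod_const, Finset.card_erase_of_mem (Finset.mem_univ _), Finset.card_univ]

/-- two gluing data with the same gluing invariant define the same class. -/
theorem GData.mk_eq_of_isGlueAt [Fintype ι] (hKey : KeyConcl N)
    (hn0 : (n : K) ≠ 0) (hnA : ((n : K))⁻¹ ∈ N.S₁.A) (d d' : GData N n)
    {R : Divisor K F} (hR : IsBig N R) {ζ : ι → k} (hζ : d.IsGlueAt R ζ)
    (hζ' : d'.IsGlueAt R ζ) :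
    Pic0.mk (⟨d.D, d.hdeg⟩ : Divisor.degZero (K := K) (F := F)) =
      Pic0.mk (⟨d'.D, d'.hdeg⟩ : Divisor.degZero (K := K) (F := F)) := by
  have hprin := GData.sub_mem_principal_of_isGlueAt hKey hn0 hnA d d' hR hζ hζ'
  unfold Pic0.mk
  rw [QuotientAddGroup.eq, AddSubgroup.mem_addSubgroupOf]
  have e : ((-(⟨d.D, d.hdeg⟩ : Divisor.degZero (K := K) (F := F)) +
      (⟨d'.D, d'.hdeg⟩ : Divisor.degZero (K := K) (F := F)) :
      Divisor.degZero (K := K) (F := F)) : Divisor K F) = -(d.D - d'.D) := by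
    simp only [AddSubgroup.coe_add, NegMemClass.coe_neg]
    abel
  rw [e]
  exact neg_mem hprin

/-- **(RK) the toric bound**: `W₀[n]` is finite of cardinality at most `n ^ (s - 1)`. -/
theorem toricBound [Fintype ι] [Infinite k] [IsAlgClosed K] (N : NodalSetup K F k Fk₁ Fk₂ ι)
    (hKey : KeyConcl N) : ToricBoundStatement N := by
  classical
  intro hrel n hn0 hnA
  have hn : n ≠ 0 := by
    rintro rfl
    exact hn0 Nat.cast_zero
  obtain ⟨R, hR⟩ := exists_isBig N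
  let P : Pic0 K F → (ι → k) → Prop := fun x ζ =>
    ∃ d : GData N n,
      Pic0.mk (⟨d.D, d.hdeg⟩ : Divisor.degZero (K := K) (F := F)) = x ∧ d.IsGlueAt R ζ
  have hinj : ∀ x y ζ, P x ζ → P y ζ → x = y := by
    rintro x y ζ ⟨d, rfl, hd⟩ ⟨d', rfl, hd'⟩
    exact GData.mk_eq_of_isGlueAt hKey hn0 hnA d d' hR hd hd'
  have hex : ∀ x ∈ N.W0 n, ∃ d : GData N n,
      Pic0.mk (⟨d.D, d.hdeg⟩ : Divisor.degZero (K := K) (F := F)) = x := by
    rintro x ⟨D, rfl, hD⟩
    obtain ⟨d, hdD, -⟩ := exists_gData_of_isW0Div hn D.2 hD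
    exact ⟨d, congrArg Pic0.mk (Subtype.ext hdD)⟩
  rcases isEmpty_or_nonempty ι with hι | ⟨⟨i₀⟩⟩
  · have hcard : Fintype.card ι = 0 := Fintype.card_eq_zero
    rw [hcard, Nat.zero_sub, pow_zero]
    have := finite_ncard_le_of_rel (N.W0 n) ({fun _ => 1} : Finset (ι → k)) P (fun x hx => by
      obtain ⟨d, hd⟩ := hex x hx
      obtain ⟨ζ, hζ⟩ := d.exists_isGlueAt hn hrel hR
      refine ⟨ζ, ?_, d, hd, hζ⟩
      rw [Finset.mem_singleton]
      exact Subsingleton.elim _ _) hinj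
    rwa [Finset.card_singleton] at this
  · have := finite_ncard_le_of_rel (N.W0 n) (normInv k n i₀) P (fun x hx => by
      obtain ⟨d, hd⟩ := hex x hx
      obtain ⟨ζ, hζ⟩ := d.exists_isGlueAt hn hrel hR
      have hz0 : ζ i₀ ≠ 0 := ne_zero_of_pow_eq_one hn (hζ.1 i₀)
      have hz : (ζ i₀)⁻¹ ^ n = 1 := by rw [inv_pow, hζ.1 i₀, inv_one]
      have hζ' := d.isGlueAt_scaleData hn hrel (ζ i₀)⁻¹ (inv_ne_zero hz0) hz hR hζ
      refine ⟨fun i => (ζ i₀)⁻¹ * ζ i, mem_normInv (Nat.pos_of_ne_zero hn) i₀ hζ'.1 ?_,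
        d.scaleData (ζ i₀)⁻¹ (inv_ne_zero hz0) hz, hd, hζ'⟩
      exact inv_mul_cancel₀ hz0) hinj
    exact ⟨this.1, this.2.trans (card_normInv_le n i₀)⟩

end Fermat.Agent.BadRed.Gluing
end
end MergeWrap_Lib_BadRed_Nodal_ToricBound

section MergeWrap_Lib_BadRed_Nodal_ToricBoundSeed -- from Lib/BadRed/Nodal/ToricBoundSeed.lean

set_option autoImplicit false

/-!
# Cluster T / DESC-Kp leaf KP-TB: the toric package of a SEED, unconditional

For a seed `N : NodalSeed K F k Fk₁ Fk₂ ι` (`K`, `k` algebraically closed, at least one node):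

* `NodalSeed.keyConcl` : the conclusion of the nodal KEY LEMMA for `N.nodalSetup`;
* `NodalSeed.toricBound` : `ToricBoundStatement N.nodalSetup`;
* `NodalSeed.finite_W0`, `NodalSeed.ncard_W0_le` : `W₀[n]` is finite, `|W₀[n]| ≤ n ^ (s - 1)`;
* `NodalSeed.smul_eq_of_mem_W0` : inertial automorphisms fix `W₀[n]` pointwise (in `Pic⁰`);
* `NodalSeed.smul_eq_nsmul_of_mem_W0` : Frobenius-like automorphisms act as `Q` on `W₀[n]`.
-/

noncomputable section

open AlgebraicCurve Fermat.Agent.RR Fermat.Agent.Deuring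

namespace Fermat.Agent.BadRed

variable {K F k Fk₁ Fk₂ : Type*} [Field K] [Field F] [Algebra K F]
  [Field k] [Field Fk₁] [Algebra k Fk₁] [Field Fk₂] [Algebra k Fk₂] {ι : Type*} [Fintype ι]
  [IsAlgClosed k] [Infinite k] [Nonempty ι]

/-- the conclusion of the nodal KEY LEMMA for the nodal package of a seed. -/
theorem NodalSeed.keyConcl (N : NodalSeed K F k Fk₁ Fk₂ ι) : Gluing.KeyConcl N.nodalSetup :=
  Gluing.keyConcl_of_lift N.nodalSetup N.D₀ N.R₁ N.R₂ N.nodalSetup_genusRel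
    N.R₁_pos N.R₂_pos N.R₁_node N.R₂_node N.nodalSetup_hasLift

/-- **(RK) the toric bound** for the nodal package of a seed. -/
theorem NodalSeed.toricBound [IsAlgClosed K] (N : NodalSeed K F k Fk₁ Fk₂ ι) :
    ToricBoundStatement N.nodalSetup :=
  Gluing.toricBound N.nodalSetup N.keyConcl

/-- `W₀[n]` is finite. -/
theorem NodalSeed.finite_W0 [IsAlgClosed K] (N : NodalSeed K F k Fk₁ Fk₂ ι) {n : ℕ}
    (hn0 : (n : K) ≠ 0) (hnA : ((n : K))⁻¹ ∈ N.S₁.A) : (N.nodalSetup.W0 n).Finite :=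
  (N.toricBound N.nodalSetup_genusRel n hn0 hnA).1

/-- `|W₀[n]| ≤ n ^ (s - 1)`. -/
theorem NodalSeed.ncard_W0_le [IsAlgClosed K] (N : NodalSeed K F k Fk₁ Fk₂ ι) {n : ℕ}
    (hn0 : (n : K) ≠ 0) (hnA : ((n : K))⁻¹ ∈ N.S₁.A) :
    (N.nodalSetup.W0 n).ncard ≤ n ^ (Fintype.card ι - 1) :=
  (N.toricBound N.nodalSetup_genusRel n hn0 hnA).2

/-- Frobenius-like automorphisms act as multiplication by `Q` on `W₀[n]`. -/
theorem NodalSeed.smul_eq_nsmul_of_mem_W0 [IsAlgClosed K] (N : NodalSeed K F k Fk₁ Fk₂ ι) {n : ℕ}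
    (hn0 : (n : K) ≠ 0) (hnA : ((n : K))⁻¹ ∈ N.S₁.A)
    {t : SemilinearAut K F} {Q : ℕ} {τ₁ : Fk₁ →+* Fk₁} {τ₂ : Fk₂ →+* Fk₂}
    (ht : Gluing.IsFrobLike N.nodalSetup t Q τ₁ τ₂) {x : Pic0 K F} (hx : x ∈ N.nodalSetup.W0 n) :
    t • x = Q • x :=
  Gluing.smul_eq_nsmul_of_mem_W0 N.keyConcl N.nodalSetup_genusRel hn0 hnA ht hx

/-- inertial automorphisms fix `W₀[n]` pointwise. -/
theorem NodalSeed.smul_eq_of_mem_W0 [IsAlgClosed K] (N : NodalSeed K F k Fk₁ Fk₂ ι) {n : ℕ}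
    (hn0 : (n : K) ≠ 0) (hnA : ((n : K))⁻¹ ∈ N.S₁.A) {t : SemilinearAut K F}
    (ht : N.nodalSetup.IsInertial t) {x : Pic0 K F} (hx : x ∈ N.nodalSetup.W0 n) : t • x = x :=
  Gluing.smul_eq_of_mem_W0 N.keyConcl N.nodalSetup_genusRel hn0 hnA ht hx

end Fermat.Agent.BadRed
end
end MergeWrap_Lib_BadRed_Nodal_ToricBoundSeed

section MergeWrap_E_Desc_Kp_ModFinal -- from E/Desc/Kp/ModFinal.lean

set_option autoImplicit false
set_option linter.style.haveILetI false
set_option linter.unusedSectionVars false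
set_option synthInstance.maxHeartbeats 400000

noncomputable section

namespace Fermat.Agent.EKp

open IntermediateField ModularCurve AlgebraicCurve Fermat.Agent.F3 Fermat.Agent.F3G
  Fermat.Agent.GaussInt Fermat.Agent.AtkinLehner Fermat.Agent.Deuring Fermat.Agent.RR
  Fermat.Agent.BadRed

local notation "Qb" => AlgebraicClosure ℚ

attribute [local instance] Fermat.Agent.BadRed.fwFintype

section

variable (D : ALData) [NeZero D.Q] [NeZero D.R] [NeZero (D.Q * D.R)]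
  (A : ValuationSubring Qb) (hq : D.Q.Prime) (hA : A.LiesOverPrime D.Q) (hqR : ¬ D.Q ∣ D.R)
  [Fact D.Q.Prime] [CharP (IsLocalRing.ResidueField A) D.Q]
  [PerfectRing (IsLocalRing.ResidueField A) D.Q]

/-- the modular seed behind `kpN`. -/
def kpSeed (haux : AuxLevelOK D.Q D.R) :
    NodalSeed Qb (modularFunctionFieldBar (D.Q * D.R)) (IsLocalRing.ResidueField A)
      (modularFunctionFieldFullC (IsLocalRing.ResidueField A) D.R)
      (modularFunctionFieldFullC (IsLocalRing.ResidueField A) D.R) (kpIota D A hq hA hqR) :=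
  fwSeed D A hq hA hqR (kpS D A hq hA hqR) (isGaussSetup_gaussSetupBad D hq hqR A hA)
    (hasLattice_gaussSetupBad D hq hqR A hA) haux
    (fw_sep D A hq hA hqR _ (isGaussSetup_gaussSetupBad D hq hqR A hA) haux)

theorem kpSeed_nodalSetup (haux : AuxLevelOK D.Q D.R) :
    haveI := Fermat.Agent.GaussInt.infinite_residue A
    (kpSeed D A hq hA hqR haux).nodalSetup = kpN D A hq hA hqR haux := rfl

theorem kp_natCast_inv_mem {n : ℕ} (hpn : ¬ D.Q ∣ n) (haux : AuxLevelOK D.Q D.R) :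
    ((n : Qb))⁻¹ ∈ (kpSeed D A hq hA hqR haux).S₁.A := by
  have h1 : (kpSeed D A hq hA hqR haux).S₁.A = A :=
    (isGaussSetup_gaussSetupBad D hq hqR A hA).A_eq
  rw [h1]
  exact Fermat.Agent.GaussInt.natCast_inv_mem_of_not_dvd A hq hA hpn

/-- **(TK)** for the modular nodal setup. -/
theorem kp_mod_TK (haux : AuxLevelOK D.Q D.R) {n : ℕ} (hn : 0 < n) (hpn : ¬ D.Q ∣ n)
    (t : SemilinearAut Qb (modularFunctionFieldBar (D.Q * D.R)))
    (ht : (kpN D A hq hA hqR haux).IsInertial t)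
    (x : Pic0 Qb (modularFunctionFieldBar (D.Q * D.R)))
    (hx : x ∈ (kpN D A hq hA hqR haux).W0 n) : t • x = x := by
  haveI := Fermat.Agent.GaussInt.isAlgClosed_residue A
  haveI := Fermat.Agent.GaussInt.infinite_residue A
  haveI := fw_nonempty D A hq hA (kpS D A hq hA hqR) (isGaussSetup_gaussSetupBad D hq hqR A hA)
  exact NodalSeed.smul_eq_of_mem_W0 (kpSeed D A hq hA hqR haux) (modTop_natCast_ne_zero hn)
    (kp_natCast_inv_mem D A hq hA hqR hpn haux) ht hx

/-- **(TB)** for the modular nodal setup. -/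
theorem kp_mod_TB (haux : AuxLevelOK D.Q D.R) {n : ℕ} (hn : 0 < n) (hpn : ¬ D.Q ∣ n) :
    ((kpN D A hq hA hqR haux).W0 n).Finite ∧
      ((kpN D A hq hA hqR haux).W0 n).ncard ≤ n ^ (Fintype.card (kpIota D A hq hA hqR) - 1) := by
  haveI := Fermat.Agent.GaussInt.isAlgClosed_residue A
  haveI := Fermat.Agent.GaussInt.infinite_residue A
  haveI := fw_nonempty D A hq hA (kpS D A hq hA hqR) (isGaussSetup_gaussSetupBad D hq hqR A hA)
  exact ⟨NodalSeed.finite_W0 (kpSeed D A hq hA hqR haux) (modTop_natCast_ne_zero hn)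
      (kp_natCast_inv_mem D A hq hA hqR hpn haux),
    NodalSeed.ncard_W0_le (kpSeed D A hq hA hqR haux) (modTop_natCast_ne_zero hn)
      (kp_natCast_inv_mem D A hq hA hqR hpn haux)⟩

/-- the inertia group fixes the cusp `∞`. -/
theorem kpΓ_cuspPlace :
    ∀ t ∈ kpΓ D A, t • Fermat.Agent.S17.Setup.cuspPlace (D.Q * D.R) =
      Fermat.Agent.S17.Setup.cuspPlace (D.Q * D.R) := by
  rintro t ⟨τ, -, rfl⟩
  exact Fermat.Agent.S17.Setup.galPlace_cuspPlace (D.Q * D.R) τ

/-- **(FTT)** for the modular nodal setup, from ANN + FIX and ORDT. -/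
theorem kp_mod_FTT (haux : AuxLevelOK D.Q D.R) {c n d : ℕ}
    (hAF : AnnFix (kpN D A hq hA hqR haux) (kpΓ D A) c)
    (hOT : OrdToric (kpN D A hq hA hqR haux) n d)
    (x : JZero (D.Q * D.R)) (hx : n • x = 0)
    (hfix : ∀ σ ∈ A.inertiaSubgroupIn ℚ, σ • x = x) :
    (c * d) • x ∈ (kpN D A hq hA hqR haux).W0 n := by
  refine ftt (Fermat.Agent.RRMod.isRRField_bar (D.Q * D.R)) (kpN D A hq hA hqR haux)
    (Fermat.Agent.S17.Setup.cuspPlace (D.Q * D.R)) (kpΓ D A) (kpΓ_cuspPlace D A)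
    (kpΓ_isInertial D A hq hA hqR haux) hAF hOT x hx ?_
  rintro t ⟨τ, hτ, rfl⟩
  exact hfix τ hτ

/-- **KP-MOD, level `q R`**: (K-p) from the modular leaves at ONE place `A | q`. -/
theorem kpAt_of_mod (haux : AuxLevelOK D.Q D.R) {c : ℕ} (hc : 0 < c)
    (hAF : AnnFix (kpN D A hq hA hqR haux) (kpΓ D A) c)
    (hU : ModU D A hq hA hqR haux) :
    KpAt (D.Q * D.R) D.Q := by
  refine kpAt_of_nodal (D.Q * D.R) D.Q hq A hA (kpN D A hq hA hqR haux)
    (fun τ hτ => kpΓ_isInertial D A hq hA hqR haux _ ⟨τ, hτ, rfl⟩)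
    (kpN_genusRel D A hq hA hqR haux) (m₀ := c * kpD D A hq hA hqR)
    (Nat.mul_pos hc (kpD_pos D A hq hA hqR))
    (fun n hn hpn => kp_mod_TK D A hq hA hqR haux hn hpn)
    (fun n hn hpn => kp_mod_TB D A hq hA hqR haux hn hpn)
    (fun n _ _ x hx hfix => kp_mod_FTT D A hq hA hqR haux hAF (hU n) x hx hfix)

end

/-- the two modular leaves of (K-p) at the prime `p`: at SOME place over `p`, for SOME
Atkin-Lehner datum of level `p * 1`. -/
def KpModLeaves (p : ℕ) : Prop :=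
  ∀ (D : ALData), D.Q = p → D.R = 1 → ∀ (hq : D.Q.Prime) (hqR : ¬ D.Q ∣ D.R)
    (haux : AuxLevelOK D.Q D.R),
    ∃ (A : ValuationSubring Qb) (hA : A.LiesOverPrime D.Q),
      haveI : NeZero D.Q := ⟨hq.ne_zero⟩
      haveI : NeZero D.R := ⟨D.hR.ne'⟩
      haveI : NeZero (D.Q * D.R) := ⟨mul_ne_zero hq.ne_zero D.hR.ne'⟩
      haveI : Fact D.Q.Prime := ⟨hq⟩
      haveI : CharP (IsLocalRing.ResidueField A) D.Q :=
        Fermat.Agent.FrobTrace.charP_residueField A hA
      haveI : IsAlgClosed (IsLocalRing.ResidueField A) :=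
        Fermat.Agent.GaussInt.isAlgClosed_residue A
      haveI : PerfectRing (IsLocalRing.ResidueField A) D.Q := inferInstance
      (∃ c : ℕ, 0 < c ∧ AnnFix (kpN D A hq hA hqR haux) (kpΓ D A) c) ∧ ModU D A hq hA hqR haux

/-- **KP-MOD**: `KpStatement p` for a prime `p ≥ 5`, from the modular leaves. -/
theorem kpStatement_of_mod {p : ℕ} (hp : p.Prime) (h5 : 5 ≤ p) (h : KpModLeaves p) :
    KpStatement p := by
  obtain ⟨D, hDQ, hDR⟩ := ALData.exists_of_coprime hp.pos Nat.one_pos (Nat.coprime_one_right p)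
  have hq : D.Q.Prime := hDQ ▸ hp
  have hqR : ¬ D.Q ∣ D.R := ALData_not_dvd D hq
  have haux : AuxLevelOK D.Q D.R := AuxLevelOK.of_five_le (hDQ ▸ h5)
  obtain ⟨A, hA, ⟨c, hc, hAF⟩, hU⟩ := h D hDQ hDR hq hqR haux
  haveI : NeZero D.Q := ⟨hq.ne_zero⟩
  haveI : NeZero D.R := ⟨D.hR.ne'⟩
  haveI : NeZero (D.Q * D.R) := ⟨mul_ne_zero hq.ne_zero D.hR.ne'⟩
  haveI : Fact D.Q.Prime := ⟨hq⟩
  haveI : CharP (IsLocalRing.ResidueField A) D.Q :=
    Fermat.Agent.FrobTrace.charP_residueField A hA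
  haveI : IsAlgClosed (IsLocalRing.ResidueField A) :=
    Fermat.Agent.GaussInt.isAlgClosed_residue A
  haveI : PerfectRing (IsLocalRing.ResidueField A) D.Q := inferInstance
  have h1 : KpAt (D.Q * D.R) D.Q := kpAt_of_mod D A hq hA hqR haux hc hAF hU
  have h2 : D.Q * D.R = p := by rw [hDQ, hDR, mul_one]
  have h3 : KpAt p D.Q := kpAt_cast h2 h1
  rw [hDQ] at h3
  exact kpStatement_of_kpAt h3

end Fermat.Agent.EKp
end
end MergeWrap_E_Desc_Kp_ModFinal
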