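import Mathlib
import Fermat.Agent.MUL.E.Desc.Kp.ModU
import Fermat.Agent.MUL.S36.Seed.Ends

section MergeWrap_E_Desc_Kp_ModAnnFix -- from E/Desc/Kp/ModAnnFix.lean

set_option autoImplicit false
set_option linter.style.haveILetI false
set_option linter.unusedSectionVars false
set_option synthInstance.maxHeartbeats 400000

noncomputable section

namespace Fermat.Agent.EKp

open IntermediateField ModularCurve AlgebraicCurve Fermat.Agent.F3 Fermat.Agent.F3G
  Fermat.Agent.GaussInt Fermat.Agent.AtkinLehner Fermat.Agent.Deuring Fermat.Agent.RR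
  Fermat.Agent.BadRed

local notation "Qb" => AlgebraicClosure ℚ
local notation "GQb" => (AlgebraicClosure ℚ ≃ₐ[ℚ] AlgebraicClosure ℚ)

attribute [local instance] Fermat.Agent.BadRed.fwFintype

/-- (VI) for the inertia group, transported along an equality of valuation rings. -/
theorem kp_mod_VI_bk (p : ℕ) (hp : p.Prime) (A : ValuationSubring Qb) (hA : A.LiesOverPrime p)
    (B : ValuationSubring Qb) (hB : B = A) (M : ℕ) :
    VIStatement (F := modularFunctionFieldBar M) B
      {t | ∃ τ ∈ A.inertiaSubgroupIn ℚ, t = arithmeticGalois (modularFunctionFieldFull M) τ}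
      ((p : Qb) ^ 12) := by
  subst hB
  intro x hx hfix
  exact valI_twelve p hp B hA x hx (fun σ hσ => hfix _ ⟨σ, hσ, rfl⟩)

variable (D : ALData) [NeZero D.Q] [NeZero D.R] [NeZero (D.Q * D.R)]
  (A : ValuationSubring Qb) (hq : D.Q.Prime) (hA : A.LiesOverPrime D.Q) (hqR : ¬ D.Q ∣ D.R)
  [Fact D.Q.Prime] [CharP (IsLocalRing.ResidueField A) D.Q]
  [PerfectRing (IsLocalRing.ResidueField A) D.Q]

theorem kp_mod_annFix_bk (haux : AuxLevelOK D.Q D.R) :
    AnnFix (kpN D A hq hA hqR haux) (kpΓ D A) 12 := by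
  haveI := infinite_residue A
  haveI : FiniteDimensional Qb⟮fwU D⟯ (modularFunctionFieldBar (D.Q * D.R)) :=
    finiteDimensional_uF hq (Dvd.intro _ rfl)
  haveI : FiniteDimensional (IsLocalRing.ResidueField A)⟮(kpS D A hq hA hqR).red (fwU D)⟯
      (modularFunctionFieldFullC (IsLocalRing.ResidueField A) D.R) :=
    fw_finiteDimensional_red D A hq hA _ (isGaussSetup_gaussSetupBad D hq hqR A hA)
  haveI : FiniteDimensional (IsLocalRing.ResidueField A)⟮(valSetupZero D (kpS D A hq hA hqR)).red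
        (algebraMap Qb (modularFunctionFieldBar (D.Q * D.R)) (fwPi D) / fwU D)⟯
      (modularFunctionFieldFullC (IsLocalRing.ResidueField A) D.R) := by
    rw [fw_red_pi_div]
    exact fw_finiteDimensional_red D A hq hA _ (isGaussSetup_gaussSetupBad D hq hqR A hA)
  have hΓ := kpΓ_isInertial D A hq hA hqR haux
  have hΓu : ∀ t ∈ kpΓ D A, t • fwU D = fwU D := by
    rintro _ ⟨τ, -, rfl⟩
    exact arithmeticGalois_smul_uF (D.Q * D.R) D.Q (Dvd.intro _ rfl) τ
  have hVI : VIStatement (F := modularFunctionFieldBar (D.Q * D.R)) (kpS D A hq hA hqR).A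
      (kpΓ D A) (fwPi D) :=
    kp_mod_VI_bk D.Q hq A hA _ (isGaussSetup_gaussSetupBad D hq hqR A hA).A_eq (D.Q * D.R)
  have h : AnnFix
      (fwSeed D A hq hA hqR (kpS D A hq hA hqR) (isGaussSetup_gaussSetupBad D hq hqR A hA)
        (hasLattice_gaussSetupBad D hq hqR A hA) haux
        (fw_sep D A hq hA hqR _ (isGaussSetup_gaussSetupBad D hq hqR A hA) haux)).nodalSetup
      (kpΓ D A) 12 := by
    unfold fwSeed
    exact annFix_seedOfU _ _ _ _ _ _ _ _ _ _ _ _ _ _ _ _ _ _ (kpΓ D A) hΓ hΓu hVI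
  exact h

end Fermat.Agent.EKp
end
end MergeWrap_E_Desc_Kp_ModAnnFix
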