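import Mathlib
import Fermat.Agent.MUL.Lib.GenusEq.GenusFM
import Fermat.Agent.MUL.Lib.GenusEq.Inputs
import Fermat.Agent.MUL.E.Desc.Kp.ModFinal
import Fermat.Agent.MUL.E.Desc.Kp.ModU
import Fermat.Agent.MUL.E.Desc.Kp.ModAnnFix
import Fermat.Agent.MUL.Orig.Lib.Frobenius.Exists
import Fermat.Agent.MUL.E.S15.FinalTop

section MergeWrap_E_Desc_Kp_ModGenus -- from E/Desc/Kp/ModGenus.lean

set_option autoImplicit false
set_option synthInstance.maxHeartbeats 400000
set_option maxHeartbeats 1000000

noncomputable section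

namespace Fermat.Agent.EKp

open ModularCurve AlgebraicCurve

theorem modg_nuTwo_one : nuTwo 1 = 1 := by
  unfold nuTwo
  rw [Nat.card_eq_fintype_card]
  rfl

theorem modg_nuThree_one : nuThree 1 = 1 := by
  unfold nuThree
  rw [Nat.card_eq_fintype_card]
  rfl

theorem modg_genusFormula_one : genusFormula 1 = 0 := by
  rw [genusFormula, dedekindPsi_one, modg_nuTwo_one, modg_nuThree_one, cuspCount_one]
  norm_num

/-- the function field of `X₀(1)` over `ℚ̄` has genus `0`. -/
theorem modg_genusFF_bar_one :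
    genusFF (AlgebraicClosure ℚ) ↥(modularFunctionFieldBar 1) = 0 := by
  have h := Fermat.Agent.GenusEq.genusFF_modularFunctionFieldBar 1
  rw [modg_genusFormula_one] at h
  exact_mod_cast h

/-- **MOD-g**: the function field of `X₀(1)` over the residue field of a place of `ℚ̄` has
genus `0`. -/
theorem modg_genusFF_fullC_one {ℓ : ℕ} (hℓ : ℓ.Prime) (A : ValuationSubring (AlgebraicClosure ℚ))
    (hA : A.LiesOverPrime ℓ) :
    genusFF (IsLocalRing.ResidueField A)
      ↥(modularFunctionFieldFullC (IsLocalRing.ResidueField A) 1) = 0 := by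
  have h := Fermat.Agent.GenusEq.genusLe 1 ℓ hℓ
    (fun h1 => hℓ.one_lt.ne' (Nat.dvd_one.mp h1)) A hA
  rw [modg_genusFF_bar_one] at h
  exact Nat.le_zero.mp h

end Fermat.Agent.EKp
end
end MergeWrap_E_Desc_Kp_ModGenus

section MergeWrap_E_Desc_Kp_ModClose -- from E/Desc/Kp/ModClose.lean

set_option autoImplicit false
set_option linter.style.haveILetI false
set_option linter.unusedSectionVars false
set_option synthInstance.maxHeartbeats 400000

noncomputable section

namespace Fermat.Agent.EKp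

open IntermediateField ModularCurve AlgebraicCurve Fermat.Agent.F3 Fermat.Agent.F3G
  Fermat.Agent.GaussInt Fermat.Agent.AtkinLehner Fermat.Agent.Deuring Fermat.Agent.RR
  Fermat.Agent.BadRed

local notation "Qb" => AlgebraicClosure ℚ

attribute [local instance] Fermat.Agent.BadRed.fwFintype

/-- MOD-g with a variable level. -/
theorem kp_modG_aux {ℓ : ℕ} (hℓ : ℓ.Prime) (A : ValuationSubring Qb) (hA : A.LiesOverPrime ℓ)
    (R : ℕ) (hR : R = 1) :
    genusFF (IsLocalRing.ResidueField A)
      (modularFunctionFieldFullC (IsLocalRing.ResidueField A) R) = 0 := by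
  subst hR
  exact modg_genusFF_fullC_one hℓ A hA

/-- **MOD-g** for an Atkin-Lehner datum of level `q * 1`. -/
theorem kp_modG_of_eq_one (D : ALData) (A : ValuationSubring Qb) (hq : D.Q.Prime)
    (hA : A.LiesOverPrime D.Q) (hDR : D.R = 1) : ModG D A :=
  kp_modG_aux hq A hA D.R hDR

/-- the modular leaves of (K-p) hold. -/
theorem kpModLeaves_all (p : ℕ) : KpModLeaves p := by
  intro D _ hDR hq hqR haux
  obtain ⟨A, hA⟩ := Fermat.Agent.FrobExists.exists_valuationSubring_liesOver D.Q hq
  haveI : NeZero D.Q := ⟨hq.ne_zero⟩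
  haveI : NeZero D.R := ⟨D.hR.ne'⟩
  haveI : NeZero (D.Q * D.R) := ⟨mul_ne_zero hq.ne_zero D.hR.ne'⟩
  haveI : Fact D.Q.Prime := ⟨hq⟩
  haveI : CharP (IsLocalRing.ResidueField A) D.Q :=
    Fermat.Agent.FrobTrace.charP_residueField A hA
  haveI : IsAlgClosed (IsLocalRing.ResidueField A) :=
    Fermat.Agent.GaussInt.isAlgClosed_residue A
  haveI : PerfectRing (IsLocalRing.ResidueField A) D.Q := inferInstance
  exact ⟨A, hA, ⟨12, by norm_num, kp_mod_annFix_bk D A hq hA hqR haux⟩,
    kp_modU D A hq hA hqR haux (kp_modG_of_eq_one D A hq hA hDR)⟩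

/-- **(K-p)**: `KpStatement p` for every prime `p ≥ 5`. -/
theorem kpStatement_close {p : ℕ} (hp : p.Prime) (h5 : 5 ≤ p) : KpStatement p :=
  kpStatement_of_mod hp h5 (kpModLeaves_all p)

end Fermat.Agent.EKp
end
end MergeWrap_E_Desc_Kp_ModClose
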